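/-
M1 (S44), chapters MOD / CAR (helper73): **two-valuation approximation** on the function field of
the two-component model.

`O1 O2` are the two Gauss valuation rings (generic points of the two components of the special
fibre), `ϖ` the uniformiser of the base.  Given ONE function `z` which vanishes on the component `1`
(`z ∈ ϖ O1`) and is a unit on the component `2`, every pair `(φ1, φ2)` of functions can be
approximated simultaneously: `∃ φ, φ ≡ φ1 mod ϖ^n O1` and `φ ≡ φ2 mod ϖ^n O2`.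

* `approx_pow` : the statement modulo `ϖ ^ n`, for arbitrary `φ1 φ2 : F`;
* `approx2_of_z` : LITERALLY the hypothesis `approx2` of
  `Car/DepthZero58.mem_cart_one_of_red_trivial` (with `ϖ = algebraMap R F π`), from the fields
  `unif1 unif2 vals1 vals2` of `Mon/WildPL43.Frame` and the `z` of `Car/Slope43.exists_val_pair`.

Mathlib + `Node/Thick25` (for `IsUnifOf`) only.
-/
import Mathlib
import Fermat.Agent.M1.Node.Thick25

set_option autoImplicit false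

namespace Fermat.Agent.M1.Mod.TwoVal73

open Fermat.Agent.M1.Node.Thick25

variable {F : Type*} [Field F]

section Basic

variable {O : ValuationSubring F} {ϖ : F}

/-- Membership in `ϖ ^ n O` in valuation form (any valuation subring, any `ϖ ≠ 0`). -/
theorem mem_pow_iff (hϖ : ϖ ≠ 0) (n : ℕ) (x : F) :
    (∃ c ∈ O, x = ϖ ^ n * c) ↔ O.valuation x ≤ O.valuation ϖ ^ n := by
  have hpos : 0 < O.valuation ϖ ^ n :=
    pow_pos (by rw [pos_iff_ne_zero, Valuation.ne_zero_iff]; exact hϖ) n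
  constructor
  · rintro ⟨c, hc, rfl⟩
    rw [map_mul, map_pow]
    exact mul_le_of_le_one_right' ((O.valuation_le_one_iff _).mpr hc)
  · intro h
    refine ⟨x / ϖ ^ n, ?_, ?_⟩
    · rw [← O.valuation_le_one_iff, map_div₀, map_pow]
      exact (div_le_one₀ hpos).mpr h
    · field_simp

/-- A unit of `O` has valuation `1`. -/
theorem val_unit {u : F} (h1 : u ∈ O) (h2 : u⁻¹ ∈ O) (h0 : u ≠ 0) : O.valuation u = 1 := by
  apply le_antisymm ((O.valuation_le_one_iff _).mpr h1)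
  have h3 : O.valuation u⁻¹ ≤ 1 := (O.valuation_le_one_iff _).mpr h2
  rw [map_inv₀] at h3
  have hpos : 0 < O.valuation u := by
    rw [pos_iff_ne_zero, Valuation.ne_zero_iff]; exact h0
  exact (inv_le_one₀ hpos).mp h3

/-- From a unit decomposition `x = ϖ ^ a * u` to the valuation identity. -/
theorem val_of_decomp {x u : F} {a : ℤ} (h1 : u ∈ O) (h2 : u⁻¹ ∈ O) (hx0 : x ≠ 0)
    (hx : x = ϖ ^ a * u) : O.valuation x = O.valuation ϖ ^ a := by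
  have hu0 : u ≠ 0 := by
    rintro rfl
    exact hx0 (by rw [hx, mul_zero])
  rw [hx, map_mul, map_zpow₀, val_unit h1 h2 hu0, mul_one]

/-- `v(ϖ) ^ b ≤ v(ϖ) ^ a` for `a ≤ b`. -/
theorem zpow_anti (hu : IsUnifOf O ϖ) {a b : ℤ} (h : a ≤ b) :
    O.valuation ϖ ^ b ≤ O.valuation ϖ ^ a :=
  (zpow_le_zpow_iff_right_of_lt_one₀ hu.val_pos hu.val_lt_one).mpr h

end Basic

section Approx

variable {O1 O2 : ValuationSubring F} {ϖ : F}

/-- **Two-valuation approximation modulo `ϖ ^ n`.** -/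
theorem approx_pow (hu1 : IsUnifOf O1 ϖ) (hu2 : IsUnifOf O2 ϖ)
    (vals1 : ∀ x : F, x ≠ 0 → ∃ a : ℤ, O1.valuation x = O1.valuation ϖ ^ a)
    (vals2 : ∀ x : F, x ≠ 0 → ∃ a : ℤ, O2.valuation x = O2.valuation ϖ ^ a)
    {z : F} (hz1 : ∃ c ∈ O1, z = ϖ * c) (hz2 : z ∈ O2) (hz2' : z⁻¹ ∈ O2) (hz0 : z ≠ 0)
    (n : ℕ) (φ1 φ2 : F) :
    ∃ φ, (∃ c ∈ O1, φ - φ1 = ϖ ^ n * c) ∧ (∃ c ∈ O2, φ - φ2 = ϖ ^ n * c) := by
  have hϖ0 : ϖ ≠ 0 := hu1.ne_zero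
  by_cases hδ : φ2 - φ1 = 0
  · refine ⟨φ1, ⟨0, O1.zero_mem, by simp⟩, ⟨0, O2.zero_mem, ?_⟩⟩
    rw [mul_zero, sub_eq_zero]
    exact (sub_eq_zero.mp hδ).symm
  obtain ⟨a1, ha1⟩ := vals1 _ hδ
  obtain ⟨a2, ha2⟩ := vals2 _ hδ
  -- the exponents
  obtain ⟨B, hB1, hB2⟩ : ∃ B : ℕ, 1 ≤ B ∧ (n : ℤ) ≤ B + a2 :=
    ⟨((n : ℤ) - a2).toNat + 1, by omega, by
      have := Int.self_le_toNat ((n : ℤ) - a2)
      push_cast; omega⟩
  obtain ⟨A, hA1, hA2⟩ : ∃ A : ℕ, B < A ∧ (n : ℤ) ≤ (A : ℤ) - B + a1 :=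
    ⟨B + ((n : ℤ) - a1).toNat + 1, by omega, by
      have := Int.self_le_toNat ((n : ℤ) - a1)
      push_cast; omega⟩
  have hv1z : O1.valuation z ≤ O1.valuation ϖ :=
    hu1.val_le_of_lt_one ((hu1.mem_pi_iff z).mp hz1)
  have hv2z : O2.valuation z = 1 := val_unit hz2 hz2' hz0
  -- the denominator `s = z ^ A + ϖ ^ B`
  have h1 : O1.valuation (z ^ A) < O1.valuation (ϖ ^ B) := by
    rw [map_pow, map_pow]
    calc O1.valuation z ^ A ≤ O1.valuation ϖ ^ A := pow_le_pow_left₀ zero_le hv1z _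
      _ < O1.valuation ϖ ^ B := pow_lt_pow_right_of_lt_one₀ hu1.val_pos hu1.val_lt_one hA1
  have h2 : O2.valuation (ϖ ^ B) < O2.valuation (z ^ A) := by
    rw [map_pow, map_pow, hv2z, one_pow]
    exact pow_lt_one₀ zero_le hu2.val_lt_one (by omega)
  have hs1 : O1.valuation (z ^ A + ϖ ^ B) = O1.valuation ϖ ^ B := by
    rw [Valuation.map_add_eq_of_lt_right _ h1, map_pow]
  have hs2 : O2.valuation (z ^ A + ϖ ^ B) = 1 := by
    rw [Valuation.map_add_eq_of_lt_left _ h2, map_pow, hv2z, one_pow]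
  have hs0 : z ^ A + ϖ ^ B ≠ 0 := by
    intro h0
    rw [h0, map_zero] at hs2
    exact zero_ne_one hs2
  -- the approximate idempotent `e = z ^ A / s`
  have he1 : O1.valuation (z ^ A / (z ^ A + ϖ ^ B)) ≤ O1.valuation ϖ ^ ((A : ℤ) - B) := by
    rw [map_div₀, hs1, map_pow, zpow_sub₀ hu1.val_ne_zero, zpow_natCast, zpow_natCast]
    exact div_le_div_of_nonneg_right (pow_le_pow_left₀ zero_le hv1z _) zero_le
  have he2 : O2.valuation (1 - z ^ A / (z ^ A + ϖ ^ B)) = O2.valuation ϖ ^ B := by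
    have : 1 - z ^ A / (z ^ A + ϖ ^ B) = ϖ ^ B / (z ^ A + ϖ ^ B) := by
      field_simp
      ring
    rw [this, map_div₀, hs2, div_one, map_pow]
  refine ⟨φ1 + z ^ A / (z ^ A + ϖ ^ B) * (φ2 - φ1), (mem_pow_iff hϖ0 n _).mpr ?_,
    (mem_pow_iff hϖ0 n _).mpr ?_⟩
  · rw [add_sub_cancel_left, map_mul, ha1]
    calc O1.valuation (z ^ A / (z ^ A + ϖ ^ B)) * O1.valuation ϖ ^ a1
        ≤ O1.valuation ϖ ^ ((A : ℤ) - B) * O1.valuation ϖ ^ a1 := mul_le_mul' he1 le_rfl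
      _ = O1.valuation ϖ ^ ((A : ℤ) - B + a1) := (zpow_add₀ hu1.val_ne_zero _ _).symm
      _ ≤ O1.valuation ϖ ^ (n : ℤ) := zpow_anti hu1 hA2
      _ = O1.valuation ϖ ^ n := zpow_natCast _ _
  · have key : φ1 + z ^ A / (z ^ A + ϖ ^ B) * (φ2 - φ1) - φ2 =
        -((1 - z ^ A / (z ^ A + ϖ ^ B)) * (φ2 - φ1)) := by ring
    rw [key, Valuation.map_neg, map_mul, he2, ha2]
    calc O2.valuation ϖ ^ B * O2.valuation ϖ ^ a2
        = O2.valuation ϖ ^ ((B : ℤ) + a2) := by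
          rw [zpow_add₀ hu2.val_ne_zero, zpow_natCast]
      _ ≤ O2.valuation ϖ ^ (n : ℤ) := zpow_anti hu2 hB2
      _ = O2.valuation ϖ ^ n := zpow_natCast _ _

/-- **`approx2`**, in the literal shape consumed by `Car/DepthZero58` (hypotheses in the shape of
the fields of `Mon/WildPL43.Frame`). -/
theorem approx2_of_z (hu1 : IsUnifOf O1 ϖ) (hu2 : IsUnifOf O2 ϖ)
    (vals1 : ∀ x : F, x ≠ 0 → ∃ (a : ℤ) (u : F), u ∈ O1 ∧ u⁻¹ ∈ O1 ∧ x = ϖ ^ a * u)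
    (vals2 : ∀ x : F, x ≠ 0 → ∃ (a : ℤ) (u : F), u ∈ O2 ∧ u⁻¹ ∈ O2 ∧ x = ϖ ^ a * u)
    {z : F} (hz1 : ∃ c ∈ O1, z = ϖ * c) (hz2 : z ∈ O2) (hz2' : z⁻¹ ∈ O2) (hz0 : z ≠ 0) :
    ∀ φ1 φ2 : F, φ1 ∈ O1 → φ2 ∈ O2 →
      ∃ φ, (∃ c ∈ O1, φ - φ1 = ϖ * c) ∧ (∃ c ∈ O2, φ - φ2 = ϖ * c) := by
  intro φ1 φ2 _ _
  have v1 : ∀ x : F, x ≠ 0 → ∃ a : ℤ, O1.valuation x = O1.valuation ϖ ^ a := by
    intro x hx
    obtain ⟨a, u, h1, h2, h3⟩ := vals1 x hx
    exact ⟨a, val_of_decomp h1 h2 hx h3⟩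
  have v2 : ∀ x : F, x ≠ 0 → ∃ a : ℤ, O2.valuation x = O2.valuation ϖ ^ a := by
    intro x hx
    obtain ⟨a, u, h1, h2, h3⟩ := vals2 x hx
    exact ⟨a, val_of_decomp h1 h2 hx h3⟩
  obtain ⟨φ, h1, h2⟩ := approx_pow hu1 hu2 v1 v2 hz1 hz2 hz2' hz0 1 φ1 φ2
  rw [pow_one] at h1 h2
  exact ⟨φ, h1, h2⟩

end Approx

end Fermat.Agent.M1.Mod.TwoVal73
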