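/-
M1 (S44), chapters MOD / CAR (helper73): **the function `z` of the two-valuation approximation
exists as soon as the two Gauss valuation rings are different.**

`O1 O2` valuation subrings of a field `F` with a common uniformiser `ϖ` (`Thick25.IsUnifOf`).  If
`O1 ≠ O2` then neither contains the other, and for `x ∈ O1 ∖ O2`, `y ∈ O2 ∖ O1`, `s = x / y`, the
function `z = s / (1 + s)` satisfies `z ∈ ϖ O1` and `z ∈ O2ˣ` (Artin–Whaples for two valuations).

Consequences (no further input from the model; for the model of record `O1 ≠ O2` is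
`ES/N34/OneNeTwo3.o1_ne_o2`, and it passes to every extension of the base by restriction):
* `exists_z` : the `z` of `Car/Slope43.exists_val_pair`;
* `approx2_of_ne` : LITERALLY the hypothesis `approx2` of
  `Car/DepthZero58.mem_cart_one_of_red_trivial`;
* `approx_pow_of_ne` : the same modulo `ϖ ^ n`, for arbitrary `φ1 φ2`.
-/
import Mathlib
import Fermat.Agent.M1.Mod.TwoVal73

set_option autoImplicit false

namespace Fermat.Agent.M1.Mod.TwoValNe73

open Fermat.Agent.M1.Node.Thick25 Fermat.Agent.M1.Mod.TwoVal73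

variable {F : Type*} [Field F] {O1 O2 : ValuationSubring F} {ϖ : F}

/-- A valuation subring with uniformiser `ϖ` contained in a valuation subring in which `ϖ` is not
invertible is equal to it. -/
theorem le_of_le (hu1 : IsUnifOf O1 ϖ) (hn2 : ϖ⁻¹ ∉ O2) (h : O1 ≤ O2) : O2 ≤ O1 := by
  intro x hx2
  by_contra hx1
  have hx0 : x ≠ 0 := by
    rintro rfl
    exact hx1 O1.zero_mem
  have hxinv : x⁻¹ ∈ O1 := (O1.mem_or_inv_mem x).resolve_left hx1
  obtain ⟨c, hc, hxc⟩ := hu1.unif x⁻¹ hxinv (by rw [inv_inv]; exact hx1)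
  apply hn2
  have : ϖ⁻¹ = x * c := by
    have h1 : x * (ϖ * c) = 1 := by rw [← hxc, mul_inv_cancel₀ hx0]
    exact (eq_inv_of_mul_eq_one_left (by rw [← h1]; ring)).symm
  rw [this]
  exact O2.mul_mem _ _ hx2 (h hc)

/-- Two different valuation subrings with a common uniformiser are incomparable. -/
theorem not_le_of_ne (hu1 : IsUnifOf O1 ϖ) (hu2 : IsUnifOf O2 ϖ) (hne : O1 ≠ O2) :
    ¬ O1 ≤ O2 ∧ ¬ O2 ≤ O1 :=
  ⟨fun h => hne (le_antisymm h (le_of_le hu1 hu2.nonunit h)),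
    fun h => hne (le_antisymm (le_of_le hu2 hu1.nonunit h) h)⟩

/-- **The function `z`**: vanishing on the component `1`, a unit on the component `2`. -/
theorem exists_z (hu1 : IsUnifOf O1 ϖ) (hu2 : IsUnifOf O2 ϖ) (hne : O1 ≠ O2) :
    ∃ z : F, (∃ c ∈ O1, z = ϖ * c) ∧ z ∈ O2 ∧ z⁻¹ ∈ O2 ∧ z ≠ 0 := by
  obtain ⟨h12, h21⟩ := not_le_of_ne hu1 hu2 hne
  obtain ⟨x, hx1, hx2⟩ := SetLike.not_le_iff_exists.mp h12
  obtain ⟨y, hy2, hy1⟩ := SetLike.not_le_iff_exists.mp h21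
  have hy0 : y ≠ 0 := by
    rintro rfl
    exact hy1 O1.zero_mem
  -- valuations of `x`, `y`
  have vx1 : O1.valuation x ≤ 1 := (O1.valuation_le_one_iff _).mpr hx1
  have vx2 : 1 < O2.valuation x := not_le.mp (fun h => hx2 ((O2.valuation_le_one_iff _).mp h))
  have vy2 : O2.valuation y ≤ 1 := (O2.valuation_le_one_iff _).mpr hy2
  have vy1 : 1 < O1.valuation y := not_le.mp (fun h => hy1 ((O1.valuation_le_one_iff _).mp h))
  have py1 : 0 < O1.valuation y := lt_trans zero_lt_one vy1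
  have py2 : 0 < O2.valuation y := by
    rw [pos_iff_ne_zero, Valuation.ne_zero_iff]; exact hy0
  -- `s = x / y`
  have vs1 : O1.valuation (x / y) < 1 := by
    rw [map_div₀, div_lt_one₀ py1]
    exact lt_of_le_of_lt vx1 vy1
  have vs2 : 1 < O2.valuation (x / y) := by
    rw [map_div₀, one_lt_div₀ py2]
    exact lt_of_le_of_lt vy2 vx2
  have hs0 : x / y ≠ 0 := by
    intro h0
    rw [h0, map_zero] at vs2
    exact absurd vs2 (not_lt.mpr zero_le_one)
  -- `1 + s`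
  have v1s : O1.valuation (1 + x / y) = 1 := by
    have h : O1.valuation (x / y) < O1.valuation (1 : F) := by rw [map_one]; exact vs1
    rw [Valuation.map_add_eq_of_lt_left _ h, map_one]
  have v2s : O2.valuation (1 + x / y) = O2.valuation (x / y) := by
    have h : O2.valuation (1 : F) < O2.valuation (x / y) := by rw [map_one]; exact vs2
    exact Valuation.map_add_eq_of_lt_right _ h
  have h1s0 : 1 + x / y ≠ 0 := by
    intro h0
    rw [h0, map_zero] at v1s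
    exact zero_ne_one v1s
  -- `z = s / (1 + s)`
  have vz1 : O1.valuation (x / y / (1 + x / y)) < 1 := by
    rw [map_div₀, v1s, div_one]; exact vs1
  have vz2 : O2.valuation (x / y / (1 + x / y)) = 1 := by
    rw [map_div₀, v2s]
    exact div_self (by rw [Valuation.ne_zero_iff]; exact hs0)
  refine ⟨x / y / (1 + x / y), (hu1.mem_pi_iff _).mpr vz1,
    (O2.valuation_le_one_iff _).mp vz2.le, ?_, div_ne_zero hs0 h1s0⟩
  rw [← O2.valuation_le_one_iff, map_inv₀, vz2, inv_one]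

/-- Two-valuation approximation modulo `ϖ ^ n` from `O1 ≠ O2`. -/
theorem approx_pow_of_ne (hu1 : IsUnifOf O1 ϖ) (hu2 : IsUnifOf O2 ϖ) (hne : O1 ≠ O2)
    (vals1 : ∀ x : F, x ≠ 0 → ∃ a : ℤ, O1.valuation x = O1.valuation ϖ ^ a)
    (vals2 : ∀ x : F, x ≠ 0 → ∃ a : ℤ, O2.valuation x = O2.valuation ϖ ^ a)
    (n : ℕ) (φ1 φ2 : F) :
    ∃ φ, (∃ c ∈ O1, φ - φ1 = ϖ ^ n * c) ∧ (∃ c ∈ O2, φ - φ2 = ϖ ^ n * c) := by
  obtain ⟨z, hz1, hz2, hz2', hz0⟩ := exists_z hu1 hu2 hne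
  exact approx_pow hu1 hu2 vals1 vals2 hz1 hz2 hz2' hz0 n φ1 φ2

/-- **`approx2`** (the literal hypothesis of `Car/DepthZero58.mem_cart_one_of_red_trivial`) from
`O1 ≠ O2` and the fields `unif1 unif2 vals1 vals2` of `Mon/WildPL43.Frame`. -/
theorem approx2_of_ne (hu1 : IsUnifOf O1 ϖ) (hu2 : IsUnifOf O2 ϖ) (hne : O1 ≠ O2)
    (vals1 : ∀ x : F, x ≠ 0 → ∃ (a : ℤ) (u : F), u ∈ O1 ∧ u⁻¹ ∈ O1 ∧ x = ϖ ^ a * u)
    (vals2 : ∀ x : F, x ≠ 0 → ∃ (a : ℤ) (u : F), u ∈ O2 ∧ u⁻¹ ∈ O2 ∧ x = ϖ ^ a * u) :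
    ∀ φ1 φ2 : F, φ1 ∈ O1 → φ2 ∈ O2 →
      ∃ φ, (∃ c ∈ O1, φ - φ1 = ϖ * c) ∧ (∃ c ∈ O2, φ - φ2 = ϖ * c) := by
  obtain ⟨z, hz1, hz2, hz2', hz0⟩ := exists_z hu1 hu2 hne
  exact approx2_of_z hu1 hu2 vals1 vals2 hz1 hz2 hz2' hz0

end Fermat.Agent.M1.Mod.TwoValNe73
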