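/-
Programme M1 (S44), chapter FIB/MOD (helper98): **`(AC_1)`, `(AC_2)` FOR THE MODEL OF RECORD**.

`(AC_j)` = `Constants98.ResidueAlgClosed π O_j` = "the residue field of `R = AK A K` is
algebraically closed in the residue field of the Gauss valuation ring `O_j`" is the hypothesis
`hac1`, `hac2` of every FIB / PIC / CAR instance (`h0k`, `Frame`, `TwoChart`, `ToricSetup`, ...).
For the model of record (`ES/N34/ModelDefs9`: `O1 = gaussVS hπ (FK (M' * q) K) hE` the Gauss
valuation ring of the `q`-expansion at `∞`, `O2 = O1.comap W_N`) it holds UNCONDITIONALLY: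
the residue map of `O1` is `gaussVSRed : O1 →+* (Res (AK A K))⸨X⸩`, its kernel is `π O1`, it is
`C ∘ res` on the constants, and the field `k` is algebraically closed in `k⸨X⸩`
(`Fib/ACGauss98`, `Fib/LaurentConst98`).  `O2` follows by transport along `W_N`
(`Fib/ACTransfer98`).

* `coe_algebraMap_AK`       : the constants of `FK N K`, as Laurent series;
* `residueAlgClosed_gaussVS_FK`: `(AC)` for the Gauss valuation ring of ANY level `N`;
* `residueAlgClosed_O1`, `residueAlgClosed_O2` : the model of record.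
-/
import Mathlib
import Fermat.Agent.ES.N34.ModelDefs9
import Fermat.Agent.ES.N34.CombW5
import Fermat.Agent.M1.Fib.ACGauss98
import Fermat.Agent.M1.Fib.ACTransfer98

set_option autoImplicit false
set_option linter.unusedSectionVars false
set_option synthInstance.maxHeartbeats 400000

noncomputable section

open HahnSeries ModularCurve

namespace Fermat.Agent.M1.Mod.ACModel98

open Fermat.Agent.RED.Interface4 Fermat.Agent.RED.PUR.GaussGen8
  Fermat.Agent.ES.N34.ModelDefs9
  Fermat.Agent.M1.Fib.Branch98 Fermat.Agent.M1.Fib.Constants98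

variable {A : ValuationSubring Qbar} {K : IntermediateField ℚ Qbar}

section Level

variable (N : ℕ) [NeZero N]

theorem algebraMap_AK_eq (r : ↥(AK A K)) :
    algebraMap ↥(AK A K) ↥(FK N K) r = algebraMap ↥K ↥(FK N K) ((r : ↥(AK A K)) : ↥K) := rfl

theorem coe_algebraMap_K (x : ↥K) :
    ((algebraMap ↥K ↥(FK N K) x : FK N K) : LaurentSeries ↥K)
      = algebraMap ↥K (LaurentSeries ↥K) x := rfl

/-- The constants of `FK N K`, as Laurent series. -/
theorem coe_algebraMap_AK (r : ↥(AK A K)) :
    ((algebraMap ↥(AK A K) ↥(FK N K) r : FK N K) : LaurentSeries ↥K)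
      = HahnSeries.C ((r : ↥(AK A K)) : ↥K) := by
  rw [algebraMap_AK_eq, coe_algebraMap_K, algebraMap_eq_C]

/-- **`(AC)` for the Gauss valuation ring of the `q`-expansion, any level.** -/
theorem residueAlgClosed_gaussVS_FK {π : ↥(AK A K)} (hπ : IsUnif (AK A K) π)
    (hE : FK N K ≤ fracField (AK A K)) :
    ResidueAlgClosed π (gaussVS hπ (FK N K) hE) :=
  Fermat.Agent.M1.Fib.ACGauss98.residueAlgClosed_gaussVS hπ (FK N K) hE (coe_algebraMap_AK N)

theorem algebraMap_pi_ne_zero {π : ↥(AK A K)} (hπ : IsUnif (AK A K) π) :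
    algebraMap ↥(AK A K) ↥(FK N K) π ≠ 0 :=
  Fermat.Agent.M1.Fib.ACGauss98.algebraMap_pi_ne_zero hπ (FK N K) (coe_algebraMap_AK N)

end Level

section Model

variable (M' q : ℕ) [NeZero M'] [NeZero q]
  {π : ↥(AK A K)} (hπ : IsUnif (AK A K) π) (hE : FK (M' * q) K ≤ fracField (AK A K))

/-- **`(AC_1)` for the model of record.** -/
theorem residueAlgClosed_O1 : ResidueAlgClosed π (O1 M' q hπ hE) :=
  residueAlgClosed_gaussVS_FK (M' * q) hπ hE

set_option maxHeartbeats 2000000 in
/-- **`(AC_2)` for the model of record.** -/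
theorem residueAlgClosed_O2 : ResidueAlgClosed π (O2 M' q hπ hE) := by
  have h1 := residueAlgClosed_O1 M' q hπ hE
  have h0 := algebraMap_pi_ne_zero (M' * q) hπ
  have h2 := Fermat.Agent.M1.Fib.ACTransfer98.residueAlgClosed_comap_algHom (wN K M' q)
    (Fermat.Agent.ES.N34.CombW5.wN_algebraMap_AK M' q) h0 h1
  exact h2

end Model

end Fermat.Agent.M1.Mod.ACModel98
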