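/-
M1 (S44), chapter MOD (helper73): **base-ring facts for `R = A ∩ L`** (`L ⊂ ℚ̄` a number field, `A`
over `p`) with a uniformiser `ϖ` in the `PeuRamData.unif` shape, in the literal shapes of the side
hypotheses of `Car/DepthZero58.mem_cart_one_of_red_trivial`:

* `hchar_AK` : `ϖ ∣ (p : A ∩ L)`;
* `hperf_AK` : `∀ r, ∃ s, ϖ ∣ s ^ p - r` (the residue field is finite of characteristic `p`, hence
  perfect);
* `maximalIdeal_eq_span`, `irreducible_unif`, `dvrR_AK` : `ϖ` generates the maximal ideal, is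
  irreducible, and every non-zero element is `ϖ ^ k * unit` (the field `dvrR` of `WildPL43.Frame`).
-/
import Mathlib
import Fermat.Agent.RED.DESC.NumberFieldDVR27

set_option autoImplicit false
set_option linter.unusedSectionVars false

namespace Fermat.Agent.M1.Mod.BaseFacts73

open Fermat.Agent.RED.Interface4 Fermat.Agent.RED.DESC

variable {A : ValuationSubring Qbar} {L : IntermediateField ℚ Qbar} [FiniteDimensional ℚ L]
  {p : ℕ} {ϖ : AK A L}

/-- `ϖ` generates the maximal ideal of `A ∩ L`. -/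
theorem maximalIdeal_eq_span (hunif : ∀ x : AK A L, ¬ IsUnit x ↔ ϖ ∣ x) :
    IsLocalRing.maximalIdeal (AK A L) = Ideal.span {ϖ} := by
  ext x
  rw [IsLocalRing.mem_maximalIdeal, mem_nonunits_iff, Ideal.mem_span_singleton]
  exact hunif x

/-- `hchar`: the uniformiser divides `p`. -/
theorem hchar_AK (hunif : ∀ x : AK A L, ¬ IsUnit x ↔ ϖ ∣ x) (hA : A.LiesOverPrime p) :
    ϖ ∣ ((p : ℕ) : AK A L) := by
  rw [← hunif, ← mem_nonunits_iff, ← IsLocalRing.mem_maximalIdeal]
  exact NumberFieldDVR27.natCast_mem_maximalIdeal A L hA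

/-- `hperf`: every element of `A ∩ L` is a `p`-th power modulo `ϖ`. -/
theorem hperf_AK (hunif : ∀ x : AK A L, ¬ IsUnit x ↔ ϖ ∣ x) (hp : p.Prime)
    (hA : A.LiesOverPrime p) : ∀ r : AK A L, ∃ s : AK A L, ϖ ∣ s ^ p - r := by
  intro r
  have : Fact p.Prime := ⟨hp⟩
  have : Finite (IsLocalRing.ResidueField (AK A L)) :=
    NumberFieldDVR27.finite_residueField_AK A L hp.ne_zero hA
  have : CharP (IsLocalRing.ResidueField (AK A L)) p :=
    NumberFieldDVR27.charP_residueField_AK A L hp hA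
  have : ExpChar (IsLocalRing.ResidueField (AK A L)) p := ExpChar.prime hp
  obtain ⟨y, hy⟩ := surjective_frobenius (IsLocalRing.ResidueField (AK A L)) p
    (IsLocalRing.residue (AK A L) r)
  rw [frobenius_def] at hy
  obtain ⟨s, rfl⟩ := IsLocalRing.residue_surjective y
  refine ⟨s, ?_⟩
  rw [← hunif, ← mem_nonunits_iff, ← IsLocalRing.mem_maximalIdeal,
    ← IsLocalRing.residue_eq_zero_iff, map_sub, map_pow, sub_eq_zero]
  exact hy

/-- `ϖ` is irreducible. -/
theorem irreducible_unif (hunif : ∀ x : AK A L, ¬ IsUnit x ↔ ϖ ∣ x) (hp : p.Prime)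
    (hA : A.LiesOverPrime p) : Irreducible ϖ := by
  have : IsDiscreteValuationRing (AK A L) :=
    NumberFieldDVR27.isDiscreteValuationRing_AK A L hp.ne_zero hA
  rw [IsDiscreteValuationRing.irreducible_iff_uniformizer]
  exact maximalIdeal_eq_span hunif

/-- `dvrR`: every non-zero element of `A ∩ L` is `ϖ ^ k * unit`. -/
theorem dvrR_AK (hunif : ∀ x : AK A L, ¬ IsUnit x ↔ ϖ ∣ x) (hp : p.Prime)
    (hA : A.LiesOverPrime p) :
    ∀ r : AK A L, r ≠ 0 → ∃ (k : ℕ) (v : (AK A L)ˣ), r = ϖ ^ k * v := by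
  intro r hr
  have : IsDiscreteValuationRing (AK A L) :=
    NumberFieldDVR27.isDiscreteValuationRing_AK A L hp.ne_zero hA
  obtain ⟨k, v, hv⟩ :=
    IsDiscreteValuationRing.eq_unit_mul_pow_irreducible hr (irreducible_unif hunif hp hA)
  exact ⟨k, v, by rw [hv, mul_comm]⟩

end Fermat.Agent.M1.Mod.BaseFacts73
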