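/-
Program M1 (S44), chapter MOD/BASE, brick (M2') — helper34: the totally ramified step for
`A ∩ K ⊂ A ∩ L`, `L ⊂ ℚ̄` finite normal over `ℚ`, `K = L^{I_A}` the inertia-fixed part of `L`
(e.g. `InertField27.inertiaPart A L`).  Instantiates `Mod/TotRam34`.

* `exists_inertia_lift` : every `σ ∈ Gal(L/K)` is the restriction of an element of the inertia
  group of `A` (Artin's theorem for the finite group `res(I_A) ≤ Gal(L/ℚ)`);
* `exists_ramData` : for uniformisers `π_K`, `π_L` there is a monic `E ∈ (A ∩ K)[X]` of degree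
  `e ≥ 1` with `E(π_L) = 0`, `E'(π_L) ≠ 0`, `π_K ∣` lower coefficients, `E(0) = π_K * unit`,
  `π_K = unit * π_L ^ e`, `A ∩ L = ⊕_{j<e} (A ∩ K) π_L^j`, `L = K[π_L]`, and `A ∩ L` is integral
  over `A ∩ K`.  All statements are instance-free (`eval₂` along the inclusions).
-/
import Mathlib
import Fermat.Agent.RED.Interface4
import Fermat.Agent.RED.DESC.NumberFieldDVR27
import Fermat.Agent.RED.DESC.CoeffDescent1
import Fermat.Agent.ES.RED.GaloisRed21
import Fermat.Agent.M1.Mod.TotRam34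

set_option autoImplicit false
set_option linter.unusedSectionVars false
set_option linter.unusedVariables false
set_option linter.style.haveILetI false

noncomputable section

namespace Fermat.Agent.M1.Mod.TotRamInst34

open Polynomial IsLocalRing
open Fermat.Agent.RED.Interface4 Fermat.Agent.RED.DESC Fermat.Agent.ES.RED.GaloisRed21

variable (A : ValuationSubring Qbar) {K L : IntermediateField ℚ Qbar} (hle : K ≤ L)

/-- `K → L`. -/
abbrev incKL : ↥K →+* ↥L := CoeffDescent1.inclRingHom hle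

/-- `A ∩ K → A ∩ L`. -/
def incAK : ↥(AK A K) →+* ↥(AK A L) :=
  (incKL hle).restrict (AK A K) (AK A L) (fun x hx => by
    rw [NumberFieldDVR27.mem_AK_iff] at hx ⊢
    exact hx)

@[simp] theorem coe_incAK (x : AK A K) :
    (((incAK A hle x : AK A L) : L) : Qbar) = ((x : K) : Qbar) := rfl

theorem coe_incAK' (x : AK A K) : ((incAK A hle x : AK A L) : L) = incKL hle (x : K) := rfl

/-- `A ∩ K → L`. -/
abbrev incAKL : ↥(AK A K) →+* ↥L := (incKL hle).comp (AK A K).subtype

/-! ### Inertia acts on `A ∩ L` -/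

section Inertia

variable {A}

theorem mem_decomposition_of_mem_inertia {τ : Qbar ≃ₐ[ℚ] Qbar}
    (hτ : τ ∈ A.inertiaSubgroupIn ℚ) : τ ∈ A.decompositionSubgroup ℚ := by
  obtain ⟨h, -⟩ := psiRes_eq_one_of_mem_inertia A hτ
  exact h

theorem apply_mem_of_mem_inertia {τ : Qbar ≃ₐ[ℚ] Qbar} (hτ : τ ∈ A.inertiaSubgroupIn ℚ)
    {a : Qbar} (ha : a ∈ A) : τ a ∈ A :=
  (sigmaA A ⟨τ, mem_decomposition_of_mem_inertia hτ⟩ ⟨a, ha⟩).2

theorem sub_mem_maximalIdeal_of_mem_inertia {τ : Qbar ≃ₐ[ℚ] Qbar}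
    (hτ : τ ∈ A.inertiaSubgroupIn ℚ) (a : A) :
    sigmaA A ⟨τ, mem_decomposition_of_mem_inertia hτ⟩ a - a ∈ maximalIdeal A := by
  obtain ⟨h, h1⟩ := psiRes_eq_one_of_mem_inertia A hτ
  have h2 := psiRes_residue A ⟨τ, h⟩ a
  rw [h1] at h2
  rw [← Ideal.Quotient.eq_zero_iff_mem, map_sub, sub_eq_zero]
  exact h2.symm

end Inertia

/-! ### Lifting `Gal(L/K)` to inertia -/

section Lift

variable {A} [FiniteDimensional ℚ L] [Normal ℚ L]

/-- every `ℚ`-automorphism of `L` fixing `K = L^{I_A}` pointwise is the restriction of an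
element of the inertia group. -/
theorem exists_inertia_lift
    (hK : ∀ x : Qbar, x ∈ K ↔ x ∈ L ∧ ∀ τ ∈ A.inertiaSubgroupIn ℚ, τ x = x)
    (σ : ↥L ≃ₐ[ℚ] ↥L) (hσ : ∀ x : L, (x : Qbar) ∈ K → σ x = x) :
    ∃ τ ∈ A.inertiaSubgroupIn ℚ, ∀ x : L, ((σ x : L) : Qbar) = τ (x : Qbar) := by
  set G : Subgroup (↥L ≃ₐ[ℚ] ↥L) :=
    (A.inertiaSubgroupIn ℚ).map (AlgEquiv.restrictNormalHom (↥L)) with hG
  have hmem : σ ∈ IntermediateField.fixingSubgroup (IntermediateField.fixedField G) := by
    rw [IntermediateField.mem_fixingSubgroup_iff]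
    intro x hx
    apply hσ
    rw [hK]
    refine ⟨x.2, fun τ hτ => ?_⟩
    have h1 : AlgEquiv.restrictNormalHom (↥L) τ ∈ G := ⟨τ, hτ, rfl⟩
    have h2 := (IntermediateField.mem_fixedField_iff G x).mp hx _ h1
    have h3 := AlgEquiv.restrictNormal_commutes τ (↥L) x
    have h4 : algebraMap (↥L) Qbar ((AlgEquiv.restrictNormalHom (↥L) τ) x) =
        algebraMap (↥L) Qbar x := by rw [h2]
    exact h3.symm.trans h4
  rw [IntermediateField.fixingSubgroup_fixedField] at hmem
  obtain ⟨τ, hτ, hτσ⟩ := hmem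
  refine ⟨τ, hτ, fun x => ?_⟩
  rw [← hτσ]
  exact AlgEquiv.restrictNormal_commutes τ (↥L) x

end Lift

/-! ### The ramification data -/

section Main

variable {A} {q : ℕ} [FiniteDimensional ℚ L] [Normal ℚ L]

include hle in
theorem finiteDimensional_of_le : FiniteDimensional ℚ K :=
  Module.Finite.of_injective (IntermediateField.inclusion hle).toLinearMap
    (IntermediateField.inclusion hle).injective

/-- **The totally ramified step for `A ∩ K ⊂ A ∩ L`**, `K = L^{I_A}`. -/
theorem exists_ramData (hq0 : q ≠ 0) (hA : A.LiesOverPrime q)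
    (hK : ∀ x : Qbar, x ∈ K ↔ x ∈ L ∧ ∀ τ ∈ A.inertiaSubgroupIn ℚ, τ x = x)
    {πK : AK A K} (hπK : Irreducible πK) {πL : AK A L} (hπL : Irreducible πL) :
    ∃ (e : ℕ) (E : (AK A K)[X]) (u : (AK A L)ˣ) (w : (AK A K)ˣ), 0 < e ∧ E.Monic ∧
      E.natDegree = e ∧
      E.eval₂ (incAKL A hle) (πL : L) = 0 ∧
      (derivative E).eval₂ (incAKL A hle) (πL : L) ≠ 0 ∧
      (∀ i < e, πK ∣ E.coeff i) ∧ E.coeff 0 = πK * w ∧
      incAK A hle πK = u * πL ^ e ∧
      (∀ s : AK A L, ∃ c : ℕ → AK A K,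
        s = ∑ j ∈ Finset.range e, incAK A hle (c j) * πL ^ j) ∧
      (∀ x : L, ∃ G : (↥K)[X], x = G.eval₂ (incKL hle) (πL : L)) ∧
      (∀ s : AK A L, ∃ P : (AK A K)[X], P.Monic ∧ P.eval₂ (incAK A hle) s = 0) := by
  classical
  haveI hfinK : FiniteDimensional ℚ K := finiteDimensional_of_le hle
  letI algKL : Algebra ↥K ↥L := (incKL hle).toAlgebra
  letI algRS : Algebra ↥(AK A K) ↥(AK A L) := (incAK A hle).toAlgebra
  letI algRL : Algebra ↥(AK A K) ↥L := (incAKL A hle).toAlgebra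
  haveI : IsScalarTower ↥(AK A K) ↥K ↥L := IsScalarTower.of_algebraMap_eq (fun x => rfl)
  haveI : IsScalarTower ↥(AK A K) ↥(AK A L) ↥L := IsScalarTower.of_algebraMap_eq (fun x => rfl)
  haveI : IsScalarTower ℚ ↥K ↥L := IsScalarTower.of_algebraMap_eq (fun x => Subtype.ext rfl)
  haveI : FiniteDimensional ↥K ↥L := Module.Finite.right ℚ ↥K ↥L
  haveI : Normal ↥K ↥L := Normal.tower_top_of_normal ℚ ↥K ↥L
  haveI : IsGalois ↥K ↥L := ⟨⟩
  haveI := NumberFieldDVR27.isDiscreteValuationRing_AK A K hq0 hA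
  haveI := NumberFieldDVR27.isDiscreteValuationRing_AK A L hq0 hA
  haveI : PerfectField (ResidueField ↥(AK A K)) := by
    haveI := NumberFieldDVR27.finite_residueField_AK A K hq0 hA
    exact PerfectField.ofFinite
  -- the hypotheses of `TotRam34`
  have hyp : TotRam34.Hyp ↥(AK A K) ↥(AK A L) ↥K ↥L := by
    refine ⟨fun σ s => ?_, fun s c hc => ?_⟩
    · obtain ⟨τ, hτ, hτσ⟩ := exists_inertia_lift (L := L) hK (σ.restrictScalars ℚ) (by
        intro x hx
        have : x = algebraMap ↥K ↥L ⟨(x : Qbar), hx⟩ := Subtype.ext rfl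
        rw [this]
        exact σ.commutes _)
      have hsA : (((s : AK A L) : L) : Qbar) ∈ A := (NumberFieldDVR27.mem_AK_iff A L _).mp s.2
      have hmem : σ (s : L) ∈ AK A L := by
        rw [NumberFieldDVR27.mem_AK_iff]
        have := hτσ (s : L)
        rw [AlgEquiv.restrictScalars_apply] at this
        rw [this]
        exact apply_mem_of_mem_inertia hτ hsA
      refine ⟨⟨σ (s : L), hmem⟩, rfl, ?_⟩
      rw [NumberFieldDVR27.mem_maximalIdeal_iff]
      have h := sub_mem_maximalIdeal_of_mem_inertia hτ (NumberFieldDVR27.incl A L s)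
      have e : NumberFieldDVR27.incl A L ((⟨σ (s : L), hmem⟩ : AK A L) - s) =
          sigmaA A ⟨τ, mem_decomposition_of_mem_inertia hτ⟩ (NumberFieldDVR27.incl A L s) -
            NumberFieldDVR27.incl A L s := by
        rw [map_sub]
        congr 1
        apply Subtype.ext
        rw [NumberFieldDVR27.coe_incl, coe_sigmaA, NumberFieldDVR27.coe_incl]
        have := hτσ (s : L)
        rw [AlgEquiv.restrictScalars_apply] at this
        exact this
      rw [e]
      exact h
    · have hcA : c ∈ AK A K := by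
        rw [NumberFieldDVR27.mem_AK_iff]
        have h1 : ((c : K) : Qbar) = (((s : AK A L) : L) : Qbar) := congrArg (fun z : L => (z : Qbar)) hc
        rw [h1]
        exact (NumberFieldDVR27.mem_AK_iff A L _).mp s.2
      exact ⟨⟨c, hcA⟩, Subtype.ext hc⟩
  obtain ⟨E, u, w, hEm, hEdeg, hroot, hmin, hlow, h0, hπe, hadj⟩ :=
    TotRam34.exists_eisenstein hyp hπL hπK
  have hpos : 0 < Module.finrank ↥K ↥L := Module.finrank_pos
  have hrootL : E.eval₂ (incAKL A hle) (πL : L) = 0 := by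
    have h1 : aeval (algebraMap ↥(AK A L) ↥L πL) E = 0 := by
      rw [aeval_algebraMap_apply, hroot, map_zero]
    rw [aeval_def] at h1
    exact h1
  have hint : IsIntegral ↥K ((πL : AK A L) : L) := Algebra.IsIntegral.isIntegral _
  have hsep : (E.map (algebraMap ↥(AK A K) ↥K)).Separable := by
    rw [hmin]
    exact (minpoly.irreducible hint).separable
  have hder : (derivative E).eval₂ (incAKL A hle) (πL : L) ≠ 0 := by
    have h1 : aeval ((πL : AK A L) : L) (E.map (algebraMap ↥(AK A K) ↥K)) = 0 := by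
      rw [hmin]; exact minpoly.aeval _ _
    have h2 := hsep.aeval_derivative_ne_zero h1
    rw [derivative_map, aeval_map_algebraMap, aeval_def] at h2
    exact h2
  refine ⟨Module.finrank ↥K ↥L, E, u, w, hpos, hEm, hEdeg, hrootL, hder, ?_, h0, hπe, ?_, ?_, ?_⟩
  · intro i hi
    exact hlow i (by rw [hEdeg]; exact hi)
  · intro s
    exact TotRam34.exists_expansion_lt hyp hπL hπK hπe s
  · intro x
    have hx : x ∈ (IntermediateField.adjoin ↥K {((πL : AK A L) : L)}).toSubalgebra := by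
      have h1 : x ∈ (⊤ : IntermediateField ↥K ↥L) := IntermediateField.mem_top
      rw [← hadj] at h1
      exact h1
    rw [IntermediateField.adjoin_simple_toSubalgebra_of_isAlgebraic hint.isAlgebraic,
      Algebra.adjoin_singleton_eq_range_aeval] at hx
    obtain ⟨G, hG⟩ := hx
    exact ⟨G, hG.symm⟩
  · intro s
    obtain ⟨P, hP, hPs⟩ := TotRam34.isIntegral hyp s
    exact ⟨P, hP, hPs⟩

end Main

end Fermat.Agent.M1.Mod.TotRamInst34
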