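/-
Program M1 (S44), chapter MOD/BASE, brick (M3) — helper34: **CHART BASE CHANGE**
`B_i(L) = B_i(K)[π_L]` in `ModelDefs9` names.

`K ≤ L ⊂ ℚ̄` number fields, `L` finite normal over `ℚ`, `K = L^{I_A}` the inertia-fixed part of `L`
(e.g. `InertField27.inertiaPart A L`).  Given the nodal two-chart models over `A ∩ K` (regular,
from Program P) and over `A ∩ L`:

* `adjoin_eq_top` : `F_L = F_K(π_L)` (function fields `FK N ·`; variant of
  `ConstUnram1.exists_aeval_eq` for a primitive element over `K`);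
* `gaussRing_mono`, `bcLe_frickeFK` : the Gauss rings over `K` map into those over `L`;
* `chartBC` : the bundle `Concl` — `decomp0/decomp1` (every `z ∈ B_i(L)` is `b + π_L z'` with
  `b ∈ B_i(K)`, `z' ∈ B_i(L)`), `map0/map1` (`B_i(K) → B_i(L)`), `compat1/compat2`, and
  `eis` (`π_K = unit * π_L ^ e`, `e ≥ 1`): the inputs of `Node/BaseNode25.RamBase`.
-/
import Mathlib
import Fermat.Agent.ES.N34.ModelDefs9
import Fermat.Agent.ES.N34.NodalCore13
import Fermat.Agent.ES.P36.ConstUnram1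
import Fermat.Agent.M1.Base.ChartBCAbs34
import Fermat.Agent.M1.Mod.TotRamInst34

set_option autoImplicit false
set_option linter.unusedSectionVars false
set_option linter.unusedVariables false
set_option linter.style.haveILetI false

noncomputable section

namespace Fermat.Agent.M1.Mod.ChartBC34

open AlgebraicCurve ModularCurve HahnSeries IntermediateField Polynomial
open Fermat.Agent.X0 Fermat.Agent.RED.Interface4 Fermat.Agent.RED.DESC
  Fermat.Agent.RED.PUR.GaussGen8 Fermat.Agent.RED.PUR.ChartGeneric22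
  Fermat.Agent.RED.BASE.EtaQuot12 Fermat.Agent.ES.N34.ModelDefs9 Fermat.Agent.ES.N34.NodalCore13
  Fermat.Agent.ES.N34.FrickeFK8
open Fermat.Agent.ES.P36.ConstUnram1 (bcLe coe_bcLe baseChangeHom_bcLe bcLe_algebraMap)
open Fermat.Agent.M1.Mod.TotRamInst34 (incKL incAK incAKL)
open Fermat.Agent.M1.Base

/-! ### Generation: `F_L = F_K(θ)` for a primitive element `θ` of `L / K` -/

section Gen

variable (N : ℕ) {K L : IntermediateField ℚ Qbar} (hle : K ≤ L)

theorem adjoin_eq_top (θ : L) (hprim : ∀ c : L, ∃ G : (↥K)[X], c = G.eval₂ (incKL hle) θ) :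
    letI : Algebra (FK N K) (FK N L) := (bcLe N hle).toAlgebra
    IntermediateField.adjoin (FK N K) {algebraMap L (FK N L) θ} = ⊤ := by
  letI : Algebra (FK N K) (FK N L) := (bcLe N hle).toAlgebra
  set θ' : FK N L := algebraMap L (FK N L) θ with hθ'
  set S : IntermediateField (FK N K) (FK N L) := (FK N K)⟮θ'⟯ with hS
  have hθS : θ' ∈ S := mem_adjoin_simple_self _ _
  rw [eq_top_iff]
  intro y _
  let S' : Subfield (LaurentSeries L) := S.toSubfield.map (FK N L).val.toRingHom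
  have hle' : Subfield.closure (Set.range (algebraMap L (LaurentSeries L)) ∪
      (⇑(coeffEmb L) '' ((modularFunctionFieldFull N : IntermediateField ℚ (LaurentSeries ℚ)) :
        Set (LaurentSeries ℚ)))) ≤ S' := by
    rw [Subfield.closure_le]
    rintro z (⟨c, rfl⟩ | ⟨z₀, hz₀, rfl⟩)
    · obtain ⟨G, hG⟩ := hprim c
      refine ⟨algebraMap L (FK N L) c, ?_, rfl⟩
      show algebraMap L (FK N L) c ∈ S
      rw [hG, eval₂_eq_sum_range, map_sum]
      refine sum_mem fun i _ => ?_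
      rw [map_mul, map_pow]
      refine mul_mem ?_ (pow_mem hθS _)
      have h2 : algebraMap L (FK N L) (incKL hle (G.coeff i)) =
          algebraMap (FK N K) (FK N L) (algebraMap K (FK N K) (G.coeff i)) :=
        (bcLe_algebraMap N hle (G.coeff i)).symm
      rw [h2]
      exact S.algebraMap_mem _
    · refine ⟨algebraMap (FK N K) (FK N L)
        ⟨coeffEmb K z₀, coeffEmb_mem_laurentBaseChange K hz₀⟩, S.algebraMap_mem _, ?_⟩
      show coeffMap (CoeffDescent1.inclRingHom hle) (coeffEmb K z₀) = coeffEmb L z₀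
      exact CoeffDescent1.coeffMap_coeffEmb_of_algHom (CoeffDescent1.inclRingHom hle) z₀
  have hy : (y : LaurentSeries L) ∈ S' := hle' (mem_laurentBaseChange_iff.mp y.2)
  obtain ⟨y', hy', hyy'⟩ := hy
  have : y' = y := Subtype.ext hyy'
  rw [← this]
  exact hy'

end Gen

section Gauss

variable {A : ValuationSubring Qbar} {K L : IntermediateField ℚ Qbar} (hle : K ≤ L)

theorem embK_coeffMap_incAK (b : LaurentSeries ↥(AK A K)) :
    embK (AK A L) (coeffMap (incAK A hle) b) = coeffMap (incKL hle) (embK (AK A K) b) := by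
  unfold embK
  rw [coeffMap_coeffMap, coeffMap_coeffMap]
  exact coeffMap_congr (RingHom.ext fun x => rfl) b

/-- the Gauss ring over `A ∩ K` maps into the Gauss ring over `A ∩ L`. -/
theorem gaussRing_mono {f : LaurentSeries K} (hf : f ∈ gaussRing (AK A K)) :
    coeffMap (incKL hle) f ∈ gaussRing (AK A L) := by
  obtain ⟨a, s, hs, hfs⟩ := hf
  refine ⟨coeffMap (incAK A hle) a, coeffMap (incAK A hle) s, ?_, ?_⟩
  · intro h0
    apply hs
    ext k
    have hk := congrArg (fun x => HahnSeries.coeff x k) h0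
    simp only [redL_coeff, coeffMap_coeff, HahnSeries.coeff_zero] at hk
    rw [redL_coeff, HahnSeries.coeff_zero]
    rw [IsLocalRing.residue_eq_zero_iff, IsLocalRing.mem_maximalIdeal, mem_nonunits_iff] at hk ⊢
    exact fun hu => hk (hu.map (incAK A hle))
  · rw [embK_coeffMap_incAK, embK_coeffMap_incAK, ← map_mul, hfs]

end Gauss

/-! ### Fricke compatibility -/

section Fricke

variable (N : ℕ) [NeZero N] {K L : IntermediateField ℚ Qbar} (hle : K ≤ L)

theorem bcLe_frickeFK (f : FK N K) :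
    bcLe N hle (frickeFK N K f) = frickeFK N L (bcLe N hle f) := by
  apply PlaceExtend27.baseChangeHom_injective N L
  rw [baseChangeHom_bcLe, baseChangeHom_frickeFK, baseChangeHom_frickeFK, baseChangeHom_bcLe]

end Fricke

/-! ### The bundle -/

section Main

variable (A : ValuationSubring Qbar) {K L : IntermediateField ℚ Qbar} (hle : K ≤ L)
  {M' q : ℕ} [NeZero M'] [NeZero q] {n e₀ : ℕ} [NeZero n]

/-- **The conclusions of chart base change.** -/
structure Concl (htK : tq (↥K) n e₀ ∈ FK M' K) (htL : tq (↥L) n e₀ ∈ FK M' L)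
    {πK : AK A K} (hπK : IsUnif (AK A K) πK) (hEK : FK (M' * q) K ≤ fracField (AK A K))
    {πL : AK A L} (hπL : IsUnif (AK A L) πL) (hEL : FK (M' * q) L ≤ fracField (AK A L)) :
    Prop where
  decomp0 : ∀ z ∈ B0 A q htL, ∃ b ∈ B0 A q htK, ∃ z' ∈ B0 A q htL,
    z = bcLe (M' * q) hle b + algebraMap L (FK (M' * q) L) (πL : L) * z'
  decomp1 : ∀ z ∈ B1 A q htL, ∃ b ∈ B1 A q htK, ∃ z' ∈ B1 A q htL,
    z = bcLe (M' * q) hle b + algebraMap L (FK (M' * q) L) (πL : L) * z'
  map0 : ∀ b ∈ B0 A q htK, bcLe (M' * q) hle b ∈ B0 A q htL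
  map1 : ∀ b ∈ B1 A q htK, bcLe (M' * q) hle b ∈ B1 A q htL
  compat1 : ∀ z : FK (M' * q) K, bcLe (M' * q) hle z ∈ O1 M' q hπL hEL ↔ z ∈ O1 M' q hπK hEK
  compat2 : ∀ z : FK (M' * q) K, bcLe (M' * q) hle z ∈ O2 M' q hπL hEL ↔ z ∈ O2 M' q hπK hEK
  eis : ∃ (e : ℕ) (u : (AK A L)ˣ), 0 < e ∧ incAK A hle πK = u * πL ^ e
  tN_eq : bcLe (M' * q) hle (tN q htK) = tN q htL

/-- **Chart base change** for `K = L^{I_A} ≤ L`. -/
theorem chartBC (hq0 : q ≠ 0) (hA : A.LiesOverPrime q) [FiniteDimensional ℚ L] [Normal ℚ L]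
    (hK : ∀ x : Qbar, x ∈ K ↔ x ∈ L ∧ ∀ τ ∈ A.inertiaSubgroupIn ℚ, τ x = x)
    (htK : tq (↥K) n e₀ ∈ FK M' K) (htL : tq (↥L) n e₀ ∈ FK M' L)
    {πK : AK A K} (hπK : IsUnif (AK A K) πK) (hEK : FK (M' * q) K ≤ fracField (AK A K))
    {πL : AK A L} (hπL : IsUnif (AK A L) πL) (hEL : FK (M' * q) L ≤ fracField (AK A L))
    (DK : NodalTwoChartModel ↥(AK A K) ↥(FK (M' * q) K) πK (tN q htK) (B0 A q htK)
      (B1 A q htK) (O1 M' q hπK hEK) (O2 M' q hπK hEK))
    (frac0 : ∀ x : FK (M' * q) K, ∃ a ∈ B0 A q htK, ∃ b ∈ B0 A q htK,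
      b ≠ 0 ∧ x * b = a)
    (frac1 : ∀ x : FK (M' * q) K, ∃ a ∈ B1 A q htK, ∃ b ∈ B1 A q htK,
      b ≠ 0 ∧ x * b = a)
    (DL : NodalTwoChartModel ↥(AK A L) ↥(FK (M' * q) L) πL (tN q htL) (B0 A q htL)
      (B1 A q htL) (O1 M' q hπL hEL) (O2 M' q hπL hEL)) :
    Concl A hle htK htL hπK hEK hπL hEL := by
  classical
  haveI hfinK : FiniteDimensional ℚ K := TotRamInst34.finiteDimensional_of_le hle
  haveI := NumberFieldDVR27.isDiscreteValuationRing_AK A K hq0 hA
  haveI := NumberFieldDVR27.isDiscreteValuationRing_AK A L hq0 hA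
  have hirrK : Irreducible πK :=
    (IsDiscreteValuationRing.irreducible_iff_uniformizer πK).mpr hπK.max_eq
  have hirrL : Irreducible πL :=
    (IsDiscreteValuationRing.irreducible_iff_uniformizer πL).mpr hπL.max_eq
  obtain ⟨e, E, u, w, he, hEm, hEdeg, hroot, hder, hlow, h0, hπe, hexp, hprim, hintRL⟩ :=
    TotRamInst34.exists_ramData hle hq0 hA hK hirrK hirrL
  -- cached instances
  letI iKF : Algebra ↥K ↥(FK (M' * q) K) := inferInstance
  letI iLF : Algebra ↥L ↥(FK (M' * q) L) := inferInstance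
  letI iRKF : Algebra ↥(AK A K) ↥(FK (M' * q) K) := inferInstance
  letI iRLF : Algebra ↥(AK A L) ↥(FK (M' * q) L) := inferInstance
  -- new instances
  letI algFF : Algebra (FK (M' * q) K) (FK (M' * q) L) := (bcLe (M' * q) hle).toAlgebra
  letI algRR : Algebra ↥(AK A K) ↥(AK A L) := (incAK A hle).toAlgebra
  letI algRF : Algebra ↥(AK A K) ↥(FK (M' * q) L) :=
    ((bcLe (M' * q) hle).comp (algebraMap ↥(AK A K) ↥(FK (M' * q) K))).toAlgebra
  haveI : IsScalarTower ↥(AK A K) ↥(FK (M' * q) K) ↥(FK (M' * q) L) :=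
    IsScalarTower.of_algebraMap_eq (fun _ => rfl)
  have htowerRL : ∀ r : AK A K, algebraMap ↥(AK A K) ↥(FK (M' * q) L) r =
      algebraMap ↥(AK A L) ↥(FK (M' * q) L) (incAK A hle r) := by
    intro r
    show bcLe (M' * q) hle (algebraMap K (FK (M' * q) K) (r : K)) = _
    rw [bcLe_algebraMap]
    rfl
  haveI : IsScalarTower ↥(AK A K) ↥(AK A L) ↥(FK (M' * q) L) :=
    IsScalarTower.of_algebraMap_eq htowerRL
  haveI : CharZero ↥(FK (M' * q) K) :=
    charZero_of_injective_algebraMap (algebraMap ↥K ↥(FK (M' * q) K)).injective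
  have hsub : ∀ p : (↥(AK A K))[X],
      ((p.eval₂ (incAK A hle) πL : AK A L) : L) = p.eval₂ (incAKL A hle) (πL : L) := by
    intro p
    have h1 := hom_eval₂ p (incAK A hle) (AK A L).subtype πL
    exact h1
  have hrootS : E.eval₂ (algebraMap ↥(AK A K) ↥(AK A L)) πL = 0 := by
    apply Subtype.ext
    show ((E.eval₂ (incAK A hle) πL : AK A L) : L) = 0
    rw [hsub]; exact hroot
  have hderS : (derivative E).eval₂ (algebraMap ↥(AK A K) ↥(AK A L)) πL ≠ 0 := by
    intro h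
    apply hder
    rw [← hsub]
    show (((derivative E).eval₂ (algebraMap ↥(AK A K) ↥(AK A L)) πL : AK A L) : L) = 0
    rw [h]; rfl
  have hgen : IntermediateField.adjoin (FK (M' * q) K)
      {algebraMap ↥(AK A L) ↥(FK (M' * q) L) πL} = ⊤ :=
    adjoin_eq_top (M' * q) hle (πL : L) hprim
  have hint' : ∀ r : AK A L, IsIntegral ↥(AK A K) r := by
    intro r
    obtain ⟨P, hP, hPr⟩ := hintRL r
    exact ⟨P, hP, hPr⟩
  have htN : bcLe (M' * q) hle (tN q htK) = tN q htL := by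
    apply Subtype.ext
    rw [coe_bcLe, coe_tN, coe_tN, coeffMap_tq]
  have hmono1 : ∀ z ∈ O1 M' q hπK hEK,
      algebraMap (FK (M' * q) K) (FK (M' * q) L) z ∈ O1 M' q hπL hEL := by
    intro z hz
    rw [mem_O1_iff] at hz
    show bcLe (M' * q) hle z ∈ O1 M' q hπL hEL
    rw [mem_O1_iff, coe_bcLe]
    exact gaussRing_mono hle hz
  have hmono2 : ∀ z ∈ O2 M' q hπK hEK,
      algebraMap (FK (M' * q) K) (FK (M' * q) L) z ∈ O2 M' q hπL hEL := by
    intro z hz
    rw [mem_O2_iff_wN_mem_O1] at hz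
    show bcLe (M' * q) hle z ∈ O2 M' q hπL hEL
    rw [mem_O2_iff_wN_mem_O1]
    have h1 : wN L M' q (bcLe (M' * q) hle z) = bcLe (M' * q) hle (wN K M' q z) :=
      (bcLe_frickeFK (M' * q) hle z).symm
    rw [h1]
    exact hmono1 _ hz
  have DL' : NodalTwoChartModel ↥(AK A L) ↥(FK (M' * q) L) πL
      (algebraMap (FK (M' * q) K) (FK (M' * q) L) (tN q htK)) (B0 A q htL)
      (B1 A q htL) (O1 M' q hπL hEL) (O2 M' q hπL hEL) := by
    show NodalTwoChartModel ↥(AK A L) ↥(FK (M' * q) L) πL (bcLe (M' * q) hle (tN q htK)) _ _ _ _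
    rw [htN]; exact DL
  have habs := ChartBCAbs34.chartBC (R₁ := ↥(AK A K)) (R₂ := ↥(AK A L))
    (F₁ := ↥(FK (M' * q) K)) (F₂ := ↥(FK (M' * q) L)) hirrL DK frac0 frac1 DL' hint' he hEm hEdeg
    hrootS hderS hlow h0 hπe hgen hmono1 hmono2
  exact ⟨habs.decomp0, habs.decomp1, habs.map0, habs.map1, habs.compat1, habs.compat2,
    ⟨e, u, he, hπe⟩, htN⟩

end Main

end Fermat.Agent.M1.Mod.ChartBC34
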