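/-
Program M1 (S44, row 38), chapter MOD, brick RAT-NODES (field-theoretic half) — helper34.

The nodes of the integral model of `X₀(M' q)` over an inertial number field `K₀` are in general NOT
rational over the residue field of `A ∩ K₀`; they become rational after enlarging `K₀` inside the
inertial tower.  This file supplies the part of that argument which does not see the charts:

* `exists_sub_mem_of_pow_sub_mem` (the **product trick**): if the domain `R` contains a primitive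
  `n`-th root of unity and `𝔪` is a prime ideal of an `R`-algebra `B`, then every `b : B` with
  `b ^ (n + 1) - b ∈ 𝔪` is congruent modulo `𝔪` to a constant from `R`
  (`X ^ n - 1 = ∏ (X - ξ)` over `R`);
* `exists_inertial_roots` : every finite inertial field `K₀` is contained in a finite inertial field
  `K₁` such that for every field `K ⊇ K₁` the ring `A ∩ K` contains a primitive `(q ^ m - 1)`-th root
  of unity (`K₁ = K₀(ζ_{q^m - 1})`);
* `exists_const_of_frob_fixed` : the combination, in the shape consumed by RAT-NODES: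
  `b ^ (q ^ m) - b ∈ 𝔪 → ∃ r, b - r ∈ 𝔪`;
* `eis_exponent_unique` : the ramification exponent in `q = u π_L ^ e` is determined by `q` and `π_L`
  (so the `e` of `ChartBC34.Concl.eis` with `π_K := q` is the exponent of `PeuRamData.ram`).
-/
import Mathlib.RingTheory.RootsOfUnity.Basic
import Mathlib.RingTheory.Polynomial.Cyclotomic.Basic
import Fermat.Agent.RED.Interface4
import Fermat.Agent.RED.DESC.NumberFieldDVR27
import Fermat.Agent.ES.P36.ZetaUnr26

set_option autoImplicit false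

noncomputable section

open Polynomial

namespace Fermat.Agent.M1.Mod.ResidueRoots34

open Fermat.Agent.RED.Interface4 Fermat.Agent.RED.DESC

/-! ### The product trick -/

section Product

variable {R B : Type*} [CommRing R] [IsDomain R] [CommRing B] [Algebra R B]

/-- `b ^ n - 1 = ∏ (b - ξ)` over the `n`-th roots of unity `ξ` of `R`, for `b` in any `R`-algebra,
as soon as `R` contains a primitive `n`-th root of unity. -/
theorem pow_sub_one_eq_prod {n : ℕ} (hn : 0 < n) {ζ : R} (hζ : IsPrimitiveRoot ζ n) (b : B) :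
    b ^ n - 1 = ∏ ξ ∈ nthRootsFinset n (1 : R), (b - algebraMap R B ξ) := by
  have h := congrArg (fun p : R[X] => aeval b p) (X_pow_sub_one_eq_prod hn hζ)
  simpa [map_prod] using h

/-- **The product trick.** -/
theorem exists_sub_mem_of_pow_sub_mem (𝔪 : Ideal B) [𝔪.IsPrime] {n : ℕ} (hn : 0 < n) {ζ : R}
    (hζ : IsPrimitiveRoot ζ n) (b : B) (hb : b ^ (n + 1) - b ∈ 𝔪) :
    ∃ r : R, b - algebraMap R B r ∈ 𝔪 := by
  have h1 : b * (b ^ n - 1) ∈ 𝔪 := by
    have : b * (b ^ n - 1) = b ^ (n + 1) - b := by ring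
    rw [this]; exact hb
  rcases (Ideal.IsPrime.mem_or_mem inferInstance h1) with h | h
  · exact ⟨0, by simpa using h⟩
  · rw [pow_sub_one_eq_prod hn hζ b] at h
    obtain ⟨ξ, -, hξ⟩ := (Ideal.IsPrime.prod_mem_iff).mp h
    exact ⟨ξ, hξ⟩

end Product

/-! ### Inertial enlargement by roots of unity -/

variable {A : ValuationSubring Qbar} {q : ℕ}

theorem not_dvd_pow_sub_one (hq : q.Prime) {m : ℕ} (hm : 0 < m) : ¬ q ∣ q ^ m - 1 := by
  intro h
  have h1 : 1 ≤ q ^ m := Nat.one_le_pow _ _ hq.pos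
  have h2 : q ∣ q ^ m := dvd_pow_self q hm.ne'
  have h3 : q ∣ q ^ m - (q ^ m - 1) := Nat.dvd_sub h2 h
  have h4 : q ^ m - (q ^ m - 1) = 1 := by omega
  rw [h4] at h3
  exact hq.one_lt.ne' (Nat.dvd_one.mp h3)

theorem pow_sub_one_pos (hq : q.Prime) {m : ℕ} (hm : 0 < m) : 0 < q ^ m - 1 := by
  have h1 : q ^ 1 ≤ q ^ m := Nat.pow_le_pow_right hq.pos hm
  have h2 := hq.two_le
  rw [pow_one] at h1
  omega

/-- a primitive root of unity of `ℚ̄` lying in `K` is a primitive root of unity of `A ∩ K`. -/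
theorem exists_primitiveRoot_AK (K : IntermediateField ℚ Qbar) {n : ℕ} (hn : n ≠ 0) {z : Qbar}
    (hz : IsPrimitiveRoot z n) (hzK : z ∈ K) : ∃ ζ : ↥(AK A K), IsPrimitiveRoot ζ n := by
  have hzA : z ∈ A := Fermat.Agent.ES.J.CycloChar8.mem_of_pow_eq_one hn hz.pow_eq_one
  have hmem : (⟨z, hzK⟩ : K) ∈ AK A K := by
    rw [NumberFieldDVR27.mem_AK_iff]; exact hzA
  refine ⟨⟨⟨z, hzK⟩, hmem⟩, ?_⟩
  have hinj : Function.Injective
      ((algebraMap K Qbar).comp (AK A K).subtype : ↥(AK A K) →+* Qbar) := by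
    intro x y hxy
    exact Subtype.ext (Subtype.ext hxy)
  exact IsPrimitiveRoot.of_map_of_injective (f := ((algebraMap K Qbar).comp (AK A K).subtype))
    (by exact hz) hinj

/-- the sup of two subfields fixed pointwise by a set of automorphisms is fixed pointwise. -/
theorem sup_fixed {S : Set (Qbar ≃ₐ[ℚ] Qbar)} {K₁ K₂ : IntermediateField ℚ Qbar}
    (h₁ : ∀ τ ∈ S, ∀ x ∈ K₁, τ x = x) (h₂ : ∀ τ ∈ S, ∀ x ∈ K₂, τ x = x) :
    ∀ τ ∈ S, ∀ x ∈ K₁ ⊔ K₂, τ x = x := by
  intro τ hτ x hx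
  have hle : K₁ ⊔ K₂ ≤ IntermediateField.fixedField (Subgroup.closure {τ}) := by
    refine sup_le (fun y hy => ?_) (fun y hy => ?_)
    · rw [IntermediateField.mem_fixedField_iff]
      intro g hg
      induction hg using Subgroup.closure_induction with
      | mem g hg => rw [Set.mem_singleton_iff.mp hg]; exact h₁ τ hτ y hy
      | one => rfl
      | mul g₁ g₂ _ _ ih₁ ih₂ => rw [AlgEquiv.mul_apply, ih₂, ih₁]
      | inv g _ ih =>
        have := congrArg (g⁻¹ : Qbar ≃ₐ[ℚ] Qbar) ih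
        rw [← AlgEquiv.mul_apply, inv_mul_cancel, AlgEquiv.one_apply] at this
        exact this.symm
    · rw [IntermediateField.mem_fixedField_iff]
      intro g hg
      induction hg using Subgroup.closure_induction with
      | mem g hg => rw [Set.mem_singleton_iff.mp hg]; exact h₂ τ hτ y hy
      | one => rfl
      | mul g₁ g₂ _ _ ih₁ ih₂ => rw [AlgEquiv.mul_apply, ih₂, ih₁]
      | inv g _ ih =>
        have := congrArg (g⁻¹ : Qbar ≃ₐ[ℚ] Qbar) ih
        rw [← AlgEquiv.mul_apply, inv_mul_cancel, AlgEquiv.one_apply] at this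
        exact this.symm
  exact (IntermediateField.mem_fixedField_iff _ _).mp (hle hx) τ (Subgroup.subset_closure rfl)

/-- the sup of two subfields stable under a set of automorphisms is stable. -/
theorem sup_stable {S : Set (Qbar ≃ₐ[ℚ] Qbar)} {K₁ K₂ : IntermediateField ℚ Qbar}
    (h₁ : ∀ σ ∈ S, ∀ x ∈ K₁, σ x ∈ K₁) (h₂ : ∀ σ ∈ S, ∀ x ∈ K₂, σ x ∈ K₂) :
    ∀ σ ∈ S, ∀ x ∈ K₁ ⊔ K₂, σ x ∈ K₁ ⊔ K₂ := by
  intro σ hσ x hx
  have hle : K₁ ⊔ K₂ ≤ (K₁ ⊔ K₂).comap (σ : Qbar →ₐ[ℚ] Qbar) := by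
    refine sup_le (fun y hy => ?_) (fun y hy => ?_)
    · exact (le_sup_left : K₁ ≤ K₁ ⊔ K₂) (h₁ σ hσ y hy)
    · exact (le_sup_right : K₂ ≤ K₁ ⊔ K₂) (h₂ σ hσ y hy)
  exact hle hx

/-- **Inertial enlargement**: `K₁ := K₀(ζ_{q^m - 1})`.  The two hypotheses on `K₀` are the two
components of `InertField27.IsInertial A K₀`, and the conclusion `_ ∧ _` on `K₁` IS
`InertField27.IsInertial A K₁` (that predicate is not imported here to keep the closure small). -/
theorem exists_inertial_roots (hq : q.Prime) (hA : A.LiesOverPrime q)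
    (K₀ : IntermediateField ℚ Qbar) [FiniteDimensional ℚ K₀]
    (hfix₀ : ∀ τ ∈ A.inertiaSubgroupIn ℚ, ∀ x ∈ K₀, τ x = x)
    (hst₀ : ∀ σ ∈ A.decompositionSubgroup ℚ, ∀ x ∈ K₀, σ x ∈ K₀)
    {m : ℕ} (hm : 0 < m) :
    ∃ K₁ : IntermediateField ℚ Qbar, FiniteDimensional ℚ K₁ ∧ K₀ ≤ K₁ ∧
      ((∀ τ ∈ A.inertiaSubgroupIn ℚ, ∀ x ∈ K₁, τ x = x) ∧
        ∀ σ ∈ A.decompositionSubgroup ℚ, ∀ x ∈ K₁, σ x ∈ K₁) ∧
      ∀ K : IntermediateField ℚ Qbar, K₁ ≤ K →
        ∃ ζ : ↥(AK A K), IsPrimitiveRoot ζ (q ^ m - 1) := by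
  have : NeZero (q ^ m - 1) := ⟨(pow_sub_one_pos hq hm).ne'⟩
  obtain ⟨K', hfin', hζ', hfix', hst'⟩ :=
    Fermat.Agent.ES.P36.ZetaUnr26.exists_zeta_field_unr hq hA (q ^ m - 1)
      (not_dvd_pow_sub_one hq hm)
  have := hfin'
  refine ⟨K₀ ⊔ K', inferInstance, le_sup_left,
    ⟨sup_fixed (S := (A.inertiaSubgroupIn ℚ : Set _)) hfix₀ hfix',
      sup_stable (S := (A.decompositionSubgroup ℚ : Set _)) hst₀ (fun σ _ x hx => hst' σ x hx)⟩,
    fun K hle => ?_⟩
  exact exists_primitiveRoot_AK K (pow_sub_one_pos hq hm).ne'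
    (Fermat.Agent.X0.isPrimitiveRoot_zetaK (q ^ m - 1)) (hle (le_sup_right (a := K₀) hζ'))

/-- **Frobenius-fixed classes are constants**, over any field containing `ζ_{q^m - 1}`. -/
theorem exists_const_of_frob_fixed (hq : q.Prime) {m : ℕ} (hm : 0 < m)
    {K : IntermediateField ℚ Qbar} {ζ : ↥(AK A K)} (hζ : IsPrimitiveRoot ζ (q ^ m - 1))
    {B : Type*} [CommRing B] [Algebra ↥(AK A K) B] (𝔪 : Ideal B) [𝔪.IsPrime] (b : B)
    (hb : b ^ (q ^ m) - b ∈ 𝔪) : ∃ r : ↥(AK A K), b - algebraMap ↥(AK A K) B r ∈ 𝔪 := by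
  have hpos := pow_sub_one_pos hq hm
  have hb' : b ^ (q ^ m - 1 + 1) - b ∈ 𝔪 := by
    have : q ^ m - 1 + 1 = q ^ m := by omega
    rw [this]; exact hb
  exact exists_sub_mem_of_pow_sub_mem 𝔪 hpos hζ b hb'

/-! ### Uniqueness of the ramification exponent -/

/-- If `ϖ` is a non-zero non-unit of a domain then `ϖ ^ a ~ ϖ ^ b` forces `a = b`. -/
theorem pow_associated_pow_iff {R : Type*} [CommRing R] [IsDomain R] {ϖ : R} (h0 : ϖ ≠ 0)
    (hu : ¬ IsUnit ϖ) {a b : ℕ} (h : Associated (ϖ ^ a) (ϖ ^ b)) : a = b :=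
  le_antisymm ((pow_dvd_pow_iff h0 hu).mp h.dvd) ((pow_dvd_pow_iff h0 hu).mp h.symm.dvd)

/-- **Uniqueness of the ramification exponent**: `x = u ϖ ^ e` and `ϖ ^ e' ~ x` force `e = e'`. -/
theorem eis_exponent_unique {R : Type*} [CommRing R] [IsDomain R] {ϖ x : R} (h0 : ϖ ≠ 0)
    (hu : ¬ IsUnit ϖ) {e e' : ℕ} {u : Rˣ} (h1 : x = u * ϖ ^ e) (h2 : Associated (ϖ ^ e') x) :
    e = e' := by
  have h3 : Associated (ϖ ^ e) x := by
    rw [h1, mul_comm]
    exact associated_mul_unit_right (ϖ ^ e) (u : R) u.isUnit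
  exact pow_associated_pow_iff h0 hu (h3.trans h2.symm)

end Fermat.Agent.M1.Mod.ResidueRoots34
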