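/-
M1 (S44) / ORD (S33), chapter MOD, RAT-NODES second seat (helper56; literals of helper73's plan): the
CYCLOTOMIC ENLARGEMENT `K₀ ⊔ ℚ⟮z⟯` of a number field `K₀ ⊂ Qbar` by a root of unity `z` of order
prime to the residue characteristic `q` of `A`.

* (W1) `exists_eval₂_of_mem_sup`: every element of `K₀ ⊔ ℚ⟮z⟯` is a polynomial in `z` with
  coefficients in `K₀` (= `hprim` of `ChartBC34.adjoin_eq_top` with `θ = z`);
* (W2) `inertial_sup_adjoin`: `K₀ ⊔ ℚ⟮z⟯` is again inertial at `A` (explicit conjunction, as in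
  `ResidueRoots34.exists_inertial_roots`); `finiteDimensional_sup_adjoin`;
* (W3) `isUnit_natCast_AK`: `(m : A ∩ K)` is a unit for `q ∤ m`; `isUnit_pow_sub_one`: for a primitive
  `m`-th root of unity `ζ ∈ A ∩ K`, `q ∤ m`, the elements `ζ ^ j - 1`, `0 < j < m`, are units.
-/
import Mathlib
import Fermat.Agent.ES.P36.ZetaUnr26
import Fermat.Agent.RED.DESC.NumberFieldDVR27
import Fermat.Agent.M1.Mod.ResidueRoots34
import Fermat.Agent.M1.Mod.TotRamInst34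
import Fermat.Agent.M1.Base.InertiaPartSup56

set_option autoImplicit false
set_option linter.unusedSectionVars false
set_option linter.style.haveILetI false

open Polynomial IntermediateField

namespace Fermat.Agent.M1.Mod.CycloField56

open Fermat.Agent.RED.Interface4 Fermat.Agent.RED.DESC Fermat.Agent.M1.Mod.TotRamInst34
  Fermat.Agent.M1.Mod.ResidueRoots34

variable {A : ValuationSubring Qbar} {q : ℕ}

/-! ### (W1) polynomial generation -/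

/-- **(W1)** every element of `K₀ ⊔ ℚ⟮z⟯` is a polynomial in `z` with coefficients in `K₀`. -/
theorem exists_eval₂_of_mem_sup (K₀ : IntermediateField ℚ Qbar) (z : Qbar)
    (c : ↥(K₀ ⊔ ℚ⟮z⟯)) :
    ∃ G : (↥K₀)[X], c = G.eval₂ (incKL (le_sup_left : K₀ ≤ K₀ ⊔ ℚ⟮z⟯))
      ⟨z, (le_sup_right : ℚ⟮z⟯ ≤ K₀ ⊔ ℚ⟮z⟯) (IntermediateField.mem_adjoin_simple_self ℚ z)⟩ := by
  have hz : IsIntegral ℚ z := Fermat.Agent.Lib.FrobeniusExists.isIntegral_Qbar.isIntegral z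
  obtain ⟨Q, -, hQ⟩ :=
    Fermat.Agent.M1.Base.InertiaPartSup56.exists_aeval_eq_of_mem_sup K₀ hz c.2
  refine ⟨Q, Subtype.ext ?_⟩
  rw [← hQ, aeval_def]
  have h := Polynomial.hom_eval₂ Q (incKL (le_sup_left : K₀ ≤ K₀ ⊔ ℚ⟮z⟯))
    (algebraMap (↥(K₀ ⊔ ℚ⟮z⟯)) Qbar)
    ⟨z, (le_sup_right : ℚ⟮z⟯ ≤ K₀ ⊔ ℚ⟮z⟯) (IntermediateField.mem_adjoin_simple_self ℚ z)⟩
  exact h.symm

/-! ### (W2) inertiality and finiteness -/

/-- **(W2)** the cyclotomic enlargement of an inertial field is inertial. -/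
theorem inertial_sup_adjoin (hq : q.Prime) (hA : A.LiesOverPrime q)
    {K₀ : IntermediateField ℚ Qbar}
    (hfix₀ : ∀ τ ∈ A.inertiaSubgroupIn ℚ, ∀ x ∈ K₀, τ x = x)
    (hst₀ : ∀ σ ∈ A.decompositionSubgroup ℚ, ∀ x ∈ K₀, σ x ∈ K₀) {m : ℕ} (hm : ¬ q ∣ m)
    {z : Qbar} (hz : IsPrimitiveRoot z m) :
    (∀ τ ∈ A.inertiaSubgroupIn ℚ, ∀ x ∈ K₀ ⊔ ℚ⟮z⟯, τ x = x) ∧
      ∀ σ ∈ A.decompositionSubgroup ℚ, ∀ x ∈ K₀ ⊔ ℚ⟮z⟯, σ x ∈ K₀ ⊔ ℚ⟮z⟯ := by
  have hm0 : m ≠ 0 := fun h0 => hm (h0 ▸ dvd_zero q)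
  constructor
  · exact sup_fixed (S := (A.inertiaSubgroupIn ℚ : Set (Qbar ≃ₐ[ℚ] Qbar))) hfix₀
      (fun τ hτ =>
        (Fermat.Agent.ES.P36.ZetaUnr26.adjoin_rootOfUnity_fixed hq hA hm hz.pow_eq_one).2.2 τ hτ)
  · exact sup_stable (S := (A.decompositionSubgroup ℚ : Set (Qbar ≃ₐ[ℚ] Qbar))) hst₀
      (fun σ _ => Fermat.Agent.ES.P36.ZetaUnr26.adjoin_rootOfUnity_stable hm0 hz σ)

/-- The cyclotomic enlargement of a number field is a number field. -/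
theorem finiteDimensional_sup_adjoin (K₀ : IntermediateField ℚ Qbar) [FiniteDimensional ℚ K₀]
    (z : Qbar) : FiniteDimensional ℚ ↥(K₀ ⊔ ℚ⟮z⟯) := by
  haveI : FiniteDimensional ℚ ℚ⟮z⟯ :=
    IntermediateField.adjoin.finiteDimensional
      (Fermat.Agent.Lib.FrobeniusExists.isIntegral_Qbar.isIntegral z)
  infer_instance

/-! ### (W3) units -/

/-- **(W3a)** integers prime to `q` are units of `A ∩ K`. -/
theorem isUnit_natCast_AK (hq : q.Prime) (hA : A.LiesOverPrime q)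
    (K : IntermediateField ℚ Qbar) {m : ℕ} (hm : ¬ q ∣ m) :
    IsUnit ((m : ℕ) : ↥(AK A K)) := by
  by_contra hu
  have h1 : ((m : ℕ) : ↥(AK A K)) ∈ IsLocalRing.maximalIdeal (AK A K) :=
    (IsLocalRing.mem_maximalIdeal _).mpr hu
  rw [← IsLocalRing.residue_eq_zero_iff, map_natCast] at h1
  haveI := NumberFieldDVR27.charP_residueField_AK A K hq hA
  exact hm ((CharP.cast_eq_zero_iff (IsLocalRing.ResidueField (AK A K)) q m).mp h1)

/-- **(W3b)** for a primitive `m`-th root of unity `ζ ∈ A ∩ K` with `q ∤ m`, the elements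
`ζ ^ j - 1`, `0 < j < m`, are units. -/
theorem isUnit_pow_sub_one (hq : q.Prime) (hA : A.LiesOverPrime q)
    (K : IntermediateField ℚ Qbar) {m : ℕ} (hm : ¬ q ∣ m) {ζ : ↥(AK A K)}
    (hζ : IsPrimitiveRoot ζ m) {j : ℕ} (hj : 0 < j) (hjm : j < m) : IsUnit (ζ ^ j - 1) := by
  obtain ⟨n, rfl⟩ : ∃ n, m = n + 1 := ⟨m - 1, by omega⟩
  have hprod := hζ.prod_one_sub_pow_eq_order
  have hu : IsUnit (∏ k ∈ Finset.range n, (1 - ζ ^ (k + 1))) := by
    rw [hprod]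
    have := isUnit_natCast_AK hq hA K hm
    rwa [Nat.cast_add, Nat.cast_one] at this
  rw [IsUnit.prod_iff] at hu
  have h1 := hu (j - 1) (Finset.mem_range.mpr (by omega))
  rw [Nat.sub_add_cancel hj] at h1
  have : ζ ^ j - 1 = -(1 - ζ ^ j) := by ring
  rw [this]
  exact h1.neg

end Fermat.Agent.M1.Mod.CycloField56
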