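/-
Program M1 (S44, row 38), chapter MOD, brick RAT-NODES — helper34: the field `fin1` missing from
`NodalCore13.NodalTwoChartModel` (which only records `fin0`): for the model of record the chart
`B1 = chart (A ∩ K) t⁻¹` is a FINITE `(A ∩ K)[t⁻¹]`-module, over every number field `K`.

Consumed by `RatNodesAbs73.exists_uniform_pow_nodes` (hypothesis `fin1`): the residue fields at the
closed points of the special fibre of `Spec B1` are finite.

* `fin1_at` : general Hauptmodul `tq · n e` (hypotheses `TMem n e M'`, `TGenBase n e` as in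
  `ModelQAt4.chartItems_at`);
* `fin1_four` : `q` odd, `4 ∣ M'`, Hauptmodul `tq · 4 8` (the model of `ModelQAt4.nodalNumData_four_at`).
-/
import Mathlib
import Fermat.Agent.ES.N34.ChartN26
import Fermat.Agent.ES.N34.ModelDefs9
import Fermat.Agent.ES.P36.CoeffField4
import Fermat.Agent.RED.ModelTargets4
import Fermat.Agent.RED.ModelMain4
import Fermat.Agent.RED.BASE.Hauptmodul12

set_option autoImplicit false
set_option synthInstance.maxHeartbeats 400000

noncomputable section

open HahnSeries ModularCurve IntermediateField Polynomial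

namespace Fermat.Agent.M1.Mod.FinOne34

open Fermat.Agent.RED.Interface4 Fermat.Agent.RED.PUR.GaussGen8 Fermat.Agent.RED.PUR.KtGauss8
  Fermat.Agent.RED.PUR.G1Package8 Fermat.Agent.RED.NumInst4 Fermat.Agent.RED.ModelAsm4
  Fermat.Agent.RED.PUR.ChartGeneric22 Fermat.Agent.RED.BASE.EtaQuot12
  Fermat.Agent.RED.BASE.Interface12 Fermat.Agent.X0 Fermat.Agent.ES.N34.ModelDefs9
  Fermat.Agent.ES.P36.CoeffField4

section Gauss

variable {K : Type*} [Field K] {O : ValuationSubring K} [IsDiscreteValuationRing ↥O]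
  {E : IntermediateField K (LaurentSeries K)}

/-- Gauss form: the chart at `t⁻¹` is a finite `O[t⁻¹]`-module (same hypotheses as
`ChartN26.chartInputs_gauss`). -/
theorem chart_inv_generators_gauss [CharZero K] {π : ↥O} (hπ : Irreducible π) (t : ↥E)
    (ht : (t : LaurentSeries K) ∈ gaussRing O)
    (htr : Transcendental (Res O) (gaussRed O ⟨(t : LaurentSeries K), ht⟩))
    (hn : relfinrank (Kt O ⟨(t : LaurentSeries K), ht⟩) E ≠ 0) :
    ∃ (r : ℕ) (g : Fin r → ↥E), (∀ i, g i ∈ chart ↥O t⁻¹) ∧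
      ∀ x ∈ chart ↥O t⁻¹, ∃ P : Fin r → (↥O)[X], x = ∑ i, aeval t⁻¹ (P i) * g i := by
  have : IsScalarTower ↥O K ↥E := isScalarTower_OE O E
  have : FiniteDimensional ↥(IntermediateField.adjoin K {t}) ↥E := finiteDimensional_adjoin t hn
  have htrK : Transcendental K t :=
    transcendental_of_coe t (transcendental_t (tG := ⟨(t : LaurentSeries K), ht⟩) hπ htr)
  have hmem : t ∈ IntermediateField.adjoin K {t} := IntermediateField.mem_adjoin_simple_self K t
  have hinv_mem : t⁻¹ ∈ IntermediateField.adjoin K {t} := inv_mem hmem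
  have hE' : IntermediateField.adjoin K {t} ≤ IntermediateField.adjoin K {t⁻¹} := by
    rw [IntermediateField.adjoin_le_iff, Set.singleton_subset_iff]
    have h1 : t⁻¹ ∈ IntermediateField.adjoin K {t⁻¹} :=
      IntermediateField.mem_adjoin_simple_self K t⁻¹
    have h2 := inv_mem h1
    rwa [inv_inv] at h2
  have htr' : Transcendental K t⁻¹ := fun h => htrK (IsAlgebraic.inv_iff.1 h)
  exact (chart_facts (R := ↥O) (IntermediateField.adjoin K {t}) hinv_mem hE' htr').2.2

end Gauss

variable {n e M' : ℕ} [NeZero n] [NeZero M'] {q : ℕ} [NeZero q] {A : ValuationSubring Qbar}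
  {K : IntermediateField ℚ Qbar}

/-- **`fin1` for the model of record** (general Hauptmodul), over every number field. -/
theorem fin1_at (hq : q.Prime) (hA : A.LiesOverPrime q) (hgen : TGenBase n e)
    [FiniteDimensional ℚ K] (ht : tq (↥K) n e ∈ FK M' K) :
    ∃ (r : ℕ) (g : Fin r → ↥(FK (M' * q) K)), (∀ i, g i ∈ B1 A q ht) ∧
      ∀ x ∈ B1 A q ht, ∃ P : Fin r → (↥(AK A K))[X],
        x = ∑ i, aeval (tN q ht)⁻¹ (P i) * g i := by
  have hdvr : IsDiscreteValuationRing ↥(AK A K) :=
    Fermat.Agent.RED.DESC.NumberFieldDVR27.isDiscreteValuationRing_AK A K hq.ne_zero hA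
  obtain ⟨ϖ, hϖ⟩ := IsDiscreteValuationRing.exists_irreducible ↥(AK A K)
  have htq : ((tN q ht : ↥(FK (M' * q) K)) : LaurentSeries K) = tq (↥K) n e := coe_tN q ht
  have htg : ((tN q ht : ↥(FK (M' * q) K)) : LaurentSeries K) ∈ gaussRing (AK A K) := by
    rw [htq]; exact Fermat.Agent.RED.ModelTargets4.tq_mem_gaussRing (AK A K) n e
  have h1 : (⟨((tN q ht : ↥(FK (M' * q) K)) : LaurentSeries K), htg⟩ : ↥(gaussRing (AK A K))) =
      ⟨tq (↥K) n e, Fermat.Agent.RED.ModelTargets4.tq_mem_gaussRing (AK A K) n e⟩ :=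
    Subtype.ext htq
  have htr : Transcendental (Res (AK A K))
      (gaussRed (AK A K) ⟨((tN q ht : ↥(FK (M' * q) K)) : LaurentSeries K), htg⟩) := by
    rw [h1]
    exact Fermat.Agent.RED.ModelTargets4.transcendental_gaussRed_tq (AK A K) n e
  have hjt : jqModC K ∈ Kt (AK A K) ⟨((tN q ht : ↥(FK (M' * q) K)) : LaurentSeries K), htg⟩ := by
    rw [h1]
    exact j_mem_adjoin n e hgen K
  have : NeZero (M' * q) := ⟨Nat.mul_ne_zero (NeZero.ne M') (NeZero.ne q)⟩
  have hn : relfinrank (Kt (AK A K) ⟨((tN q ht : ↥(FK (M' * q) K)) : LaurentSeries K), htg⟩)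
      (FK (M' * q) K) ≠ 0 :=
    Fermat.Agent.RED.ModelMain4.relfinrank_ne_zero (AK A K) (M' * q) _ (tN q ht).2 hjt
  exact chart_inv_generators_gauss hϖ (tN q ht) htg htr hn

/-- **`fin1`** for the model of `ModelQAt4.nodalNumData_four_at` (`q` any prime here). -/
theorem fin1_four (hq : q.Prime) (hA : A.LiesOverPrime q) [FiniteDimensional ℚ K]
    (ht : tq (↥K) 4 8 ∈ FK M' K) :
    ∃ (r : ℕ) (g : Fin r → ↥(FK (M' * q) K)), (∀ i, g i ∈ B1 A q ht) ∧
      ∀ x ∈ B1 A q ht, ∃ P : Fin r → (↥(AK A K))[X],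
        x = ∑ i, aeval (tN q ht)⁻¹ (P i) * g i :=
  fin1_at hq hA (Fermat.Agent.RED.BASE.Hauptmodul12.tGenBase'
    Fermat.Agent.RED.BASE.Hauptmodul12.baseHyp_four) ht

end Fermat.Agent.M1.Mod.FinOne34
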