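/-
Program M1 (S44), chapter MOD (helper13): **the refined Galois congruence on the model.**

Depth-`n` refinement of helper21's GAL chapter (`ES/N34/GalGaussInst21`, `GalChart21`, `GalConc21`,
`GalModel21`): an automorphism `s` of the base field which is the identity modulo `π ^ n` on the
valuation ring `O` acts on the Gauss ring (coefficientwise) as the identity modulo `π ^ n`; hence so
does the induced automorphism of the function field on the two Gauss valuation rings `O1`, `O2` and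
(by `n`-fold saturation) on the two charts `B0`, `B1` of a nodal two-chart model.  No base-change
theorem is needed.

* `IsRamBase π n s` : `s` is `GalGaussInst21.IsInertialBase` and `s a - a ∈ π ^ n O` for `a ∈ O`;
* `IsRamBase.exists_coeffMap_sub_eq_pow` : `s ≡ id mod π ^ n` on `gaussRing O`;
* `isRamAt_of_expansion` : `RamDepth13.IsRamAt Oj p n g` for a valuation subring cut out by an
  expansion map (depth-`n` version of `isInertial_of_expansion`);
* `sub_mem_B0_pow`, `sub_mem_B1_pow` : `σ b - b ∈ π ^ n B_i` for `b ∈ B_i`;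
* `RamDepth A K π n τ` : the predicate "`τ|_K ≡ id mod π ^ n` on `A ∩ K`" (lower numbering:
  `τ ∈ G_{n-1}`), and the concrete instances `isRamAt_galK`, `isRamAt_galK_fricke`, `isRamAt_O1`,
  `isRamAt_O2` (names of `ModelDefs9`), `sub_mem_B0_pow_of_model`.
-/
import Mathlib
import Fermat.Agent.RED.PUR.GaussGen8
import Fermat.Agent.ES.N34.GalBase21
import Fermat.Agent.ES.N34.GalGauss21
import Fermat.Agent.ES.N34.GalGaussInst21
import Fermat.Agent.ES.N34.GalChart21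
import Fermat.Agent.ES.N34.GalConc21
import Fermat.Agent.ES.N34.GalModel21
import Fermat.Agent.ES.N34.ModelDefs9
import Fermat.Agent.M1.Mon.RamDepth13

set_option autoImplicit false
set_option linter.unusedSectionVars false

noncomputable section

open HahnSeries AlgebraicCurve ModularCurve

namespace Fermat.Agent.M1.Mod.GalDepth13

open Fermat.Agent.RED.PUR.GaussGen8 Fermat.Agent.ES.N34.GalGauss21
  Fermat.Agent.ES.N34.GalGaussInst21 Fermat.Agent.M1.Mon.RamDepth13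

/-! ### Coefficientwise action at depth `n` -/

section Coeff

variable {K : Type*} [Field K] {O : ValuationSubring K}

/-- an inertial automorphism of `K` which is the identity modulo `π ^ n` on `O`. -/
structure IsRamBase (π : ↥O) (n : ℕ) (s : K ≃+* K) : Prop where
  inertial : IsInertialBase π s
  sub_mem_pow : ∀ a : ↥O, ∃ b : ↥O, s (a : K) - (a : K) = (π : K) ^ n * (b : K)

variable {π : ↥O} {n : ℕ} {s : K ≃+* K}

theorem IsRamBase.sO_sub_pow (hs : IsRamBase π n s) (a : ↥O) :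
    ∃ b : ↥O, hs.inertial.sO a - a = π ^ n * b := by
  obtain ⟨b, hb⟩ := hs.sub_mem_pow a
  refine ⟨b, Subtype.ext ?_⟩
  show s (a : K) - (a : K) = ((π ^ n : ↥O) : K) * (b : K)
  rw [hb]
  rfl

/-- `s a - a = π ^ n · α` on Laurent series over `O`. -/
theorem IsRamBase.exists_coeffMap_sub_pow (hs : IsRamBase π n s) (hπ : IsUnif O π)
    (a : LaurentSeries ↥O) :
    ∃ α : LaurentSeries ↥O, coeffMap hs.inertial.sO a - a = HahnSeries.C (π ^ n) * α := by
  refine exists_eq_C_mul (pow_ne_zero n hπ.ne_zero) _ fun k => ?_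
  rw [HahnSeries.coeff_sub, coeffMap_coeff]
  exact hs.sO_sub_pow _

/-- **`s ≡ id mod π ^ n` on the Gauss ring.** -/
theorem IsRamBase.exists_coeffMap_sub_eq_pow (hs : IsRamBase π n s) (hπ : IsUnif O π)
    {f : LaurentSeries K} (hf : f ∈ gaussRing O) :
    ∃ c ∈ gaussRing O, coeffMap (s : K →+* K) f - f = HahnSeries.C ((π : K) ^ n) * c := by
  obtain ⟨a, S, h⟩ := hf
  have h' := hs.inertial.isRep hπ h
  obtain ⟨α, hα⟩ := hs.exists_coeffMap_sub_pow hπ a
  obtain ⟨β, hβ⟩ := hs.exists_coeffMap_sub_pow hπ S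
  set a' := coeffMap hs.inertial.sO a with ha'
  set S' := coeffMap hs.inertial.sO S with hS'
  have hS0 : embK O S ≠ 0 := h.embK_s_ne_zero
  have hS'0 : embK O S' ≠ 0 := h'.embK_s_ne_zero
  have hC : embK O (HahnSeries.C (π ^ n)) = HahnSeries.C ((π : K) ^ n) := by
    rw [embK_C]
    rfl
  refine ⟨embK O (α * S - a * β) / (embK O S * embK O S'),
    ⟨α * S - a * β, S * S', ?_, ?_⟩, ?_⟩
  · rw [map_mul]; exact mul_ne_zero h.1 h'.1
  · rw [map_mul, div_mul_cancel₀ _ (mul_ne_zero hS0 hS'0)]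
  · have e1 : embK O a' = embK O a + HahnSeries.C ((π : K) ^ n) * embK O α := by
      have := congrArg (embK O) hα
      rw [map_sub, map_mul, hC] at this
      rw [← this]; ring
    have e2 : embK O S' = embK O S + HahnSeries.C ((π : K) ^ n) * embK O β := by
      have := congrArg (embK O) hβ
      rw [map_sub, map_mul, hC] at this
      rw [← this]; ring
    rw [h'.eq_div, h.eq_div]
    rw [div_sub_div _ _ hS'0 hS0, mul_div_assoc', eq_div_iff (mul_ne_zero hS0 hS'0),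
      div_mul_eq_mul_div, div_eq_iff (mul_ne_zero hS'0 hS0)]
    rw [map_sub, map_mul, map_mul, e1, e2]
    ring

end Coeff

/-! ### Valuation subrings cut out by an expansion map -/

section Expansion

variable {K F : Type*} [Field K] [Field F] {O : ValuationSubring K} {π : ↥O} {n : ℕ}
  {s : K ≃+* K}

/-- **depth `n` on a Gauss valuation ring**, for an arbitrary expansion map `ι`. -/
theorem isRamAt_of_expansion (hπ : IsUnif O π) (hs : IsRamBase π n s)
    (ι : F →+* LaurentSeries K) (g : F ≃+* F)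
    (hι : ∀ x : F, ι (g x) = coeffMap (s : K →+* K) (ι x))
    (Oj : ValuationSubring F) (hOj : ∀ x : F, x ∈ Oj ↔ ι x ∈ gaussRing O)
    (p : F) (hp : ι p = HahnSeries.C (π : K)) : IsRamAt Oj p n g := by
  have hin : IsInertial Oj p g := isInertial_of_expansion hπ hs.inertial ι g hι Oj hOj p hp
  have hp0 : p ≠ 0 := by
    rintro rfl
    rw [map_zero] at hp
    have := congrArg (fun y : LaurentSeries K => y.coeff 0) hp
    simp only [HahnSeries.coeff_zero, HahnSeries.C_apply, HahnSeries.coeff_single_same] at this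
    exact hπ.ne_zero (Subtype.ext this.symm)
  refine ⟨hin.map_mem, hin.symm_mem, fun x hx => ?_⟩
  obtain ⟨c, hc, hcf⟩ := hs.exists_coeffMap_sub_eq_pow hπ ((hOj x).mp hx)
  have hpn0 : p ^ n ≠ 0 := pow_ne_zero n hp0
  refine ⟨(p ^ n)⁻¹ * (g x - x), ?_, by field_simp⟩
  rw [hOj]
  have : ι ((p ^ n)⁻¹ * (g x - x)) = c := by
    have hιp0 : ι (p ^ n) ≠ 0 := (map_ne_zero ι).mpr hpn0
    apply mul_left_cancel₀ hιp0
    have hιpn : ι (p ^ n) = HahnSeries.C ((π : K) ^ n) := by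
      rw [map_pow ι p n, hp, map_pow HahnSeries.C]
    rw [← map_mul, mul_inv_cancel_left₀ hpn0, map_sub, hι, hcf, hιpn]
  rw [this]
  exact hc

end Expansion

/-! ### The charts: `n`-fold saturation -/

section Chart

open Fermat.Agent.ES.N34.NodalCore13 Fermat.Agent.ES.N34.GalChart21

variable {R F : Type*} [CommRing R] [Field F] [Algebra R F]
variable {π : R} {t : F} {B0 B1 : Subalgebra R F} {O1 O2 : ValuationSubring F} {σ : F ≃+* F}

variable (M : NodalTwoChartModel R F π t B0 B1 O1 O2)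
include M

theorem pi_mem_O1 : algebraMap R F π ∈ O1 := M.le_O1_0 _ (B0.algebraMap_mem π)

theorem pi_mem_O2 : algebraMap R F π ∈ O2 := M.le_O2_0 _ (B0.algebraMap_mem π)

/-- `n`-fold saturation of `B0` in `O1 ⊓ O2`. -/
theorem sat0_pow (n : ℕ) : ∀ c : F, c ∈ O1 → c ∈ O2 → algebraMap R F π ^ n * c ∈ B0 → c ∈ B0 := by
  induction n with
  | zero => intro c _ _ h; simpa using h
  | succ n ih =>
    intro c h1 h2 h
    apply ih c h1 h2
    refine M.sat0 _ h (algebraMap R F π ^ n * c)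
      (O1.mul_mem _ _ (pow_mem (pi_mem_O1 M) n) h1)
      (O2.mul_mem _ _ (pow_mem (pi_mem_O2 M) n) h2) ?_
    rw [pow_succ]; ring

/-- `n`-fold saturation of `B1` in `O1 ⊓ O2`. -/
theorem sat1_pow (n : ℕ) : ∀ c : F, c ∈ O1 → c ∈ O2 → algebraMap R F π ^ n * c ∈ B1 → c ∈ B1 := by
  induction n with
  | zero => intro c _ _ h; simpa using h
  | succ n ih =>
    intro c h1 h2 h
    apply ih c h1 h2
    refine M.sat1 _ h (algebraMap R F π ^ n * c)
      (O1.mul_mem _ _ (pow_mem (pi_mem_O1 M) n) h1)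
      (O2.mul_mem _ _ (pow_mem (pi_mem_O2 M) n) h2) ?_
    rw [pow_succ]; ring

/-- **`σ ≡ id mod π ^ n B0` on `B0`.** -/
theorem sub_mem_B0_pow {n : ℕ} (h : SigmaData π t O1 O2 σ)
    (h1 : IsRamAt O1 (algebraMap R F π) n σ) (h2 : IsRamAt O2 (algebraMap R F π) n σ) {b : F}
    (hb : b ∈ B0) : ∃ c ∈ B0, σ b - b = algebraMap R F π ^ n * c := by
  obtain ⟨c1, hc1, e1⟩ := h1.sub_mem b (M.le_O1_0 b hb)
  obtain ⟨c2, hc2, e2⟩ := h2.sub_mem b (M.le_O2_0 b hb)
  have : c1 = c2 := mul_left_cancel₀ (pow_ne_zero n M.pi_ne) (e1.symm.trans e2)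
  subst this
  refine ⟨c1, sat0_pow M n c1 hc1 hc2 ?_, e1⟩
  rw [← e1]
  exact B0.sub_mem (h.map_mem_B0 M hb) hb

/-- **`σ ≡ id mod π ^ n B1` on `B1`.** -/
theorem sub_mem_B1_pow {n : ℕ} (h : SigmaData π t O1 O2 σ)
    (h1 : IsRamAt O1 (algebraMap R F π) n σ) (h2 : IsRamAt O2 (algebraMap R F π) n σ) {b : F}
    (hb : b ∈ B1) : ∃ c ∈ B1, σ b - b = algebraMap R F π ^ n * c := by
  obtain ⟨c1, hc1, e1⟩ := h1.sub_mem b (M.le_O1_1 b hb)
  obtain ⟨c2, hc2, e2⟩ := h2.sub_mem b (M.le_O2_1 b hb)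
  have : c1 = c2 := mul_left_cancel₀ (pow_ne_zero n M.pi_ne) (e1.symm.trans e2)
  subst this
  refine ⟨c1, sat1_pow M n c1 hc1 hc2 ?_, e1⟩
  rw [← e1]
  exact B1.sub_mem (h.map_mem_B1 M hb) hb

end Chart

/-! ### The concrete instance: `τ ∈ I_A` of depth `n` on `F_K = FK M K` -/

section Concrete

open Fermat.Agent.RED.Interface4 Fermat.Agent.RED.DESC Fermat.Agent.RED.BASE.EtaQuot12
  Fermat.Agent.ES.N34.FrickeFK8 Fermat.Agent.ES.N34.GalBase21 Fermat.Agent.ES.N34.GalChart21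
  Fermat.Agent.ES.N34.GalConc21 Fermat.Agent.ES.N34.GalModel21

variable (A : ValuationSubring Qbar) (K : IntermediateField ℚ Qbar) [Normal ℚ K]

/-- `τ|_K ≡ id mod π ^ n` on `A ∩ K` (for a uniformiser `π`: `τ` lies in the lower ramification
group `G_{n-1}` of `K` at `A`). -/
def RamDepth (π : ↥(AK A K)) (n : ℕ) (τ : Qbar ≃ₐ[ℚ] Qbar) : Prop :=
  ∀ a : ↥(AK A K), ∃ b : ↥(AK A K), resK K τ (a : K) - (a : K) = (π : K) ^ n * (b : K)

variable {A K}

theorem isRamBase_resK {τ : Qbar ≃ₐ[ℚ] Qbar} (hτ : τ ∈ A.inertiaSubgroupIn ℚ)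
    {π : ↥(AK A K)} (hπ : IsUnif (AK A K) π) {n : ℕ} (hn : RamDepth A K π n τ) :
    IsRamBase π n (resK K τ).toRingEquiv :=
  ⟨isInertialBase_resK A K hτ hπ, hn⟩

variable {M : ℕ}

/-- depth `n` on the Gauss valuation ring at `∞`. -/
theorem isRamAt_galK {τ : Qbar ≃ₐ[ℚ] Qbar} (hτ : τ ∈ A.inertiaSubgroupIn ℚ)
    {π : ↥(AK A K)} (hπ : IsUnif (AK A K) π) {n : ℕ} (hn : RamDepth A K π n τ)
    (hE : FK M K ≤ fracField (AK A K)) :
    IsRamAt (gaussVS hπ (FK M K) hE) (algebraMap ↥(AK A K) ↥(FK M K) π) n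
      (SemilinearAut.toRingAut (galK K M τ)) := by
  refine isRamAt_of_expansion hπ (isRamBase_resK hτ hπ hn) (FK M K).val.toRingHom _
    (fun x => rfl) _ (fun x => mem_gaussVS_iff hπ (FK M K) hE x) _ ?_
  show algebraMap K (LaurentSeries K) (π : K) = _
  rw [algebraMap_eq_C]

/-- depth `n` on a valuation subring cut out by a Galois-equivariant expansion map. -/
theorem isRamAt_galK_of_expansion {τ : Qbar ≃ₐ[ℚ] Qbar} (hτ : τ ∈ A.inertiaSubgroupIn ℚ)
    {π : ↥(AK A K)} (hπ : IsUnif (AK A K) π) {n : ℕ} (hn : RamDepth A K π n τ)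
    (ι₂ : ↥(FK M K) →+* LaurentSeries K)
    (hι₂ : ∀ (σ : K ≃ₐ[ℚ] K) (x : ↥(FK M K)),
      ι₂ (arithmeticRingAut (modularFunctionFieldFull M) σ x) =
        coeffMap ((σ : K ≃ₐ[ℚ] K) : K →+* K) (ι₂ x))
    (O2 : ValuationSubring ↥(FK M K))
    (hO2 : ∀ x : ↥(FK M K), x ∈ O2 ↔ ι₂ x ∈ gaussRing (AK A K))
    (hι₂π : ι₂ (algebraMap ↥(AK A K) ↥(FK M K) π) = HahnSeries.C ((π : ↥(AK A K)) : K)) :
    IsRamAt O2 (algebraMap ↥(AK A K) ↥(FK M K) π) n (SemilinearAut.toRingAut (galK K M τ)) :=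
  isRamAt_of_expansion hπ (isRamBase_resK hτ hπ hn) ι₂ _
    (fun x => hι₂ (resK K τ) x) O2 hO2 _ hι₂π

variable [NeZero M]

/-- depth `n` on `O2 = O1.comap W`. -/
theorem isRamAt_galK_fricke {τ : Qbar ≃ₐ[ℚ] Qbar} (hτ : τ ∈ A.inertiaSubgroupIn ℚ)
    {π : ↥(AK A K)} (hπ : IsUnif (AK A K) π) {n : ℕ} (hn : RamDepth A K π n τ)
    (hE : FK M K ≤ fracField (AK A K)) :
    IsRamAt ((gaussVS hπ (FK M K) hE).comap (frickeFK M K).toRingHom)
      (algebraMap ↥(AK A K) ↥(FK M K) π) n (SemilinearAut.toRingAut (galK K M τ)) :=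
  isRamAt_galK_of_expansion hτ hπ hn (iotaTwo M K) (iotaTwo_arithmeticRingAut M K) _
    (mem_comap_fricke_iff hπ hE) (iotaTwo_algebraMap M K (π : K))

end Concrete

/-! ### In the names of `ModelDefs9` -/

section Model

open Fermat.Agent.RED.Interface4 Fermat.Agent.RED.BASE.EtaQuot12 Fermat.Agent.ES.N34.GalBase21
  Fermat.Agent.ES.N34.NodalCore13 Fermat.Agent.ES.N34.GalChart21 Fermat.Agent.ES.N34.GalModel21
  Fermat.Agent.ES.N34

variable {A : ValuationSubring Qbar} {K : IntermediateField ℚ Qbar} [Normal ℚ K]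
  (M' q : ℕ) [NeZero M'] [NeZero q]

set_option synthInstance.maxHeartbeats 400000 in
/-- depth `n` on `ModelDefs9.O1`. -/
theorem isRamAt_O1 {τ : Qbar ≃ₐ[ℚ] Qbar} (hτ : τ ∈ A.inertiaSubgroupIn ℚ)
    {π : ↥(AK A K)} (hπ : IsUnif (AK A K) π) {n : ℕ} (hn : RamDepth A K π n τ)
    (hE : FK (M' * q) K ≤ fracField (AK A K)) :
    IsRamAt (ModelDefs9.O1 M' q hπ hE) (algebraMap ↥(AK A K) ↥(FK (M' * q) K) π) n
      (SemilinearAut.toRingAut (galK K (M' * q) τ)) :=
  isRamAt_galK hτ hπ hn hE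

set_option synthInstance.maxHeartbeats 400000 in
/-- depth `n` on `ModelDefs9.O2`. -/
theorem isRamAt_O2 {τ : Qbar ≃ₐ[ℚ] Qbar} (hτ : τ ∈ A.inertiaSubgroupIn ℚ)
    {π : ↥(AK A K)} (hπ : IsUnif (AK A K) π) {n : ℕ} (hn : RamDepth A K π n τ)
    (hE : FK (M' * q) K ≤ fracField (AK A K)) :
    IsRamAt (ModelDefs9.O2 M' q hπ hE) (algebraMap ↥(AK A K) ↥(FK (M' * q) K) π) n
      (SemilinearAut.toRingAut (galK K (M' * q) τ)) :=
  isRamAt_galK_fricke hτ hπ hn hE

set_option synthInstance.maxHeartbeats 400000 in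
/-- **the refined Galois congruence on the chart `B0` of the model of record**:
`τ b - b ∈ π ^ n B0` for `τ ∈ I_A` of depth `n`. -/
theorem sub_mem_B0_pow_of_model {n₀ e : ℕ} [NeZero n₀] {τ : Qbar ≃ₐ[ℚ] Qbar}
    (hτ : τ ∈ A.inertiaSubgroupIn ℚ) {π : ↥(AK A K)} (hπ : IsUnif (AK A K) π) {n : ℕ}
    (hn : RamDepth A K π n τ) (hE : FK (M' * q) K ≤ fracField (AK A K))
    (ht : tq (↥K) n₀ e ∈ FK M' K)
    (Mod : NodalTwoChartModel ↥(AK A K) ↥(FK (M' * q) K) π (ModelDefs9.tN q ht)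
      (ModelDefs9.B0 A q ht) (ModelDefs9.B1 A q ht) (ModelDefs9.O1 M' q hπ hE)
      (ModelDefs9.O2 M' q hπ hE)) {b : ↥(FK (M' * q) K)} (hb : b ∈ ModelDefs9.B0 A q ht) :
    ∃ c ∈ ModelDefs9.B0 A q ht,
      SemilinearAut.toRingAut (galK K (M' * q) τ) b - b =
        algebraMap ↥(AK A K) ↥(FK (M' * q) K) π ^ n * c :=
  sub_mem_B0_pow Mod (sigmaDataN M' q hτ hπ hE ht) (isRamAt_O1 M' q hτ hπ hn hE)
    (isRamAt_O2 M' q hτ hπ hn hE) hb

set_option synthInstance.maxHeartbeats 400000 in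
/-- the same on the chart `B1`. -/
theorem sub_mem_B1_pow_of_model {n₀ e : ℕ} [NeZero n₀] {τ : Qbar ≃ₐ[ℚ] Qbar}
    (hτ : τ ∈ A.inertiaSubgroupIn ℚ) {π : ↥(AK A K)} (hπ : IsUnif (AK A K) π) {n : ℕ}
    (hn : RamDepth A K π n τ) (hE : FK (M' * q) K ≤ fracField (AK A K))
    (ht : tq (↥K) n₀ e ∈ FK M' K)
    (Mod : NodalTwoChartModel ↥(AK A K) ↥(FK (M' * q) K) π (ModelDefs9.tN q ht)
      (ModelDefs9.B0 A q ht) (ModelDefs9.B1 A q ht) (ModelDefs9.O1 M' q hπ hE)
      (ModelDefs9.O2 M' q hπ hE)) {b : ↥(FK (M' * q) K)} (hb : b ∈ ModelDefs9.B1 A q ht) :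
    ∃ c ∈ ModelDefs9.B1 A q ht,
      SemilinearAut.toRingAut (galK K (M' * q) τ) b - b =
        algebraMap ↥(AK A K) ↥(FK (M' * q) K) π ^ n * c :=
  sub_mem_B1_pow Mod (sigmaDataN M' q hτ hπ hE ht) (isRamAt_O1 M' q hτ hπ hn hE)
    (isRamAt_O2 M' q hτ hπ hn hE) hb

end Model

end Fermat.Agent.M1.Mod.GalDepth13
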