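/-
Program M1 (S44, row 38), chapter MOD, brick RAT-NODES (LOC) + (LOC-INT) — helper34
(split proposed by helper73, the RAT-NODES owner).

For an unramified extension `K₀ ≤ K = K₀(ζ)` of number fields (`ζ` a root of unity of order prime
to the residue characteristic `q`) the valuation ring `A ∩ K` is in general NOT integral over
`A ∩ K₀` (the prime may split); it is only the LOCALISATION of the finite ring `(A ∩ K₀)[ζ]` at a
maximal ideal.

* `exists_common_denominator` : finitely many elements of a localisation have a common denominator;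
* `exists_unit_mul_isIntegral` (**LOC-INT**, "Theorem B with denominators") : if `R₂` is a
  localisation of a subalgebra `C` integral over `R₁`, then every `z` integral over `R₂[t]` has a
  multiple `s z`, `s ∈ C` a unit of `R₂`, integral over `R₁[t]`;
* `exists_unit_mul_eq` (abstract core of **LOC**) : `R₀ → R` local, `R₀ / π` a field, `φ π` a non-unit,
  `ζ ^ m = 1` with `m` invertible in `R₀`: if `P(ζ)` is a non-unit of `R` then `h(ζ) P(ζ) = π P'(ζ)`
  for some `h` with `h(ζ)` a unit;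
* `exists_unit_mul_eq_of_pow_mul` : induction on the `π`-denominator;
* `exists_loc` (**LOC**) : the instance for `A ∩ K₀ → A ∩ K`.
-/
import Mathlib
import Fermat.Agent.M1.Base.ChartDecomp34
import Fermat.Agent.M1.Mod.TotRamInst34

set_option autoImplicit false

noncomputable section

open Polynomial

namespace Fermat.Agent.M1.Mod.LocAdjoin34

/-! ### (LOC-INT) -/

section LocInt

variable {R₁ R₂ F : Type*} [CommRing R₁] [CommRing R₂] [Algebra R₁ R₂] [Field F] [Algebra R₁ F]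
  [Algebra R₂ F] [IsScalarTower R₁ R₂ F]

/-- finitely many elements of a localisation have a common denominator. -/
theorem exists_common_denominator (C : Subalgebra R₁ R₂)
    (hloc : ∀ x : R₂, ∃ s ∈ C, IsUnit s ∧ s * x ∈ C) (T : Finset R₂) :
    ∃ s ∈ C, IsUnit s ∧ ∀ x ∈ T, s * x ∈ C := by
  classical
  induction T using Finset.induction_on with
  | empty => exact ⟨1, C.one_mem, isUnit_one, fun x hx => absurd hx (Finset.notMem_empty x)⟩
  | insert a T _ ih =>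
    obtain ⟨s₁, hs₁, hu₁, h₁⟩ := ih
    obtain ⟨s₂, hs₂, hu₂, h₂⟩ := hloc a
    refine ⟨s₁ * s₂, C.mul_mem hs₁ hs₂, hu₁.mul hu₂, fun x hx => ?_⟩
    rcases Finset.mem_insert.mp hx with rfl | hx
    · have : s₁ * s₂ * x = s₁ * (s₂ * x) := by ring
      rw [this]; exact C.mul_mem hs₁ h₂
    · have : s₁ * s₂ * x = s₂ * (s₁ * x) := by ring
      rw [this]; exact C.mul_mem hs₂ (h₁ x hx)

/-- **(LOC-INT)**: "Theorem B with denominators". -/
theorem exists_unit_mul_isIntegral (C : Subalgebra R₁ R₂) (hCint : ∀ c ∈ C, IsIntegral R₁ c)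
    (hloc : ∀ x : R₂, ∃ s ∈ C, IsUnit s ∧ s * x ∈ C) (t z : F)
    (hz : IsIntegral (Algebra.adjoin R₂ {t}) z) :
    ∃ s ∈ C, IsUnit s ∧ IsIntegral (Algebra.adjoin R₁ {t}) (algebraMap R₂ F s * z) := by
  classical
  obtain ⟨p, hp, hpz⟩ := hz
  set n := p.natDegree with hn
  -- polynomial representatives of the coefficients
  have hrep : ∀ i, ∃ G : R₂[X], aeval t G = ((p.coeff i : Algebra.adjoin R₂ {t}) : F) := by
    intro i
    have h : ((p.coeff i : Algebra.adjoin R₂ {t}) : F) ∈ (aeval (R := R₂) t).range := by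
      rw [← Algebra.adjoin_singleton_eq_range_aeval]
      exact (p.coeff i).2
    obtain ⟨G, hG⟩ := h
    exact ⟨G, hG⟩
  choose G hG using hrep
  obtain ⟨s, hsC, hsu, hs⟩ := exists_common_denominator C hloc
    ((Finset.range n).biUnion fun i => (G i).coeffs)
  refine ⟨s, hsC, hsu, ?_⟩
  have hsmul : ∀ i < n, ∀ j, s * (G i).coeff j ∈ C := by
    intro i hi j
    by_cases h0 : (G i).coeff j = 0
    · rw [h0, mul_zero]; exact C.zero_mem
    · apply hs
      rw [Finset.mem_biUnion]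
      exact ⟨i, Finset.mem_range.mpr hi, Polynomial.coeff_mem_coeffs h0⟩
  -- integrality facts over `R₁[t]`
  have hI_C : ∀ c ∈ C, IsIntegral (Algebra.adjoin R₁ {t}) (algebraMap R₂ F c) := by
    intro c hc
    have h1 : IsIntegral R₁ (algebraMap R₂ F c) := (hCint c hc).algebraMap
    exact h1.tower_top
  have hI_t : IsIntegral (Algebra.adjoin R₁ {t}) t :=
    isIntegral_algebraMap (R := Algebra.adjoin R₁ {t})
      (x := ⟨t, Algebra.self_mem_adjoin_singleton R₁ t⟩)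
  have hI_poly : ∀ H : R₂[X], (∀ j, H.coeff j ∈ C) →
      IsIntegral (Algebra.adjoin R₁ {t}) (aeval t H) := by
    intro H hH
    rw [Polynomial.aeval_eq_sum_range]
    refine IsIntegral.sum _ fun j _ => ?_
    rw [Algebra.smul_def]
    exact (hI_C _ (hH j)).mul (hI_t.pow j)
  set σ : F := algebraMap R₂ F s with hσ
  set pF : F[X] := p.map (algebraMap (Algebra.adjoin R₂ {t}) F) with hpF
  have hpFm : pF.Monic := hp.map _
  have hdeg : pF.natDegree = n := hp.natDegree_map _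
  apply Fermat.Agent.M1.Base.ChartDecomp34.isIntegral_of_monic_of_coeff_isIntegral (P := scaleRoots pF σ)
    ((monic_scaleRoots_iff σ).mpr hpFm)
  · intro i
    rw [coeff_scaleRoots, hdeg]
    rcases lt_trichotomy i n with hi | hi | hi
    · have h1 : pF.coeff i = aeval t (G i) := by rw [hpF, coeff_map, hG]; rfl
      obtain ⟨k, hk⟩ : ∃ k, n - i = k + 1 := ⟨n - i - 1, by omega⟩
      have h3 : pF.coeff i * σ ^ (n - i) = σ ^ k * aeval t (Polynomial.C s * G i) := by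
        rw [h1, hk, pow_succ, map_mul, aeval_C, ← hσ]
        ring
      rw [h3]
      refine ((hI_C s hsC).pow _).mul (hI_poly _ fun j => ?_)
      rw [coeff_C_mul]
      exact hsmul i hi j
    · rw [hi, ← hdeg, hpFm.coeff_natDegree, tsub_self, pow_zero, mul_one]
      exact isIntegral_one
    · rw [coeff_eq_zero_of_natDegree_lt (by rw [hdeg]; exact hi), zero_mul]
      exact isIntegral_zero
  · have h1 : eval₂ (RingHom.id F) z pF = 0 := by
      rw [hpF, eval₂_map, RingHom.id_comp]; exact hpz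
    have h2 := scaleRoots_eval₂_eq_zero (RingHom.id F) (s := σ) h1
    simpa [eval₂_id] using h2

end LocInt

/-! ### (LOC), abstract core -/

section LocCore

variable {R₀ R : Type*} [CommRing R₀] [CommRing R]

/-- a polynomial vanishing modulo `π` is divisible by `π`. -/
theorem exists_eq_C_mul_of_map_eq_zero (π : R₀) (D : R₀[X])
    (h : D.map (Ideal.Quotient.mk (Ideal.span {π} : Ideal R₀)) = 0) :
    ∃ D₁ : R₀[X], D = Polynomial.C π * D₁ := by
  classical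
  have hc : ∀ i, ∃ c, D.coeff i = π * c := by
    intro i
    have h1 := congrArg (fun p => p.coeff i) h
    simp only [coeff_map, coeff_zero] at h1
    obtain ⟨c, hc⟩ := Ideal.mem_span_singleton'.mp (Ideal.Quotient.eq_zero_iff_mem.mp h1)
    exact ⟨c, by rw [← hc, mul_comm]⟩
  choose c hc using hc
  refine ⟨∑ i ∈ D.support, monomial i (c i), ?_⟩
  ext j
  rw [coeff_C_mul, finsetSum_coeff]
  simp only [coeff_monomial]
  rw [Finset.sum_ite_eq']
  split_ifs with hj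
  · exact hc j
  · rw [mul_zero]; exact notMem_support_iff.mp hj

variable [IsLocalRing R] (φ : R₀ →+* R)

/-- **Abstract core of (LOC).**  `R₀ / π` a field, `φ π` a non-unit of the local ring `R`,
`ζ ^ m = 1` in `R` with `m` invertible in `R₀`.  If `P(ζ)` is a non-unit of `R` then
`h(ζ) P(ζ) = π P'(ζ)` for polynomials `h`, `P'` over `R₀` with `h(ζ)` a unit. -/
theorem exists_unit_mul_eq {π : R₀} (hπmax : (Ideal.span {π} : Ideal R₀).IsMaximal)
    (hπ : φ π ∈ IsLocalRing.maximalIdeal R) {m : ℕ} (hm0 : 0 < m) (hm : IsUnit ((m : ℕ) : R₀))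
    {ζ : R} (hζ : ζ ^ m = 1) (P : R₀[X]) (hP : P.eval₂ φ ζ ∈ IsLocalRing.maximalIdeal R) :
    ∃ h P' : R₀[X], IsUnit (h.eval₂ φ ζ) ∧ h.eval₂ φ ζ * P.eval₂ φ ζ = φ π * P'.eval₂ φ ζ := by
  classical
  let _ : Field (R₀ ⧸ (Ideal.span {π} : Ideal R₀)) := Ideal.Quotient.field _
  set mk₀ : R₀ →+* R₀ ⧸ (Ideal.span {π} : Ideal R₀) := Ideal.Quotient.mk _ with hmk₀
  have hker : ∀ a ∈ (Ideal.span {π} : Ideal R₀), ((IsLocalRing.residue R).comp φ) a = 0 := by
    intro a ha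
    obtain ⟨c, rfl⟩ := Ideal.mem_span_singleton'.mp ha
    rw [RingHom.comp_apply, map_mul, map_mul]
    rw [(IsLocalRing.residue_eq_zero_iff (φ π)).mpr hπ, mul_zero]
  set ψ : R₀ ⧸ (Ideal.span {π} : Ideal R₀) →+* IsLocalRing.ResidueField R :=
    Ideal.Quotient.lift _ ((IsLocalRing.residue R).comp φ) hker with hψ
  have hψmk : ψ.comp mk₀ = (IsLocalRing.residue R).comp φ := by
    ext a
    simp [hψ, hmk₀]
  let _ : Algebra (R₀ ⧸ (Ideal.span {π} : Ideal R₀)) (IsLocalRing.ResidueField R) := ψ.toAlgebra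
  set ζb : IsLocalRing.ResidueField R := IsLocalRing.residue R ζ with hζb
  have hcomp : ∀ Q : R₀[X], aeval ζb (Q.map mk₀) = IsLocalRing.residue R (Q.eval₂ φ ζ) := by
    intro Q
    rw [aeval_def, eval₂_map]
    have : (algebraMap (R₀ ⧸ (Ideal.span {π} : Ideal R₀)) (IsLocalRing.ResidueField R)) = ψ := rfl
    rw [this, hψmk, hom_eval₂]
  have hζbm : ζb ^ m = 1 := by rw [hζb, ← map_pow, hζ, map_one]
  have hint : IsIntegral (R₀ ⧸ (Ideal.span {π} : Ideal R₀)) ζb :=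
    ⟨X ^ m - Polynomial.C 1, monic_X_pow_sub_C 1 hm0.ne', by simp [hζbm]⟩
  have hgP : minpoly (R₀ ⧸ (Ideal.span {π} : Ideal R₀)) ζb ∣ P.map mk₀ := by
    apply minpoly.dvd
    rw [hcomp]
    exact (IsLocalRing.residue_eq_zero_iff _).mpr hP
  have hgX : minpoly (R₀ ⧸ (Ideal.span {π} : Ideal R₀)) ζb ∣
      (X ^ m - Polynomial.C 1 : (R₀ ⧸ (Ideal.span {π} : Ideal R₀))[X]) := by
    apply minpoly.dvd
    simp [hζbm]
  obtain ⟨Qb, hQb⟩ := hgP
  obtain ⟨hb, hhb⟩ := hgX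
  have hm' : ((m : ℕ) : R₀ ⧸ (Ideal.span {π} : Ideal R₀)) ≠ 0 := by
    have := (hm.map mk₀).ne_zero
    rwa [map_natCast] at this
  have hsep : (X ^ m - Polynomial.C 1 : (R₀ ⧸ (Ideal.span {π} : Ideal R₀))[X]).Separable :=
    separable_X_pow_sub_C (1 : R₀ ⧸ (Ideal.span {π} : Ideal R₀)) hm' one_ne_zero
  have hcop : IsCoprime (minpoly (R₀ ⧸ (Ideal.span {π} : Ideal R₀)) ζb) hb := by
    rw [hhb] at hsep
    exact hsep.isCoprime
  have hhb0 : aeval ζb hb ≠ 0 := by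
    intro h0
    exact minpoly.not_isUnit _ ζb (hcop.isUnit_of_dvd' dvd_rfl (minpoly.dvd _ ζb h0))
  -- lifts
  obtain ⟨g', hg'⟩ := map_surjective mk₀ Ideal.Quotient.mk_surjective
    (minpoly (R₀ ⧸ (Ideal.span {π} : Ideal R₀)) ζb)
  obtain ⟨h', hh'⟩ := map_surjective mk₀ Ideal.Quotient.mk_surjective hb
  obtain ⟨Q', hQ'⟩ := map_surjective mk₀ Ideal.Quotient.mk_surjective Qb
  obtain ⟨P₁, hP₁⟩ := exists_eq_C_mul_of_map_eq_zero π (P - g' * Q') (by
    rw [Polynomial.map_sub, Polynomial.map_mul, hg', hQ', hQb, sub_self])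
  obtain ⟨P₂, hP₂⟩ := exists_eq_C_mul_of_map_eq_zero π (g' * h' - (X ^ m - Polynomial.C 1)) (by
    rw [Polynomial.map_sub, Polynomial.map_mul, hg', hh', Polynomial.map_sub, Polynomial.map_pow,
      map_X, Polynomial.map_C, map_one, hhb, sub_self])
  refine ⟨h', P₂ * Q' + h' * P₁, ?_, ?_⟩
  · have h1 : IsLocalRing.residue R (h'.eval₂ φ ζ) ≠ 0 := by
      rw [← hcomp, hh']; exact hhb0
    by_contra hu
    exact h1 ((IsLocalRing.residue_eq_zero_iff _).mpr hu)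
  · have e1 : P.eval₂ φ ζ = g'.eval₂ φ ζ * Q'.eval₂ φ ζ + φ π * P₁.eval₂ φ ζ := by
      have := congrArg (fun p => p.eval₂ φ ζ) hP₁
      simp only [eval₂_sub, eval₂_mul, eval₂_C] at this
      rw [← this]; ring
    have e2 : g'.eval₂ φ ζ * h'.eval₂ φ ζ = φ π * P₂.eval₂ φ ζ := by
      have := congrArg (fun p => p.eval₂ φ ζ) hP₂
      simp only [eval₂_sub, eval₂_mul, eval₂_C, eval₂_pow, eval₂_X, hζ, map_one, eval₂_one,
        sub_self, sub_zero] at this
      exact this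
    rw [e1, eval₂_add, eval₂_mul, eval₂_mul]
    have : h'.eval₂ φ ζ * (g'.eval₂ φ ζ * Q'.eval₂ φ ζ + φ π * P₁.eval₂ φ ζ) =
        (g'.eval₂ φ ζ * h'.eval₂ φ ζ) * Q'.eval₂ φ ζ + φ π * (h'.eval₂ φ ζ * P₁.eval₂ φ ζ) := by
      ring
    rw [this, e2]; ring

/-- **(LOC), abstract form**: induction on the `π`-denominator. -/
theorem exists_unit_mul_eq_of_pow_mul [IsDomain R] {π : R₀}
    (hπmax : (Ideal.span {π} : Ideal R₀).IsMaximal)
    (hπ : φ π ∈ IsLocalRing.maximalIdeal R) (hπ0 : φ π ≠ 0) {m : ℕ} (hm0 : 0 < m)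
    (hm : IsUnit ((m : ℕ) : R₀)) {ζ : R} (hζ : ζ ^ m = 1) :
    ∀ (k : ℕ) (x : R) (P : R₀[X]), φ π ^ k * x = P.eval₂ φ ζ →
      ∃ S P' : R₀[X], IsUnit (S.eval₂ φ ζ) ∧ S.eval₂ φ ζ * x = P'.eval₂ φ ζ := by
  intro k
  induction k with
  | zero =>
    intro x P h
    refine ⟨1, P, by simp, ?_⟩
    rw [eval₂_one, one_mul, ← h, pow_zero, one_mul]
  | succ k ih =>
    intro x P h
    have hP : P.eval₂ φ ζ ∈ IsLocalRing.maximalIdeal R := by
      rw [← h, pow_succ, mul_assoc]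
      exact Ideal.mul_mem_left _ _ (Ideal.mul_mem_right _ _ hπ)
    obtain ⟨h', P', hu, he⟩ := exists_unit_mul_eq φ hπmax hπ hm0 hm hζ P hP
    have h2 : φ π ^ k * (h'.eval₂ φ ζ * x) = P'.eval₂ φ ζ := by
      apply mul_left_cancel₀ hπ0
      rw [← he, ← h, pow_succ]; ring
    obtain ⟨S, P'', hS, hSe⟩ := ih _ P' h2
    refine ⟨S * h', P'', ?_, ?_⟩
    · rw [eval₂_mul]; exact hS.mul hu
    · rw [eval₂_mul, mul_assoc]; exact hSe

end LocCore

/-! ### (LOC), the instance `A ∩ K₀ → A ∩ K` -/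

section LocInst

open Fermat.Agent.RED.Interface4 Fermat.Agent.RED.DESC Fermat.Agent.M1.Mod.TotRamInst34

variable {A : ValuationSubring Qbar} {q : ℕ}

/-- an integer prime to the residue characteristic is a unit of `A ∩ K`. -/
theorem isUnit_natCast_AK (hq : q.Prime) (hA : A.LiesOverPrime q) (K : IntermediateField ℚ Qbar)
    {m : ℕ} (hm : ¬ q ∣ m) : IsUnit ((m : ℕ) : ↥(AK A K)) := by
  by_contra hu
  have h1 : ((m : ℕ) : ↥(AK A K)) ∈ IsLocalRing.maximalIdeal ↥(AK A K) :=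
    (IsLocalRing.mem_maximalIdeal _).mpr hu
  have h2 : ((q : ℕ) : ↥(AK A K)) ∈ IsLocalRing.maximalIdeal ↥(AK A K) :=
    NumberFieldDVR27.natCast_mem_maximalIdeal A K hA
  have hcop : IsCoprime ((m : ℕ) : ℤ) ((q : ℕ) : ℤ) :=
    Nat.isCoprime_iff_coprime.mpr ((Nat.Prime.coprime_iff_not_dvd hq).mpr hm).symm
  obtain ⟨a, b, hab⟩ := hcop
  have h3 : ((a : ℤ) : ↥(AK A K)) * ((m : ℕ) : ↥(AK A K)) +
      ((b : ℤ) : ↥(AK A K)) * ((q : ℕ) : ↥(AK A K)) = 1 := by
    have := congrArg (fun z : ℤ => ((z : ℤ) : ↥(AK A K))) hab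
    simpa using this
  have h4 : (1 : ↥(AK A K)) ∈ IsLocalRing.maximalIdeal ↥(AK A K) := by
    rw [← h3]
    exact Ideal.add_mem _ (Ideal.mul_mem_left _ _ h1) (Ideal.mul_mem_left _ _ h2)
  exact (IsLocalRing.maximalIdeal.isMaximal ↥(AK A K)).ne_top
    ((Ideal.eq_top_iff_one _).mpr h4)

/-- every element of `K₀` has a `π`-power multiple in `A ∩ K₀`. -/
theorem exists_pow_mul_mem_AK (K₀ : IntermediateField ℚ Qbar)
    [IsDiscreteValuationRing ↥(AK A K₀)] {π : ↥(AK A K₀)} (hπ : Irreducible π) (y : K₀) :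
    ∃ k : ℕ, ((π : K₀)) ^ k * y ∈ AK A K₀ := by
  by_cases hy : y ∈ AK A K₀
  · exact ⟨0, by rw [pow_zero, one_mul]; exact hy⟩
  · have hyinv : y⁻¹ ∈ AK A K₀ := ((AK A K₀).mem_or_inv_mem y).resolve_left hy
    have hy0 : y ≠ 0 := by
      rintro rfl
      exact hy (AK A K₀).zero_mem
    have hb0 : (⟨y⁻¹, hyinv⟩ : ↥(AK A K₀)) ≠ 0 := by
      intro h
      have := congrArg (fun z : ↥(AK A K₀) => (z : K₀)) h
      exact inv_ne_zero hy0 this
    obtain ⟨n, u, hu⟩ := IsDiscreteValuationRing.eq_unit_mul_pow_irreducible hb0 hπ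
    refine ⟨n, ?_⟩
    have h1 : y⁻¹ = ((u : ↥(AK A K₀)) : K₀) * (π : K₀) ^ n := by
      have := congrArg (fun z : ↥(AK A K₀) => (z : K₀)) hu
      simpa using this
    have h2 : ((u : ↥(AK A K₀)) : K₀) * (((π : K₀)) ^ n * y) = 1 := by
      rw [← mul_assoc, ← h1, inv_mul_cancel₀ hy0]
    have h3 : ((u : ↥(AK A K₀)) : K₀) * (((u⁻¹ : (↥(AK A K₀))ˣ) : ↥(AK A K₀)) : K₀) = 1 := by
      have h := congrArg (fun z : ↥(AK A K₀) => (z : K₀)) (Units.mul_inv u)
      exact h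
    have hu0 : ((u : ↥(AK A K₀)) : K₀) ≠ 0 := left_ne_zero_of_mul_eq_one h3
    have h4 : ((π : K₀)) ^ n * y = (((u⁻¹ : (↥(AK A K₀))ˣ) : ↥(AK A K₀)) : K₀) :=
      mul_left_cancel₀ hu0 (h2.trans h3.symm)
    rw [h4]
    exact Subtype.coe_prop _

/-- clearing the denominators of a polynomial over `K₀`. -/
theorem exists_integral_multiple (K₀ : IntermediateField ℚ Qbar)
    [IsDiscreteValuationRing ↥(AK A K₀)] {π : ↥(AK A K₀)} (hπ : Irreducible π) (G : K₀[X]) :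
    ∃ (k : ℕ) (P : (↥(AK A K₀))[X]),
      P.map (AK A K₀).subtype = Polynomial.C ((π : K₀) ^ k) * G := by
  induction G using Polynomial.induction_on' with
  | add G₁ G₂ ih₁ ih₂ =>
    obtain ⟨k₁, P₁, h₁⟩ := ih₁
    obtain ⟨k₂, P₂, h₂⟩ := ih₂
    refine ⟨k₁ + k₂, Polynomial.C (π ^ k₂) * P₁ + Polynomial.C (π ^ k₁) * P₂, ?_⟩
    rw [Polynomial.map_add, Polynomial.map_mul, Polynomial.map_mul, h₁, h₂, Polynomial.map_C,
      Polynomial.map_C, pow_add, map_mul]
    simp only [map_pow, ValuationSubring.subtype_apply]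
    ring
  | monomial n a =>
    obtain ⟨k, hk⟩ := exists_pow_mul_mem_AK K₀ hπ a
    refine ⟨k, monomial n ⟨(π : K₀) ^ k * a, hk⟩, ?_⟩
    rw [Polynomial.map_monomial, C_mul_monomial]
    rfl

/-- **(LOC)**: `A ∩ K` is the localisation of `(A ∩ K₀)[ζ]` at a maximal ideal, for `K = K₀(ζ)`,
`ζ` a root of unity of order prime to the residue characteristic. -/
theorem exists_loc (hq : q.Prime) (hA : A.LiesOverPrime q) {K₀ K : IntermediateField ℚ Qbar}
    (hle : K₀ ≤ K) [FiniteDimensional ℚ K₀] {m : ℕ} (hm0 : 0 < m) (hm : ¬ q ∣ m)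
    (ζ : ↥(AK A K)) (hζ : ζ ^ m = 1)
    (hgen : ∀ x : K, ∃ G : K₀[X], x = G.eval₂ (incKL hle) (ζ : K)) :
    ∀ x : ↥(AK A K), ∃ S P : (↥(AK A K₀))[X], IsUnit (S.eval₂ (incAK A hle) ζ) ∧
      S.eval₂ (incAK A hle) ζ * x = P.eval₂ (incAK A hle) ζ := by
  have := NumberFieldDVR27.isDiscreteValuationRing_AK A K₀ hq.ne_zero hA
  obtain ⟨π, hπ⟩ := IsDiscreteValuationRing.exists_irreducible ↥(AK A K₀)
  have hπmax : (Ideal.span {π} : Ideal ↥(AK A K₀)).IsMaximal := by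
    rw [← hπ.maximalIdeal_eq]
    exact IsLocalRing.maximalIdeal.isMaximal _
  have hπK : incAK A hle π ∈ IsLocalRing.maximalIdeal ↥(AK A K) := by
    rw [NumberFieldDVR27.mem_maximalIdeal_iff]
    have h1 : NumberFieldDVR27.incl A K (incAK A hle π) = NumberFieldDVR27.incl A K₀ π := rfl
    rw [h1, ← NumberFieldDVR27.mem_maximalIdeal_iff, hπ.maximalIdeal_eq]
    exact Ideal.mem_span_singleton_self π
  have hinj : Function.Injective (incAK A hle) := by
    intro a b hab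
    have := congrArg (fun z : ↥(AK A K) => ((z : K) : Qbar)) hab
    exact Subtype.ext (Subtype.ext this)
  have hπ0 : incAK A hle π ≠ 0 := by
    intro h
    exact hπ.ne_zero (hinj (by rw [h, map_zero]))
  intro x
  obtain ⟨G, hG⟩ := hgen x
  obtain ⟨k, P, hP⟩ := exists_integral_multiple K₀ hπ G
  refine exists_unit_mul_eq_of_pow_mul (incAK A hle) hπmax hπK hπ0 hm0
    (isUnit_natCast_AK hq hA K₀ hm) hζ k x P ?_
  apply Subtype.ext
  have h1 : ((P.eval₂ (incAK A hle) ζ : ↥(AK A K)) : K) = P.eval₂ (incAKL A hle) (ζ : K) :=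
    hom_eval₂ P (incAK A hle) (AK A K).subtype ζ
  have h2 : P.eval₂ (incAKL A hle) (ζ : K) =
      (P.map (AK A K₀).subtype).eval₂ (incKL hle) (ζ : K) := by
    rw [eval₂_map]
  rw [h1, h2, hP, eval₂_mul, eval₂_C, ← hG]
  show (((incAK A hle π) ^ k * x : ↥(AK A K)) : K) = _
  push_cast
  rw [coe_incAK', map_pow]

/-- elements of `R₁[ζ]`, `ζ` a root of unity, are integral over `R₁`. -/
theorem isIntegral_of_mem_adjoin_root {R₁ R₂ : Type*} [CommRing R₁] [CommRing R₂] [Algebra R₁ R₂]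
    {m : ℕ} (hm0 : 0 < m) {ζ : R₂} (hζ : ζ ^ m = 1) :
    ∀ c ∈ Algebra.adjoin R₁ {ζ}, IsIntegral R₁ c := by
  have hζint : IsIntegral R₁ ζ :=
    ⟨X ^ m - Polynomial.C 1, monic_X_pow_sub_C 1 hm0.ne', by simp [hζ]⟩
  intro c hc
  exact _root_.adjoin_le_integralClosure hζint hc

/-- **(LOC)**, `Algebra.adjoin` form: for any `Algebra (A ∩ K₀) (A ∩ K)` instance whose structure
map is the inclusion. -/
theorem exists_loc_adjoin (hq : q.Prime) (hA : A.LiesOverPrime q) {K₀ K : IntermediateField ℚ Qbar}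
    (hle : K₀ ≤ K) [FiniteDimensional ℚ K₀] {m : ℕ} (hm0 : 0 < m) (hm : ¬ q ∣ m)
    (ζ : ↥(AK A K)) (hζ : ζ ^ m = 1)
    (hgen : ∀ x : K, ∃ G : K₀[X], x = G.eval₂ (incKL hle) (ζ : K))
    [Algebra ↥(AK A K₀) ↥(AK A K)] (halg : algebraMap ↥(AK A K₀) ↥(AK A K) = incAK A hle) :
    ∀ x : ↥(AK A K), ∃ s ∈ Algebra.adjoin ↥(AK A K₀) {ζ}, IsUnit s ∧
      s * x ∈ Algebra.adjoin ↥(AK A K₀) {ζ} := by
  intro x
  obtain ⟨S, P, hu, he⟩ := exists_loc hq hA hle hm0 hm ζ hζ hgen x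
  have hmem : ∀ Q : (↥(AK A K₀))[X], Q.eval₂ (incAK A hle) ζ ∈ Algebra.adjoin ↥(AK A K₀) {ζ} := by
    intro Q
    rw [← halg, ← aeval_def]
    exact aeval_mem_adjoin_singleton _ _
  exact ⟨_, hmem S, hu, by rw [he]; exact hmem P⟩

/-- **(LOC) + (LOC-INT)**: every `z` integral over `(A ∩ K)[t]` has a multiple `s z`, `s ∈ (A ∩ K₀)[ζ]`
a unit of `A ∩ K`, integral over `(A ∩ K₀)[t]`. -/
theorem exists_unit_mul_isIntegral_AK (hq : q.Prime) (hA : A.LiesOverPrime q)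
    {K₀ K : IntermediateField ℚ Qbar} (hle : K₀ ≤ K) [FiniteDimensional ℚ K₀] {m : ℕ}
    (hm0 : 0 < m) (hm : ¬ q ∣ m) (ζ : ↥(AK A K)) (hζ : ζ ^ m = 1)
    (hgen : ∀ x : K, ∃ G : K₀[X], x = G.eval₂ (incKL hle) (ζ : K))
    [Algebra ↥(AK A K₀) ↥(AK A K)] (halg : algebraMap ↥(AK A K₀) ↥(AK A K) = incAK A hle)
    {F : Type*} [Field F] [Algebra ↥(AK A K₀) F] [Algebra ↥(AK A K) F]
    [IsScalarTower ↥(AK A K₀) ↥(AK A K) F] (t z : F)
    (hz : IsIntegral (Algebra.adjoin ↥(AK A K) {t}) z) :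
    ∃ s ∈ Algebra.adjoin ↥(AK A K₀) {ζ}, IsUnit s ∧
      IsIntegral (Algebra.adjoin ↥(AK A K₀) {t}) (algebraMap ↥(AK A K) F s * z) :=
  exists_unit_mul_isIntegral (Algebra.adjoin ↥(AK A K₀) {ζ})
    (isIntegral_of_mem_adjoin_root hm0 hζ)
    (exists_loc_adjoin hq hA hle hm0 hm ζ hζ hgen halg) t z hz

end LocInst

end Fermat.Agent.M1.Mod.LocAdjoin34
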