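/-
Program M1 (S44, row 38), chapter MOD, brick RAT-NODES — helper34: the hypothesis `hgen` of
`LocAdjoin34.exists_loc` for `K = K₀ ⊔ ℚ⟮z⟯`, `z` algebraic: every element of `K` is a polynomial in
`z` with coefficients in `K₀`.

* `exists_eval₂_eq_of_mem_sup` : `x ∈ K₀ ⊔ ℚ⟮z⟯ → ∃ G : K₀[X], x = G(z)` (in `ℚ̄`);
* `hgen_of_le_sup` : the `K`-valued form consumed by `LocAdjoin34.exists_loc`, for any `K` with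
  `K₀ ≤ K ≤ K₀ ⊔ ℚ⟮z⟯` and `ζ : A ∩ K` with underlying element `z`;
* `exists_loc_sup` : `exists_loc` for `K = K₀ ⊔ ℚ⟮z⟯` with `z` a root of unity of order prime to `q`.
-/
import Mathlib
import Fermat.Agent.M1.Mod.LocAdjoin34

set_option autoImplicit false

noncomputable section

open Polynomial IntermediateField

namespace Fermat.Agent.M1.Mod.LocGen34

open Fermat.Agent.RED.Interface4 Fermat.Agent.RED.DESC Fermat.Agent.M1.Mod.TotRamInst34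

/-- every element of `K₀ ⊔ ℚ⟮z⟯` is a polynomial in `z` over `K₀`. -/
theorem exists_eval₂_eq_of_mem_sup (K₀ : IntermediateField ℚ Qbar) (z : Qbar) {x : Qbar}
    (hx : x ∈ K₀ ⊔ ℚ⟮z⟯) : ∃ G : K₀[X], x = G.eval₂ (algebraMap K₀ Qbar) z := by
  have h0 : Algebra.IsAlgebraic ℚ Qbar := NumberFieldDVR27.isAlgebraic_Qbar
  have hzalg : IsAlgebraic K₀ z := (Algebra.IsAlgebraic.isAlgebraic (R := ℚ) z).tower_top _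
  have hle : K₀ ⊔ ℚ⟮z⟯ ≤ (K₀⟮z⟯).restrictScalars ℚ := by
    refine sup_le ?_ ?_
    · intro y hy
      exact (K₀⟮z⟯).algebraMap_mem ⟨y, hy⟩
    · rw [IntermediateField.adjoin_simple_le_iff]
      exact IntermediateField.mem_adjoin_simple_self K₀ z
  have h1 : x ∈ K₀⟮z⟯ := hle hx
  have h2 : x ∈ (K₀⟮z⟯).toSubalgebra := h1
  rw [IntermediateField.adjoin_simple_toSubalgebra_of_isAlgebraic hzalg,
    Algebra.adjoin_singleton_eq_range_aeval] at h2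
  obtain ⟨G, hG⟩ := h2
  exact ⟨G, by rw [← hG]; rfl⟩

/-- helper73's literal (W1) of #2042: the `K`-valued form with the canonical element `⟨z, _⟩`. -/
theorem exists_eval₂_of_mem_sup (K₀ : IntermediateField ℚ Qbar) (z : Qbar)
    (c : ↥(K₀ ⊔ ℚ⟮z⟯)) :
    ∃ G : (↥K₀)[X], c = G.eval₂ (incKL (le_sup_left : K₀ ≤ K₀ ⊔ ℚ⟮z⟯))
      ⟨z, (le_sup_right : ℚ⟮z⟯ ≤ K₀ ⊔ ℚ⟮z⟯) (IntermediateField.mem_adjoin_simple_self ℚ z)⟩ := by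
  obtain ⟨G, hG⟩ := exists_eval₂_eq_of_mem_sup K₀ z c.2
  refine ⟨G, Subtype.ext ?_⟩
  have h1 := hom_eval₂ G (incKL (le_sup_left : K₀ ≤ K₀ ⊔ ℚ⟮z⟯))
    (algebraMap ↥(K₀ ⊔ ℚ⟮z⟯) Qbar)
    ⟨z, (le_sup_right : ℚ⟮z⟯ ≤ K₀ ⊔ ℚ⟮z⟯) (IntermediateField.mem_adjoin_simple_self ℚ z)⟩
  have h2 : ((G.eval₂ (incKL (le_sup_left : K₀ ≤ K₀ ⊔ ℚ⟮z⟯))
      ⟨z, (le_sup_right : ℚ⟮z⟯ ≤ K₀ ⊔ ℚ⟮z⟯) (IntermediateField.mem_adjoin_simple_self ℚ z)⟩ :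
        ↥(K₀ ⊔ ℚ⟮z⟯)) : Qbar) = G.eval₂ (algebraMap K₀ Qbar) z := h1
  rw [h2]; exact hG

variable {A : ValuationSubring Qbar} {q : ℕ}

/-- **`hgen`** of `LocAdjoin34.exists_loc`. -/
theorem hgen_of_le_sup {K₀ K : IntermediateField ℚ Qbar} (hle : K₀ ≤ K) {z : Qbar}
    (hK : K ≤ K₀ ⊔ ℚ⟮z⟯) (ζ : ↥(AK A K)) (hζz : ((ζ : K) : Qbar) = z) :
    ∀ x : K, ∃ G : K₀[X], x = G.eval₂ (incKL hle) (ζ : K) := by
  intro x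
  obtain ⟨G, hG⟩ := exists_eval₂_eq_of_mem_sup K₀ z (hK x.2)
  refine ⟨G, Subtype.ext ?_⟩
  have h1 : ((G.eval₂ (incKL hle) (ζ : K) : K) : Qbar) =
      G.eval₂ ((algebraMap K Qbar).comp (incKL hle)) ((ζ : K) : Qbar) :=
    hom_eval₂ G (incKL hle) (algebraMap K Qbar) (ζ : K)
  rw [h1, hζz, hG]
  rfl

/-- **(LOC)** for `K = K₀ ⊔ ℚ⟮z⟯`, `z ^ m = 1`, `q ∤ m`. -/
theorem exists_loc_sup (hq : q.Prime) (hA : A.LiesOverPrime q) (K₀ : IntermediateField ℚ Qbar)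
    [FiniteDimensional ℚ K₀] {m : ℕ} (hm0 : 0 < m) (hm : ¬ q ∣ m) {z : Qbar} (hz : z ^ m = 1) :
    ∃ ζ : ↥(AK A (K₀ ⊔ ℚ⟮z⟯)), ((ζ : ↥(K₀ ⊔ ℚ⟮z⟯)) : Qbar) = z ∧ ζ ^ m = 1 ∧
      ∀ x : ↥(AK A (K₀ ⊔ ℚ⟮z⟯)), ∃ S P : (↥(AK A K₀))[X],
        IsUnit (S.eval₂ (incAK A (le_sup_left : K₀ ≤ K₀ ⊔ ℚ⟮z⟯)) ζ) ∧
        S.eval₂ (incAK A (le_sup_left : K₀ ≤ K₀ ⊔ ℚ⟮z⟯)) ζ * x =
          P.eval₂ (incAK A (le_sup_left : K₀ ≤ K₀ ⊔ ℚ⟮z⟯)) ζ := by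
  have hzK : z ∈ K₀ ⊔ ℚ⟮z⟯ :=
    (le_sup_right : ℚ⟮z⟯ ≤ K₀ ⊔ ℚ⟮z⟯) (IntermediateField.mem_adjoin_simple_self ℚ z)
  have hzA : z ∈ A := NumberFieldDVR27.mem_of_isIntegral A
    ⟨X ^ m - Polynomial.C 1, monic_X_pow_sub_C 1 hm0.ne', by simp [hz]⟩
  have hmem : (⟨z, hzK⟩ : ↥(K₀ ⊔ ℚ⟮z⟯)) ∈ AK A (K₀ ⊔ ℚ⟮z⟯) := by
    rw [NumberFieldDVR27.mem_AK_iff]; exact hzA
  refine ⟨⟨⟨z, hzK⟩, hmem⟩, rfl, ?_, ?_⟩
  · apply Subtype.ext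
    apply Subtype.ext
    show z ^ m = 1
    exact hz
  · exact LocAdjoin34.exists_loc hq hA le_sup_left hm0 hm _ (by
        apply Subtype.ext
        apply Subtype.ext
        show z ^ m = 1
        exact hz)
      (hgen_of_le_sup le_sup_left le_rfl _ rfl)

end Fermat.Agent.M1.Mod.LocGen34
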