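/-
M1 (S44), chapter MOD (helper73), RAT-NODES part 5: **the nodes of the model of `X₀(M' q)` become
rational over an unramified cyclotomic enlargement `K = K₀(ζ)` of the base** (`ModelDefs9` names).

`K₀ ≤ K` number fields in `ℚ̄`, `π₀` a uniformiser of `A ∩ K₀` which stays a uniformiser of `A ∩ K`
(unramified), `ζ ∈ A ∩ K` a primitive `m`-th root of unity generating `K` over `K₀`, `m` prime to the
residue characteristic and such that `b ^ (m + 1) ≡ b` at every node of the two charts over `K₀`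
(`RatNodesAbs73.exists_uniform_pow_nodes`).  Then every node of `B0(K)`, `B1(K)` is rational:
`∀ z, ∃ r : A ∩ K, z - r ∈ 𝔪` (the literal `hrat` of `Base/ThickRat53`).
-/
import Mathlib
import Fermat.Agent.M1.Mod.ChartBC34
import Fermat.Agent.M1.Mod.LocAdjoin34
import Fermat.Agent.M1.Base.RatNodesAbs73

set_option autoImplicit false
set_option linter.unusedSectionVars false
set_option linter.unusedVariables false
set_option linter.style.haveILetI false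

noncomputable section

namespace Fermat.Agent.M1.Mod.RatNodesInst73

open AlgebraicCurve ModularCurve HahnSeries IntermediateField Polynomial
open Fermat.Agent.X0 Fermat.Agent.RED.Interface4 Fermat.Agent.RED.DESC
  Fermat.Agent.RED.PUR.GaussGen8 Fermat.Agent.RED.PUR.ChartGeneric22
  Fermat.Agent.RED.BASE.EtaQuot12 Fermat.Agent.ES.N34.ModelDefs9 Fermat.Agent.ES.N34.NodalCore13
  Fermat.Agent.ES.N34.NumData13 Fermat.Agent.ES.N34.FrickeFK8
open Fermat.Agent.ES.P36.ConstUnram1 (bcLe coe_bcLe baseChangeHom_bcLe bcLe_algebraMap)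
open Fermat.Agent.M1.Mod.TotRamInst34 (incKL incAK incAKL)
open Fermat.Agent.M1.Base Fermat.Agent.M1.Car

/-! ### Integrality over `R₁[t]` and over its image -/

section Bridge

variable {R₁ F₁ F₂ : Type*} [CommRing R₁] [Field F₁] [Field F₂]
  [Algebra R₁ F₁] [Algebra F₁ F₂] [Algebra R₁ F₂] [IsScalarTower R₁ F₁ F₂]

/-- integral over the `R₁`-subalgebra of `F₂` generated by the image of `t` implies integral over
`R₁[t] ⊆ F₁`. -/
theorem isIntegral_adjoin_of_isIntegral_adjoin_image (t : F₁) {z : F₂}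
    (hz : IsIntegral (Algebra.adjoin R₁ {algebraMap F₁ F₂ t}) z) :
    IsIntegral (Algebra.adjoin R₁ {t}) z := by
  have key : ∀ s ∈ Algebra.adjoin R₁ {algebraMap F₁ F₂ t},
      IsIntegral (Algebra.adjoin R₁ {t}) s := by
    intro s hs
    induction hs using Algebra.adjoin_induction with
    | mem x hx =>
      rw [Set.mem_singleton_iff.mp hx]
      exact isIntegral_algebraMap (R := Algebra.adjoin R₁ {t})
        (x := ⟨t, Algebra.self_mem_adjoin_singleton R₁ t⟩)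
    | algebraMap r =>
      have h1 : algebraMap R₁ F₂ r =
          algebraMap (Algebra.adjoin R₁ {t}) F₂ (algebraMap R₁ (Algebra.adjoin R₁ {t}) r) := by
        rw [IsScalarTower.algebraMap_apply R₁ F₁ F₂]; rfl
      rw [h1]
      exact isIntegral_algebraMap
    | add x y _ _ hx hy => exact hx.add hy
    | mul x y _ _ hx hy => exact hx.mul hy
  obtain ⟨p, hp, hpz⟩ := hz
  apply ChartDecomp34.isIntegral_of_monic_of_coeff_isIntegral
    (P := p.map (algebraMap (Algebra.adjoin R₁ {algebraMap F₁ F₂ t}) F₂)) (hp.map _)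
  · intro i
    rw [coeff_map]
    exact key _ (p.coeff i).2
  · rw [eval_map]; exact hpz

end Bridge

/-! ### Change of uniformiser -/

section Unif

variable {R F : Type*} [CommRing R] [Field F] [Algebra R F]

/-- `OffBranch` does not depend on the choice of the uniformiser. -/
theorem offBranch_of_mul_unit {π : R} (u : Rˣ) {B : Subalgebra R F} {O : ValuationSubring F}
    (hO : ∀ x ∈ B, x ∈ O) {𝔪 : Ideal B} (h : OffBranch (π * u) B O 𝔪) : OffBranch π B O 𝔪 := by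
  obtain ⟨e, he, c, hc, hec⟩ := h
  refine ⟨e, he, algebraMap R F u * c, O.mul_mem _ _ (hO _ (B.algebraMap_mem _)) hc, ?_⟩
  rw [hec, map_mul, mul_assoc]

end Unif

/-! ### The model instance -/

section Main

variable (A : ValuationSubring Qbar) {K₀ K : IntermediateField ℚ Qbar} (hle : K₀ ≤ K)
  {M' q : ℕ} [NeZero M'] [NeZero q] {n e₀ : ℕ} [NeZero n]

/-- **Rationality of the nodes over `K = K₀(ζ)`.** -/
theorem hrat_nodes_of_cyclo (hq : q.Prime) (hA : A.LiesOverPrime q)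
    [FiniteDimensional ℚ K₀] [FiniteDimensional ℚ K]
    (ht₀ : tq (↥K₀) n e₀ ∈ FK M' K₀) (ht : tq (↥K) n e₀ ∈ FK M' K)
    {π₀ : AK A K₀} (hπ₀ : IsUnif (AK A K₀) π₀) (hE₀ : FK (M' * q) K₀ ≤ fracField (AK A K₀))
    (hunr : IsUnif (AK A K) (incAK A hle π₀)) (hE : FK (M' * q) K ≤ fracField (AK A K))
    (N₀ : NodalNumData ↥(AK A K₀) ↥K₀ ↥(FK (M' * q) K₀) π₀ (tN q ht₀) (B0 A q ht₀)
      (B1 A q ht₀) (O1 M' q hπ₀ hE₀) (O2 M' q hπ₀ hE₀))
    {π : AK A K} (hπ : IsUnif (AK A K) π)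
    (D : NodalTwoChartModel ↥(AK A K) ↥(FK (M' * q) K) π (tN q ht) (B0 A q ht)
      (B1 A q ht) (O1 M' q hπ hE) (O2 M' q hπ hE))
    {m : ℕ} (hm : 0 < m) (hqm : ¬ q ∣ m)
    (hpow0 : ∀ 𝔪₁ : Ideal (B0 A q ht₀), 𝔪₁.IsMaximal →
      algebraMap ↥(AK A K₀) (B0 A q ht₀) π₀ ∈ 𝔪₁ →
      ¬ OffBranch π₀ (B0 A q ht₀) (O1 M' q hπ₀ hE₀) 𝔪₁ →
      ¬ OffBranch π₀ (B0 A q ht₀) (O2 M' q hπ₀ hE₀) 𝔪₁ →
      ∀ b : B0 A q ht₀, b ^ (m + 1) - b ∈ 𝔪₁)
    (hpow1 : ∀ 𝔪₁ : Ideal (B1 A q ht₀), 𝔪₁.IsMaximal →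
      algebraMap ↥(AK A K₀) (B1 A q ht₀) π₀ ∈ 𝔪₁ →
      ¬ OffBranch π₀ (B1 A q ht₀) (O1 M' q hπ₀ hE₀) 𝔪₁ →
      ¬ OffBranch π₀ (B1 A q ht₀) (O2 M' q hπ₀ hE₀) 𝔪₁ →
      ∀ b : B1 A q ht₀, b ^ (m + 1) - b ∈ 𝔪₁)
    (ζ : ↥(AK A K)) (hζ : ζ ^ m = 1)
    (hζu : ∀ j : ℕ, 0 < j → j < m → IsUnit (ζ ^ j - 1))
    (hprim : ∀ c : K, ∃ G : (↥K₀)[X], c = G.eval₂ (incKL hle) (ζ : K)) :
    (∀ 𝔪 : Ideal (B0 A q ht), 𝔪.IsMaximal →
      algebraMap ↥(AK A K) (B0 A q ht) π ∈ 𝔪 →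
      ¬ OffBranch π (B0 A q ht) (O1 M' q hπ hE) 𝔪 →
      ¬ OffBranch π (B0 A q ht) (O2 M' q hπ hE) 𝔪 →
      ∀ z : B0 A q ht, ∃ r : ↥(AK A K), z - algebraMap ↥(AK A K) (B0 A q ht) r ∈ 𝔪) ∧
    (∀ 𝔪 : Ideal (B1 A q ht), 𝔪.IsMaximal →
      algebraMap ↥(AK A K) (B1 A q ht) π ∈ 𝔪 →
      ¬ OffBranch π (B1 A q ht) (O1 M' q hπ hE) 𝔪 →
      ¬ OffBranch π (B1 A q ht) (O2 M' q hπ hE) 𝔪 →
      ∀ z : B1 A q ht, ∃ r : ↥(AK A K), z - algebraMap ↥(AK A K) (B1 A q ht) r ∈ 𝔪) := by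
  classical
  -- cached instances
  letI iKF : Algebra ↥K₀ ↥(FK (M' * q) K₀) := inferInstance
  letI iLF : Algebra ↥K ↥(FK (M' * q) K) := inferInstance
  letI iRKF : Algebra ↥(AK A K₀) ↥(FK (M' * q) K₀) := inferInstance
  letI iRLF : Algebra ↥(AK A K) ↥(FK (M' * q) K) := inferInstance
  -- new instances
  letI algFF : Algebra (FK (M' * q) K₀) (FK (M' * q) K) := (bcLe (M' * q) hle).toAlgebra
  letI algRR : Algebra ↥(AK A K₀) ↥(AK A K) := (incAK A hle).toAlgebra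
  letI algRF : Algebra ↥(AK A K₀) ↥(FK (M' * q) K) :=
    ((bcLe (M' * q) hle).comp (algebraMap ↥(AK A K₀) ↥(FK (M' * q) K₀))).toAlgebra
  haveI : IsScalarTower ↥(AK A K₀) ↥(FK (M' * q) K₀) ↥(FK (M' * q) K) :=
    IsScalarTower.of_algebraMap_eq (fun _ => rfl)
  have htowerRL : ∀ r : AK A K₀, algebraMap ↥(AK A K₀) ↥(FK (M' * q) K) r =
      algebraMap ↥(AK A K) ↥(FK (M' * q) K) (incAK A hle r) := by
    intro r
    show bcLe (M' * q) hle (algebraMap K₀ (FK (M' * q) K₀) (r : K₀)) = _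
    rw [bcLe_algebraMap]
    rfl
  haveI : IsScalarTower ↥(AK A K₀) ↥(AK A K) ↥(FK (M' * q) K) :=
    IsScalarTower.of_algebraMap_eq htowerRL
  haveI : CharZero ↥(FK (M' * q) K₀) :=
    charZero_of_injective_algebraMap (algebraMap ↥K₀ ↥(FK (M' * q) K₀)).injective
  have hgen : IntermediateField.adjoin (FK (M' * q) K₀)
      {algebraMap ↥(AK A K) ↥(FK (M' * q) K) ζ} = ⊤ :=
    ChartBC34.adjoin_eq_top (M' * q) hle (ζ : K) hprim
  have htN : algebraMap (FK (M' * q) K₀) (FK (M' * q) K) (tN q ht₀) = tN q ht := by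
    show bcLe (M' * q) hle (tN q ht₀) = tN q ht
    apply Subtype.ext
    rw [coe_bcLe, coe_tN, coe_tN, coeffMap_tq]
  have htinv : algebraMap (FK (M' * q) K₀) (FK (M' * q) K) (tN q ht₀)⁻¹ = (tN q ht)⁻¹ := by
    rw [map_inv₀, htN]
  have hmono1 : ∀ z ∈ O1 M' q hπ₀ hE₀,
      algebraMap (FK (M' * q) K₀) (FK (M' * q) K) z ∈ O1 M' q hπ hE := by
    intro z hz
    rw [mem_O1_iff] at hz
    show bcLe (M' * q) hle z ∈ O1 M' q hπ hE
    rw [mem_O1_iff, coe_bcLe]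
    exact ChartBC34.gaussRing_mono hle hz
  have hmono2 : ∀ z ∈ O2 M' q hπ₀ hE₀,
      algebraMap (FK (M' * q) K₀) (FK (M' * q) K) z ∈ O2 M' q hπ hE := by
    intro z hz
    rw [mem_O2_iff_wN_mem_O1] at hz
    show bcLe (M' * q) hle z ∈ O2 M' q hπ hE
    rw [mem_O2_iff_wN_mem_O1]
    have h1 : wN K M' q (bcLe (M' * q) hle z) = bcLe (M' * q) hle (wN K₀ M' q z) :=
      (ChartBC34.bcLe_frickeFK (M' * q) hle z).symm
    rw [h1]
    exact hmono1 _ hz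
  -- the base rings
  have hmax₁ : (Ideal.span {π₀} : Ideal ↥(AK A K₀)).IsMaximal :=
    CentreFin99.span_pi_isMaximal (ResidueFin53.not_isUnit_pi N₀) N₀.dvrR
  have hmax₂ : (Ideal.span {algebraMap ↥(AK A K₀) ↥(AK A K) π₀} : Ideal ↥(AK A K)).IsMaximal := by
    show (Ideal.span {incAK A hle π₀} : Ideal ↥(AK A K)).IsMaximal
    rw [← hunr.max_eq]
    exact IsLocalRing.maximalIdeal.isMaximal _
  haveI hfin₂ : Finite (↥(AK A K) ⧸
      (Ideal.span {algebraMap ↥(AK A K₀) ↥(AK A K) π₀} : Ideal ↥(AK A K))) := by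
    have h1 : Finite (IsLocalRing.ResidueField ↥(AK A K)) :=
      NumberFieldDVR27.finite_residueField_AK A K hq.ne_zero hA
    show Finite (↥(AK A K) ⧸ (Ideal.span {incAK A hle π₀} : Ideal ↥(AK A K)))
    rw [← hunr.max_eq]
    exact h1
  -- `m` is invertible in the charts over `K₀`
  obtain ⟨v, hv⟩ := (LocAdjoin34.isUnit_natCast_AK hq hA K₀ hqm).exists_right_inv
  have hmuF : (m : FK (M' * q) K₀) * algebraMap ↥(AK A K₀) (FK (M' * q) K₀) v = 1 := by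
    rw [← map_natCast (algebraMap ↥(AK A K₀) (FK (M' * q) K₀)), ← map_mul, hv, map_one]
  -- (LOC-INT)
  have hlocint : ∀ (t : FK (M' * q) K₀) (z : FK (M' * q) K),
      IsIntegral (Algebra.adjoin ↥(AK A K) {algebraMap (FK (M' * q) K₀) (FK (M' * q) K) t}) z →
      ∃ s : ↥(AK A K), IsUnit s ∧
        IsIntegral (Algebra.adjoin ↥(AK A K₀) {t})
          (algebraMap ↥(AK A K) (FK (M' * q) K) s * z) := by
    intro t z hz
    obtain ⟨s, -, hs, hsz⟩ := LocAdjoin34.exists_unit_mul_isIntegral_AK hq hA hle hm hqm ζ hζ hprim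
      rfl (F := ↥(FK (M' * q) K)) (algebraMap (FK (M' * q) K₀) (FK (M' * q) K) t) z hz
    exact ⟨s, hs, isIntegral_adjoin_of_isIntegral_adjoin_image t hsz⟩
  -- the two uniformisers of `A ∩ K`
  obtain ⟨u, hu⟩ : ∃ u : (↥(AK A K))ˣ, π * u = incAK A hle π₀ := by
    have h1 : (Ideal.span {π} : Ideal ↥(AK A K)) = Ideal.span {incAK A hle π₀} := by
      rw [← hπ.max_eq, ← hunr.max_eq]
    exact Ideal.span_singleton_eq_span_singleton.mp h1
  have hπ𝔪' : ∀ {B : Subalgebra ↥(AK A K) ↥(FK (M' * q) K)} (𝔪 : Ideal B),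
      algebraMap ↥(AK A K) B π ∈ 𝔪 →
      algebraMap ↥(AK A K) B (algebraMap ↥(AK A K₀) ↥(AK A K) π₀) ∈ 𝔪 := by
    intro B 𝔪 h
    show algebraMap ↥(AK A K) B (incAK A hle π₀) ∈ 𝔪
    rw [← hu, map_mul]
    exact 𝔪.mul_mem_right _ h
  have hoff : ∀ {B : Subalgebra ↥(AK A K) ↥(FK (M' * q) K)} {O : ValuationSubring ↥(FK (M' * q) K)}
      (hO : ∀ x ∈ B, x ∈ O) (𝔪 : Ideal B), ¬ OffBranch π B O 𝔪 →
      ¬ OffBranch (algebraMap ↥(AK A K₀) ↥(AK A K) π₀) B O 𝔪 := by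
    intro B O hO 𝔪 h h'
    apply h
    apply offBranch_of_mul_unit u hO
    rw [hu]
    exact h'
  refine ⟨fun 𝔪 h𝔪 hπ𝔪 h1 h2 => ?_, fun 𝔪 h𝔪 hπ𝔪 h1 h2 => ?_⟩
  · exact RatNodesAbs73.hrat_chart (R₁ := ↥(AK A K₀)) (R₂ := ↥(AK A K))
      (F₁ := ↥(FK (M' * q) K₀)) (F₂ := ↥(FK (M' * q) K))
      N₀.model.t_mem N₀.model.int0 N₀.model.intcl0 N₀.frac0
      (by rw [htN]; exact D.t_mem) (by rw [htN]; exact D.int0) D.intcl0 hmono1 hmono2 hmax₁ hmax₂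
      hm ⟨_, Subalgebra.algebraMap_mem _ v, hmuF⟩ ζ hζ hζu hgen (hlocint _) hpow0 𝔪 h𝔪
      (hπ𝔪' 𝔪 hπ𝔪) (hoff D.le_O1_0 𝔪 h1) (hoff D.le_O2_0 𝔪 h2)
  · exact RatNodesAbs73.hrat_chart (R₁ := ↥(AK A K₀)) (R₂ := ↥(AK A K))
      (F₁ := ↥(FK (M' * q) K₀)) (F₂ := ↥(FK (M' * q) K))
      N₀.model.tinv_mem N₀.model.int1 N₀.model.intcl1 N₀.frac1
      (by rw [htinv]; exact D.tinv_mem) (by rw [htinv]; exact D.int1) D.intcl1 hmono1 hmono2
      hmax₁ hmax₂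
      hm ⟨_, Subalgebra.algebraMap_mem _ v, hmuF⟩ ζ hζ hζu hgen (hlocint _) hpow1 𝔪 h𝔪
      (hπ𝔪' 𝔪 hπ𝔪) (hoff D.le_O1_1 𝔪 h1) (hoff D.le_O2_1 𝔪 h2)

end Main

end Fermat.Agent.M1.Mod.RatNodesInst73
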