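/-
M1 (S44), chapter MOD (helper73), RAT-NODES part 6 (final form): **after adjoining a suitable root of
unity of order prime to `q` to an inertial base field `K₀`, all nodes of the model of `X₀(M' q)` are
rational** (`ModelDefs9` names).

`exists_cyclo_rat_nodes` : for a finite `K₀ ⊂ ℚ̄` fixed by the inertia group of `A | q`, with the nodal
numerical data over `A ∩ K₀`, there is `m > 0` prime to `q` such that for EVERY primitive `m`-th root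
of unity `z ∈ ℚ̄` and `K = K₀ ⊔ ℚ⟮z⟯` (again finite and inertial, `inertial_sup_adjoin`), every node
`𝔪` of both charts of the model over `A ∩ K` satisfies
`∀ b, ∃ r : A ∩ K, b - r ∈ 𝔪` (the literal `hrat` of `Base/ThickRat53`).
-/
import Mathlib
import Fermat.Agent.ES.N34.OneNeTwo3
import Fermat.Agent.ES.P36.UnrFixed1
import Fermat.Agent.ES.P36.ZetaUnr26
import Fermat.Agent.M1.Mod.ResidueRoots34
import Fermat.Agent.M1.Mod.LocGen34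
import Fermat.Agent.M1.Mod.RatNodesInst73

set_option autoImplicit false
set_option linter.unusedSectionVars false
set_option linter.unusedVariables false
set_option linter.style.haveILetI false

noncomputable section

namespace Fermat.Agent.M1.Mod.RatNodesFinal73

open AlgebraicCurve ModularCurve HahnSeries IntermediateField Polynomial
open Fermat.Agent.X0 Fermat.Agent.RED.Interface4 Fermat.Agent.RED.DESC
  Fermat.Agent.RED.PUR.GaussGen8 Fermat.Agent.RED.PUR.ChartGeneric22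
  Fermat.Agent.RED.BASE.EtaQuot12 Fermat.Agent.ES.N34.ModelDefs9 Fermat.Agent.ES.N34.NodalCore13
  Fermat.Agent.ES.N34.NumData13
open Fermat.Agent.M1.Mod.TotRamInst34 (incKL incAK incAKL)
open Fermat.Agent.M1.Base Fermat.Agent.M1.Car

/-! ### Roots of unity of order prime to the residue characteristic -/

section Units

/-- `ζ ^ j - 1` is a unit for a primitive `m`-th root of unity `ζ`, `0 < j < m`, when `m` is a
unit. -/
theorem isUnit_pow_sub_one {R : Type*} [CommRing R] [IsDomain R] {m : ℕ} {ζ : R}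
    (hζ : IsPrimitiveRoot ζ m) (hmu : IsUnit ((m : ℕ) : R)) {j : ℕ} (hj : 0 < j) (hjm : j < m) :
    IsUnit (ζ ^ j - 1) := by
  obtain ⟨m', rfl⟩ : ∃ m', m = m' + 1 := ⟨m - 1, by omega⟩
  have hprod := hζ.prod_one_sub_pow_eq_order
  have hdvd : (1 - ζ ^ j) ∣ ∏ k ∈ Finset.range m', (1 - ζ ^ (k + 1)) := by
    have hmem : j - 1 ∈ Finset.range m' := Finset.mem_range.mpr (by omega)
    have h1 := Finset.dvd_prod_of_mem (fun k => (1 - ζ ^ (k + 1) : R)) hmem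
    have h2 : j - 1 + 1 = j := by omega
    simpa [h2] using h1
  have hu : IsUnit (1 - ζ ^ j) := by
    apply isUnit_of_dvd_unit hdvd
    rw [hprod]
    have : ((m' : R) + 1) = ((m' + 1 : ℕ) : R) := by push_cast; rfl
    rw [this]
    exact hmu
  have : ζ ^ j - 1 = -(1 - ζ ^ j) := by ring
  rw [this]
  exact hu.neg

end Units

variable {A : ValuationSubring Qbar} {q : ℕ}

/-! ### The enlarged field -/

section Field

/-- **`K₀ ⊔ ℚ⟮z⟯` is inertial** for an inertial `K₀` and a root of unity `z` of order prime to `q`.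
(The two components are those of `InertField27.IsInertial`.) -/
theorem inertial_sup_adjoin (hq : q.Prime) (hA : A.LiesOverPrime q)
    {K₀ : IntermediateField ℚ Qbar}
    (hfix₀ : ∀ τ ∈ A.inertiaSubgroupIn ℚ, ∀ x ∈ K₀, τ x = x)
    (hst₀ : ∀ σ ∈ A.decompositionSubgroup ℚ, ∀ x ∈ K₀, σ x ∈ K₀)
    {m : ℕ} (hm : ¬ q ∣ m) {z : Qbar} (hz : IsPrimitiveRoot z m) :
    (∀ τ ∈ A.inertiaSubgroupIn ℚ, ∀ x ∈ K₀ ⊔ ℚ⟮z⟯, τ x = x) ∧
      ∀ σ ∈ A.decompositionSubgroup ℚ, ∀ x ∈ K₀ ⊔ ℚ⟮z⟯, σ x ∈ K₀ ⊔ ℚ⟮z⟯ := by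
  have hm0 : m ≠ 0 := fun h0 => hm (h0 ▸ dvd_zero q)
  obtain ⟨-, -, hfix'⟩ :=
    Fermat.Agent.ES.P36.ZetaUnr26.adjoin_rootOfUnity_fixed hq hA hm hz.pow_eq_one
  exact ⟨ResidueRoots34.sup_fixed (S := (A.inertiaSubgroupIn ℚ : Set _)) hfix₀ hfix',
    ResidueRoots34.sup_stable (S := (A.decompositionSubgroup ℚ : Set _)) hst₀
      (fun σ _ x hx => Fermat.Agent.ES.P36.ZetaUnr26.adjoin_rootOfUnity_stable hm0 hz σ x hx)⟩

/-- `K₀ ⊔ ℚ⟮z⟯` is a number field. -/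
theorem finiteDimensional_sup_adjoin (K₀ : IntermediateField ℚ Qbar) [FiniteDimensional ℚ K₀]
    (z : Qbar) : FiniteDimensional ℚ ↥(K₀ ⊔ ℚ⟮z⟯) := by
  haveI : FiniteDimensional ℚ ℚ⟮z⟯ :=
    IntermediateField.adjoin.finiteDimensional (Algebra.IsIntegral.isIntegral z)
  exact IntermediateField.finiteDimensional_sup K₀ ℚ⟮z⟯

end Field

/-! ### Uniformisers -/

section Unif

/-- a uniformiser of `A ∩ K₀` stays a uniformiser of `A ∩ K` when both fields are fixed by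
inertia. -/
theorem isUnif_incAK (hq : q.Prime) (hA : A.LiesOverPrime q)
    {K₀ K : IntermediateField ℚ Qbar} (hle : K₀ ≤ K) [FiniteDimensional ℚ K₀]
    [FiniteDimensional ℚ K]
    (hfix₀ : ∀ τ ∈ A.inertiaSubgroupIn ℚ, ∀ x ∈ K₀, τ x = x)
    (hfix : ∀ τ ∈ A.inertiaSubgroupIn ℚ, ∀ x ∈ K, τ x = x)
    {π₀ : AK A K₀} (hπ₀ : IsUnif (AK A K₀) π₀) : IsUnif (AK A K) (incAK A hle π₀) := by
  haveI := NumberFieldDVR27.isDiscreteValuationRing_AK A K hq.ne_zero hA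
  have hq₀ := Fermat.Agent.ES.P36.UnrFixed1.isUnif_natCast A hq hA K₀ hfix₀
  have hqK := Fermat.Agent.ES.P36.UnrFixed1.isUnif_natCast A hq hA K hfix
  obtain ⟨u, hu⟩ : ∃ u : (↥(AK A K₀))ˣ, π₀ * u = (q : AK A K₀) := by
    have h1 : (Ideal.span {π₀} : Ideal ↥(AK A K₀)) = Ideal.span {(q : ↥(AK A K₀))} := by
      rw [← hπ₀.max_eq, ← hq₀.max_eq]
    exact Ideal.span_singleton_eq_span_singleton.mp h1
  have hirr : Irreducible ((q : ℕ) : ↥(AK A K)) :=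
    (IsDiscreteValuationRing.irreducible_iff_uniformizer _).mpr hqK.max_eq
  have hassoc : Associated ((q : ℕ) : ↥(AK A K)) (incAK A hle π₀) := by
    refine ⟨Units.map (incAK A hle).toMonoidHom u⁻¹, ?_⟩
    have h1 : ((q : ℕ) : ↥(AK A K)) = incAK A hle π₀ * incAK A hle (u : ↥(AK A K₀)) := by
      rw [← map_mul, hu, map_natCast]
    rw [h1, mul_assoc]
    have h2 : incAK A hle (u : ↥(AK A K₀)) *
        ((Units.map (incAK A hle).toMonoidHom u⁻¹ : (↥(AK A K))ˣ) : ↥(AK A K)) = 1 := by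
      show incAK A hle (u : ↥(AK A K₀)) * incAK A hle ((u⁻¹ : (↥(AK A K₀))ˣ) : ↥(AK A K₀)) = 1
      rw [← map_mul, Units.mul_inv, map_one]
    rw [h2, mul_one]
  exact isUnif_of_irreducible (AK A K) (hassoc.irreducible hirr)

end Unif

/-! ### The final form -/

section Main

variable {M' : ℕ} [NeZero M'] [NeZero q] {n e₀ : ℕ} [NeZero n]

/-- **RAT-NODES.** -/
theorem exists_cyclo_rat_nodes (hq : q.Prime) (hA : A.LiesOverPrime q)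
    (K₀ : IntermediateField ℚ Qbar) [FiniteDimensional ℚ K₀]
    (hfix₀ : ∀ τ ∈ A.inertiaSubgroupIn ℚ, ∀ x ∈ K₀, τ x = x)
    (ht₀ : tq (↥K₀) n e₀ ∈ FK M' K₀) (hE₀ : FK (M' * q) K₀ ≤ fracField (AK A K₀))
    {π₀ : AK A K₀} (hπ₀ : IsUnif (AK A K₀) π₀)
    (N₀ : NodalNumData ↥(AK A K₀) ↥K₀ ↥(FK (M' * q) K₀) π₀ (tN q ht₀) (B0 A q ht₀)
      (B1 A q ht₀) (O1 M' q hπ₀ hE₀) (O2 M' q hπ₀ hE₀))
    (fin1 : ∃ (r : ℕ) (e : Fin r → ↥(FK (M' * q) K₀)), (∀ i, e i ∈ B1 A q ht₀) ∧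
      ∀ x ∈ B1 A q ht₀, ∃ P : Fin r → (↥(AK A K₀))[X],
        x = ∑ i, aeval (tN q ht₀)⁻¹ (P i) * e i) :
    ∃ m : ℕ, 0 < m ∧ ¬ q ∣ m ∧ ∀ z : Qbar, IsPrimitiveRoot z m →
      ∀ K : IntermediateField ℚ Qbar, K = K₀ ⊔ ℚ⟮z⟯ →
      ∀ (ht : tq (↥K) n e₀ ∈ FK M' K) (hE : FK (M' * q) K ≤ fracField (AK A K))
        {π : AK A K} (hπ : IsUnif (AK A K) π)
        (D : NodalTwoChartModel ↥(AK A K) ↥(FK (M' * q) K) π (tN q ht) (B0 A q ht)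
          (B1 A q ht) (O1 M' q hπ hE) (O2 M' q hπ hE)),
        (∀ 𝔪 : Ideal (B0 A q ht), 𝔪.IsMaximal →
          algebraMap ↥(AK A K) (B0 A q ht) π ∈ 𝔪 →
          ¬ OffBranch π (B0 A q ht) (O1 M' q hπ hE) 𝔪 →
          ¬ OffBranch π (B0 A q ht) (O2 M' q hπ hE) 𝔪 →
          ∀ b : B0 A q ht, ∃ r : ↥(AK A K), b - algebraMap ↥(AK A K) (B0 A q ht) r ∈ 𝔪) ∧
        (∀ 𝔪 : Ideal (B1 A q ht), 𝔪.IsMaximal →
          algebraMap ↥(AK A K) (B1 A q ht) π ∈ 𝔪 →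
          ¬ OffBranch π (B1 A q ht) (O1 M' q hπ hE) 𝔪 →
          ¬ OffBranch π (B1 A q ht) (O2 M' q hπ hE) 𝔪 →
          ∀ b : B1 A q ht, ∃ r : ↥(AK A K), b - algebraMap ↥(AK A K) (B1 A q ht) r ∈ 𝔪) := by
  classical
  haveI : Fact q.Prime := ⟨hq⟩
  haveI : CharP (Res (AK A K₀)) q := NumberFieldDVR27.charP_residueField_AK A K₀ hq hA
  haveI hfin₀ : Finite (↥(AK A K₀) ⧸ (Ideal.span {π₀} : Ideal ↥(AK A K₀))) := by
    have h1 : Finite (IsLocalRing.ResidueField ↥(AK A K₀)) :=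
      NumberFieldDVR27.finite_residueField_AK A K₀ hq.ne_zero hA
    rw [← hπ₀.max_eq]
    exact h1
  have hne : O1 M' q hπ₀ hE₀ ≠ O2 M' q hπ₀ hE₀ :=
    Fermat.Agent.ES.N34.OneNeTwo3.o1_ne_o2 M' q hπ₀ hE₀
  have hchar : π₀ ∣ ((q : ℕ) : ↥(AK A K₀)) := by
    rw [← Ideal.mem_span_singleton, ← hπ₀.max_eq]
    exact NumberFieldDVR27.natCast_mem_maximalIdeal A K₀ hA
  obtain ⟨m, hm, hqm, hpow0, hpow1⟩ :=
    RatNodesAbs73.exists_uniform_pow_nodes N₀ hne fin1 hq hchar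
  refine ⟨m, hm, hqm, fun z hz K hK => ?_⟩
  subst hK
  intro ht hE π hπ D
  haveI hfinK : FiniteDimensional ℚ ↥(K₀ ⊔ ℚ⟮z⟯) := finiteDimensional_sup_adjoin K₀ z
  have hle : K₀ ≤ K₀ ⊔ ℚ⟮z⟯ := le_sup_left
  have hfixK : ∀ τ ∈ A.inertiaSubgroupIn ℚ, ∀ x ∈ K₀ ⊔ ℚ⟮z⟯, τ x = x := by
    obtain ⟨-, -, hfix'⟩ :=
      Fermat.Agent.ES.P36.ZetaUnr26.adjoin_rootOfUnity_fixed hq hA hqm hz.pow_eq_one
    exact ResidueRoots34.sup_fixed (S := (A.inertiaSubgroupIn ℚ : Set _)) hfix₀ hfix'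
  have hunr : IsUnif (AK A (K₀ ⊔ ℚ⟮z⟯)) (incAK A hle π₀) :=
    isUnif_incAK hq hA hle hfix₀ hfixK hπ₀
  -- the root of unity in `A ∩ K`
  have hzK : z ∈ K₀ ⊔ ℚ⟮z⟯ :=
    (le_sup_right : ℚ⟮z⟯ ≤ K₀ ⊔ ℚ⟮z⟯) (IntermediateField.mem_adjoin_simple_self ℚ z)
  have hzA : z ∈ A := NumberFieldDVR27.mem_of_isIntegral A
    ⟨X ^ m - Polynomial.C 1, monic_X_pow_sub_C 1 hm.ne', by simp [hz.pow_eq_one]⟩
  have hmem : (⟨z, hzK⟩ : ↥(K₀ ⊔ ℚ⟮z⟯)) ∈ AK A (K₀ ⊔ ℚ⟮z⟯) := by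
    rw [NumberFieldDVR27.mem_AK_iff]; exact hzA
  set ζ : ↥(AK A (K₀ ⊔ ℚ⟮z⟯)) := ⟨⟨z, hzK⟩, hmem⟩ with hζdef
  have hinj : Function.Injective
      ((algebraMap ↥(K₀ ⊔ ℚ⟮z⟯) Qbar).comp (AK A (K₀ ⊔ ℚ⟮z⟯)).subtype :
        ↥(AK A (K₀ ⊔ ℚ⟮z⟯)) →+* Qbar) := by
    intro x y hxy
    exact Subtype.ext (Subtype.ext hxy)
  have hζprim : IsPrimitiveRoot ζ m :=
    IsPrimitiveRoot.of_map_of_injective
      (f := ((algebraMap ↥(K₀ ⊔ ℚ⟮z⟯) Qbar).comp (AK A (K₀ ⊔ ℚ⟮z⟯)).subtype)) (by exact hz) hinj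
  have hζu : ∀ j : ℕ, 0 < j → j < m → IsUnit (ζ ^ j - 1) := fun j hj hjm =>
    isUnit_pow_sub_one hζprim (LocAdjoin34.isUnit_natCast_AK hq hA (K₀ ⊔ ℚ⟮z⟯) hqm) hj hjm
  have hprim : ∀ c : ↥(K₀ ⊔ ℚ⟮z⟯), ∃ G : (↥K₀)[X],
      c = G.eval₂ (incKL hle) ((ζ : ↥(K₀ ⊔ ℚ⟮z⟯))) :=
    LocGen34.hgen_of_le_sup hle le_rfl ζ rfl
  exact RatNodesInst73.hrat_nodes_of_cyclo A hle hq hA ht₀ ht hπ₀ hE₀ hunr hE N₀ hπ D hm hqm
    hpow0 hpow1 ζ hζprim.pow_eq_one hζu hprim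

end Main

end Fermat.Agent.M1.Mod.RatNodesFinal73
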