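/-
M1 (S44) / ORD (S33), chapter MOD, RAT-NODES second seat (helper56): **the SEAM between RAT-NODES
(`RatNodesFinal73.exists_cyclo_rat_nodes`, helper73) and the `ThickNodes` assembly over a normal field
(`ThickAll97`, helper97 / `ThickUp25`, helper25).**

The assembly needs, for `L` finite normal over `ℚ`, the rationality of ALL nodes of both charts of the
model over the inertial part `K_I = inertiaPart A L` (`ThickLowAbs97.RatAt` on `B0`, `B1`, for every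
choice of `(ht, hE, π)`).  RAT-NODES delivers this only after a cyclotomic enlargement.  Here:

* `RatNodesAt n e q M' A K` : `RatAt` at both charts over `K`, for all `(ht, hE, π, hπ)`;
* `exists_ratNodes_enlarge_of` : for `L₀` finite normal `∋ ζ_{M'}` there is `m > 0`, `q ∤ m`, such that
  for EVERY primitive `m`-th root of unity `z`, `RatNodesAt n e q M' A (inertiaPart A (L₀ ⊔ ℚ⟮z⟯))`
  (model supplier abstract);
* `exists_ratNodes_enlarge_four` (`q` odd, `4 ∣ M'`), `exists_ratNodes_enlarge_nine` (`q = 2`, `9 ∣ M'`):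
  the two instances of record (`ModelInert4.nodalNumData_*_inertial`, `FinOne34.fin1_at`);
* `exists_field_of` : the choice `z := zetaK m` made, packaged with normality / finiteness of
  `L := L₀ ⊔ ℚ⟮zetaK m⟯`.
-/
import Mathlib
import Fermat.Agent.ES.P36.ModelInert4
import Fermat.Agent.M1.Mod.RatNodesFinal73
import Fermat.Agent.M1.Mod.FinOne34
import Fermat.Agent.M1.Base.InertiaPartSupInst56
import Fermat.Agent.ORD.Geo.ThickLowAbs97

set_option autoImplicit false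
set_option linter.unusedSectionVars false
set_option linter.unusedVariables false
set_option linter.style.haveILetI false

noncomputable section

namespace Fermat.Agent.M1.Mod.ThickEnlarge56

open AlgebraicCurve ModularCurve HahnSeries IntermediateField Polynomial
open Fermat.Agent.X0 Fermat.Agent.RED.Interface4 Fermat.Agent.RED.DESC
  Fermat.Agent.RED.PUR.GaussGen8 Fermat.Agent.RED.PUR.ChartGeneric22
  Fermat.Agent.RED.BASE.EtaQuot12 Fermat.Agent.ES.N34.ModelDefs9 Fermat.Agent.ES.N34.NodalCore13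
  Fermat.Agent.ES.N34.NumData13 Fermat.Agent.ES.P36.InertField27
open Fermat.Agent.ORD.Geo.ThickLowAbs97 (RatAt)

variable {A : ValuationSubring Qbar} {q : ℕ} {M' : ℕ} [NeZero M'] [NeZero q] {n e₀ : ℕ} [NeZero n]

/-- **RAT-NODES over `K`**: every two-branch closed point of the special fibre of both charts of the
model over `A ∩ K` has residue field `(A ∩ K)/π`, for every admissible `(ht, hE, π)`. -/
def RatNodesAt (n e₀ q M' : ℕ) [NeZero n] [NeZero M'] [NeZero q] (A : ValuationSubring Qbar)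
    (K : IntermediateField ℚ Qbar) : Prop :=
  ∀ (ht : tq (↥K) n e₀ ∈ FK M' K) (hE : FK (M' * q) K ≤ fracField (AK A K))
    (π : ↥(AK A K)) (hπ : IsUnif (AK A K) π),
    RatAt π (B0 A q ht) (O1 M' q hπ hE) (O2 M' q hπ hE) ∧
      RatAt π (B1 A q ht) (O1 M' q hπ hE) (O2 M' q hπ hE)

/-- `ζ_{M'}` lies in the inertial part of every field containing it (`q ∤ M'`). -/
theorem zetaK_mem_inertiaPart (hq : q.Prime) (hA : A.LiesOverPrime q) (hqM : ¬ q ∣ M')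
    {L : IntermediateField ℚ Qbar} (hζ : zetaK M' ∈ L) : zetaK M' ∈ inertiaPart A L :=
  mem_inertiaPart.mpr ⟨hζ, fun _ hτ =>
    Fermat.Agent.ES.P36.ZetaUnr26.inertia_fixes_rootOfUnity hq hA hqM (zetaK_pow_self M') hτ⟩

/-- **The seam, abstract in the model supplier.**  `hmodel` is the literal conclusion of
`ModelInert4.nodalNumData_four_inertial` / `_nine_inertial` (for all finite inertial `K ∋ ζ_{M'}`). -/
theorem exists_ratNodes_enlarge_of (hq : q.Prime) (hA : A.LiesOverPrime q) (hqM : ¬ q ∣ M')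
    (hgen : Fermat.Agent.RED.BASE.Interface12.TGenBase n e₀)
    (hmodel : ∀ (K : IntermediateField ℚ Qbar) [FiniteDimensional ℚ K], IsInertial A K →
      zetaK M' ∈ K →
      ∃ (ht : tq (↥K) n e₀ ∈ FK M' K) (hE : FK (M' * q) K ≤ fracField (AK A K)),
        ∀ (π : ↥(AK A K)) (hπ : IsUnif (AK A K) π),
          NodalNumData ↥(AK A K) ↥K ↥(FK (M' * q) K) π (tN q ht) (B0 A q ht) (B1 A q ht)
            (O1 M' q hπ hE) (O2 M' q hπ hE))
    (L₀ : IntermediateField ℚ Qbar) [FiniteDimensional ℚ L₀] [Normal ℚ L₀]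
    (hζ : zetaK M' ∈ L₀) :
    ∃ m : ℕ, 0 < m ∧ ¬ q ∣ m ∧ ∀ z : Qbar, IsPrimitiveRoot z m →
      RatNodesAt n e₀ q M' A (inertiaPart A (L₀ ⊔ ℚ⟮z⟯)) := by
  classical
  -- the inertial part of `L₀`
  have hK₀ : IsInertial A (inertiaPart A L₀) := isInertial_inertiaPart L₀
  haveI hfin₀ : FiniteDimensional ℚ ↥(inertiaPart A L₀) :=
    finiteDimensional_of_le (inertiaPart_le L₀)
  have hζ₀ : zetaK M' ∈ inertiaPart A L₀ := zetaK_mem_inertiaPart hq hA hqM hζ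
  obtain ⟨ht₀, hE₀, hN₀⟩ := hmodel (inertiaPart A L₀) hK₀ hζ₀
  have hπ₀ : IsUnif (AK A (inertiaPart A L₀)) ((q : ℕ) : ↥(AK A (inertiaPart A L₀))) :=
    Fermat.Agent.ES.P36.UnrFixed1.isUnif_natCast A hq hA (inertiaPart A L₀) hK₀.1
  obtain ⟨m, hm, hqm, H⟩ :=
    Fermat.Agent.M1.Mod.RatNodesFinal73.exists_cyclo_rat_nodes hq hA (inertiaPart A L₀) hK₀.1
      ht₀ hE₀ hπ₀ (hN₀ _ hπ₀) (Fermat.Agent.M1.Mod.FinOne34.fin1_at hq hA hgen ht₀)
  refine ⟨m, hm, hqm, fun z hz => ?_⟩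
  have hm0 : m ≠ 0 := hm.ne'
  -- the enlarged field and its inertial part
  have heq : inertiaPart A (L₀ ⊔ ℚ⟮z⟯) = inertiaPart A L₀ ⊔ ℚ⟮z⟯ :=
    Fermat.Agent.M1.Base.InertiaPartSupInst56.inertiaPart_sup_adjoin_rootOfUnity hq hA L₀ hqm
      hz.pow_eq_one
  haveI hNL : Normal ℚ ↥(L₀ ⊔ ℚ⟮z⟯) :=
    Fermat.Agent.M1.Base.InertiaPartSupInst56.normal_sup_adjoin_rootOfUnity L₀ hm0 hz
  haveI hfinL : FiniteDimensional ℚ ↥(L₀ ⊔ ℚ⟮z⟯) :=
    Fermat.Agent.M1.Mod.RatNodesFinal73.finiteDimensional_sup_adjoin L₀ z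
  have hK : IsInertial A (inertiaPart A (L₀ ⊔ ℚ⟮z⟯)) := isInertial_inertiaPart (L₀ ⊔ ℚ⟮z⟯)
  haveI hfinK : FiniteDimensional ℚ ↥(inertiaPart A (L₀ ⊔ ℚ⟮z⟯)) :=
    finiteDimensional_of_le (inertiaPart_le (L₀ ⊔ ℚ⟮z⟯))
  have hζK : zetaK M' ∈ inertiaPart A (L₀ ⊔ ℚ⟮z⟯) :=
    zetaK_mem_inertiaPart hq hA hqM ((le_sup_left : L₀ ≤ L₀ ⊔ ℚ⟮z⟯) hζ)
  obtain ⟨ht', hE', hN⟩ := hmodel (inertiaPart A (L₀ ⊔ ℚ⟮z⟯)) hK hζK
  intro ht hE π hπ
  exact H z hz (inertiaPart A (L₀ ⊔ ℚ⟮z⟯)) heq ht hE hπ (hN π hπ).model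

/-- **The seam, `q` odd, `4 ∣ M'`** (model of record `(n, e) = (4, 8)`). -/
theorem exists_ratNodes_enlarge_four (hq : q.Prime) (hq2 : q ≠ 2) (hqM : ¬ q ∣ M')
    (hM : 4 ∣ M') (hA : A.LiesOverPrime q)
    (L₀ : IntermediateField ℚ Qbar) [FiniteDimensional ℚ L₀] [Normal ℚ L₀]
    (hζ : zetaK M' ∈ L₀) :
    ∃ m : ℕ, 0 < m ∧ ¬ q ∣ m ∧ ∀ z : Qbar, IsPrimitiveRoot z m →
      RatNodesAt 4 8 q M' A (inertiaPart A (L₀ ⊔ ℚ⟮z⟯)) :=
  exists_ratNodes_enlarge_of hq hA hqM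
    (Fermat.Agent.RED.BASE.Hauptmodul12.tGenBase' Fermat.Agent.RED.BASE.Hauptmodul12.baseHyp_four)
    (fun K _ hK hζK =>
      Fermat.Agent.ES.P36.ModelInert4.nodalNumData_four_inertial hq hq2 hqM hM hA hK hζK)
    L₀ hζ

/-- **The seam, `q = 2`, `9 ∣ M'`** (model of record `(n, e) = (9, 3)`). -/
theorem exists_ratNodes_enlarge_nine [NeZero 2] {A : ValuationSubring Qbar} (hqM : ¬ 2 ∣ M')
    (hM : 9 ∣ M') (hA : A.LiesOverPrime 2)
    (L₀ : IntermediateField ℚ Qbar) [FiniteDimensional ℚ L₀] [Normal ℚ L₀]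
    (hζ : zetaK M' ∈ L₀) :
    ∃ m : ℕ, 0 < m ∧ ¬ 2 ∣ m ∧ ∀ z : Qbar, IsPrimitiveRoot z m →
      RatNodesAt 9 3 2 M' A (inertiaPart A (L₀ ⊔ ℚ⟮z⟯)) :=
  exists_ratNodes_enlarge_of Nat.prime_two hA hqM
    (Fermat.Agent.RED.BASE.Hauptmodul12.tGenBase' Fermat.Agent.RED.BASE.Hauptmodul12.baseHyp_nine)
    (fun K _ hK hζK =>
      Fermat.Agent.ES.P36.ModelInert4.nodalNumData_nine_inertial hqM hM hA hK hζK)
    L₀ hζ

/-- **The enlarged field, packaged** (`z := zetaK m`): `L := L₀ ⊔ ℚ⟮ζ_m⟯` is finite normal, contains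
`L₀` (hence `ζ_{M'}`), its inertial part is `inertiaPart A L₀ ⊔ ℚ⟮ζ_m⟯`, and all nodes of the model
over `inertiaPart A L` are rational. -/
theorem exists_field_of {m : ℕ} (hm : 0 < m) (hqm : ¬ q ∣ m) (hq : q.Prime)
    (hA : A.LiesOverPrime q)
    (L₀ : IntermediateField ℚ Qbar) [FiniteDimensional ℚ L₀] [Normal ℚ L₀]
    (hζ : zetaK M' ∈ L₀)
    (H : ∀ z : Qbar, IsPrimitiveRoot z m → RatNodesAt n e₀ q M' A (inertiaPart A (L₀ ⊔ ℚ⟮z⟯))) :
    ∃ L : IntermediateField ℚ Qbar, FiniteDimensional ℚ L ∧ Normal ℚ L ∧ L₀ ≤ L ∧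
      zetaK M' ∈ L ∧ (∃ z : Qbar, IsPrimitiveRoot z m ∧ L = L₀ ⊔ ℚ⟮z⟯) ∧
      RatNodesAt n e₀ q M' A (inertiaPart A L) := by
  haveI : NeZero m := ⟨hm.ne'⟩
  have hz : IsPrimitiveRoot (zetaK m) m := isPrimitiveRoot_zetaK m
  exact ⟨L₀ ⊔ ℚ⟮zetaK m⟯,
    Fermat.Agent.M1.Mod.RatNodesFinal73.finiteDimensional_sup_adjoin L₀ (zetaK m),
    Fermat.Agent.M1.Base.InertiaPartSupInst56.normal_sup_adjoin_rootOfUnity L₀ hm.ne' hz,
    le_sup_left, (le_sup_left : L₀ ≤ L₀ ⊔ ℚ⟮zetaK m⟯) hζ, ⟨zetaK m, hz, rfl⟩, H (zetaK m) hz⟩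

end Fermat.Agent.M1.Mod.ThickEnlarge56
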