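/-
M1 (row 38, S44), chapter MOD — helper43 (declared twin of the seam file `Mod/ThickEnlarge56`).

**THE THICK SEAM**: for `L₀ / ℚ` finite normal `∋ ζ_{M''}` (`p` odd, `p ∤ M''`, `4 ∣ M''`, `A` over
`p`) there is `m` prime to `p` such that over `L = L₀(ζ_m)` every node of the model of record of
level `M'' p` is a thick node of thickness `e = e(A ∩ L | p)`, for every uniformiser of `A ∩ L`.

Composition of: `ES/P36/ModelInert4` (model over the inertia parts), `Mod/FinOne34` (`fin1`),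
`Mod/RatNodesFinal73.exists_cyclo_rat_nodes` (RAT-NODES after a cyclotomic enlargement),
`Base/InertiaPartSupInst56` (`inertiaPart A (L₀(z)) = (inertiaPart A L₀)(z)`) and
`ORD/Geo/ThickAll97.thickNodes_four`.  The statement is the hypothesis `hThick` of
`Tri/MainMid43.hcore_of_seams`.
-/
import Mathlib
import Fermat.Agent.ORD.Geo.ThickAll97
import Fermat.Agent.M1.Mod.RatNodesFinal73
import Fermat.Agent.M1.Mod.FinOne34
import Fermat.Agent.M1.Base.InertiaPartSupInst56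

set_option autoImplicit false
set_option linter.unusedSectionVars false
set_option linter.unusedVariables false
set_option linter.style.haveILetI false
set_option synthInstance.maxHeartbeats 400000

noncomputable section

open HahnSeries ModularCurve IntermediateField

namespace Fermat.Agent.M1.Mod.ThickSeam43

open Fermat.Agent.ES.N34.NodalCore13 Fermat.Agent.ES.N34.NumData13
  Fermat.Agent.RED.Interface4 Fermat.Agent.RED.PUR.GaussGen8 Fermat.Agent.RED.BASE.EtaQuot12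
  Fermat.Agent.ES.N34.ModelDefs9 Fermat.Agent.ES.P36.InertField27 Fermat.Agent.ES.P36.ModelInert4
  Fermat.Agent.X0 Fermat.Agent.M1.Car.NodeFrame58
  Fermat.Agent.ORD.Geo.ThickLowAbs97 Fermat.Agent.ORD.Geo.ThickLow97 Fermat.Agent.ORD.Geo.ThickAll97

set_option maxHeartbeats 4000000 in
/-- **The THICK seam.** -/
theorem thick_seam {p : ℕ} [NeZero p] {M'' : ℕ} [NeZero M''] {A : ValuationSubring Qbar}
    (hp : p.Prime) (hp2 : p ≠ 2) (hpM : ¬ p ∣ M'') (hM : 4 ∣ M'') (hA : A.LiesOverPrime p)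
    (L₀ : IntermediateField ℚ Qbar) [Normal ℚ L₀] [FiniteDimensional ℚ L₀]
    (hζ : zetaK M'' ∈ L₀) :
    ∃ m : ℕ, 0 < m ∧ ¬ p ∣ m ∧ ∀ z : Qbar, IsPrimitiveRoot z m →
      ∀ [Normal ℚ ↥(L₀ ⊔ ℚ⟮z⟯)] [FiniteDimensional ℚ ↥(L₀ ⊔ ℚ⟮z⟯)]
        (ht : tq (↥(L₀ ⊔ ℚ⟮z⟯)) 4 8 ∈ FK M'' (L₀ ⊔ ℚ⟮z⟯))
        (hE : FK (M'' * p) (L₀ ⊔ ℚ⟮z⟯) ≤ fracField (AK A (L₀ ⊔ ℚ⟮z⟯)))
        (ϖ : ↥(AK A (L₀ ⊔ ℚ⟮z⟯))) (hπ : IsUnif (AK A (L₀ ⊔ ℚ⟮z⟯)) ϖ),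
        ∃ e : ℕ, 0 < e ∧
          (∃ v : (↥(AK A (L₀ ⊔ ℚ⟮z⟯)))ˣ, ((p : ℕ) : ↥(AK A (L₀ ⊔ ℚ⟮z⟯))) = v * ϖ ^ e) ∧
          ThickNodes ϖ (B0 A p ht) (B1 A p ht) (O1 M'' p hπ hE) (O2 M'' p hπ hE) e := by
  -- the model over the inertia part of `L₀`
  haveI := finiteDimensional_inertiaPart (A := A) L₀
  have hKin : IsInertial A (inertiaPart A L₀) := isInertial_inertiaPart L₀
  have hζ₀ : zetaK M'' ∈ inertiaPart A L₀ := zetaK_mem_inertiaPart hp hA hpM hζ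
  obtain ⟨ht₀, hE₀, hN₀⟩ := nodalNumData_four_inertial hp hp2 hpM hM hA hKin hζ₀
  have hπ₀ : IsUnif (AK A (inertiaPart A L₀)) ((p : ℕ) : ↥(AK A (inertiaPart A L₀))) :=
    Fermat.Agent.ES.P36.UnrFixed1.isUnif_natCast A hp hA (inertiaPart A L₀) hKin.1
  have fin1 := Fermat.Agent.M1.Mod.FinOne34.fin1_four hp hA ht₀
  -- RAT-NODES after a cyclotomic enlargement
  obtain ⟨m, hm0, hpm, H⟩ :=
    Fermat.Agent.M1.Mod.RatNodesFinal73.exists_cyclo_rat_nodes hp hA (inertiaPart A L₀) hKin.1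
      ht₀ hE₀ hπ₀ (hN₀ _ hπ₀) fin1
  refine ⟨m, hm0, hpm, ?_⟩
  intro z hz hLn hLf ht hE ϖ hπ
  have hKeq : inertiaPart A (L₀ ⊔ ℚ⟮z⟯) = inertiaPart A L₀ ⊔ ℚ⟮z⟯ :=
    Fermat.Agent.M1.Base.InertiaPartSupInst56.inertiaPart_sup_adjoin_rootOfUnity hp hA L₀ hpm
      hz.pow_eq_one
  have hζL : zetaK M'' ∈ L₀ ⊔ ℚ⟮z⟯ := (le_sup_left : L₀ ≤ L₀ ⊔ ℚ⟮z⟯) hζ
  haveI := finiteDimensional_inertiaPart (A := A) (L₀ ⊔ ℚ⟮z⟯)
  have hKinL : IsInertial A (inertiaPart A (L₀ ⊔ ℚ⟮z⟯)) := isInertial_inertiaPart _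
  obtain ⟨htK, hEK, hNK⟩ := nodalNumData_four_inertial hp hp2 hpM hM hA hKinL
    (zetaK_mem_inertiaPart hp hA hpM hζL)
  have hrat : RatItems 4 8 p M'' A (inertiaPart A (L₀ ⊔ ℚ⟮z⟯)) := by
    intro ht' hE' π' hπ'
    exact H z hz (inertiaPart A (L₀ ⊔ ℚ⟮z⟯)) hKeq ht' hE' hπ' (hNK π' hπ').model
  exact thickNodes_four hp hp2 hpM hM hA (L₀ ⊔ ℚ⟮z⟯) hζL hrat ht hE ϖ hπ

end Fermat.Agent.M1.Mod.ThickSeam43
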