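/-
M1 (S44) / ORD chapter G, chapter MOD/NODE (helper25): **`ThickNodes` over a ramified normal field,
UPPER HALF** — from the chart base change bundle `ChartBC34.Concl` (`K = L^{I_A} ≤ L`), the two
nodal models (over `A ∩ K` and over `A ∩ L`) and the LOWER-HALF input `hK0`, `hK1` (regular nodes
with rational residue field over the inertial field `K`; literally the binders of
`ThickBC53.thickNodes_up`), every node of the model of record over `A ∩ L` is a thick node of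
thickness `e`, where `π_K = u · π_L ^ e` (`u` a unit of `A ∩ L`), i.e. `e = e(L / K) = e(A ∩ L | q)`.

* `thickNodes_of_concl` : with explicit `e`, `u`;
* `exists_thickNodes_of_concl` : `∃ e u, 0 < e ∧ π_K = u π_L ^ e ∧ ThickNodes π_L B0 B1 O1 O2 e`.
-/
import Mathlib
import Fermat.Agent.M1.Mod.ChartBC34
import Fermat.Agent.M1.Base.ThickBC53

set_option autoImplicit false
set_option linter.unusedSectionVars false
set_option linter.unusedVariables false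
set_option linter.style.haveILetI false

noncomputable section

namespace Fermat.Agent.M1.Mod.ThickUp25

open AlgebraicCurve ModularCurve HahnSeries IntermediateField Polynomial
open Fermat.Agent.X0 Fermat.Agent.RED.Interface4 Fermat.Agent.RED.DESC
  Fermat.Agent.RED.PUR.GaussGen8 Fermat.Agent.RED.PUR.ChartGeneric22
  Fermat.Agent.RED.BASE.EtaQuot12 Fermat.Agent.ES.N34.ModelDefs9 Fermat.Agent.ES.N34.NodalCore13
  Fermat.Agent.ES.N34.NodalSmooth13 Fermat.Agent.M1.Node.Thick25 Fermat.Agent.M1.Node.BaseNode25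
  Fermat.Agent.M1.Car.NodeFrame58 Fermat.Agent.M1.Mod.ChartBC34
open Fermat.Agent.ES.P36.ConstUnram1 (bcLe coe_bcLe baseChangeHom_bcLe bcLe_algebraMap)
open Fermat.Agent.M1.Mod.TotRamInst34 (incKL incAK incAKL)

/-- Shortcuts to the instances found (slowly) by instance search. -/
local instance (priority := 5000) algKFK (N : ℕ) (K : IntermediateField ℚ Qbar) :
    Algebra K (FK N K) := SubalgebraClass.toAlgebra (FK N K)

local instance (priority := 5000) algAKFK (A : ValuationSubring Qbar)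
    (K : IntermediateField ℚ Qbar) (N : ℕ) : Algebra ↥(AK A K) ↥(FK N K) :=
  Algebra.ofSubsemiring (AK A K)

variable (A : ValuationSubring Qbar) {K L : IntermediateField ℚ Qbar} (hle : K ≤ L)
  {M' q : ℕ} [NeZero M'] [NeZero q] {n e₀ : ℕ} [NeZero n]

/-- **`ThickNodes` over `L`, upper half.** -/
theorem thickNodes_of_concl {htK : tq (↥K) n e₀ ∈ FK M' K} {htL : tq (↥L) n e₀ ∈ FK M' L}
    {πK : AK A K} {hπK : IsUnif (AK A K) πK} {hEK : FK (M' * q) K ≤ fracField (AK A K)}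
    {πL : AK A L} {hπL : IsUnif (AK A L) πL} {hEL : FK (M' * q) L ≤ fracField (AK A L)}
    (C : Concl A hle htK htL hπK hEK hπL hEL)
    (DK : NodalTwoChartModel ↥(AK A K) ↥(FK (M' * q) K) πK (tN q htK) (B0 A q htK)
      (B1 A q htK) (O1 M' q hπK hEK) (O2 M' q hπK hEK))
    (DL : NodalTwoChartModel ↥(AK A L) ↥(FK (M' * q) L) πL (tN q htL) (B0 A q htL)
      (B1 A q htL) (O1 M' q hπL hEL) (O2 M' q hπL hEL))
    {e : ℕ} (he : 0 < e) (u : (↥(AK A L))ˣ) (heis : incAK A hle πK = u * πL ^ e)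
    (hK0 : ∀ 𝔪₁ : Ideal (B0 A q htK), ∀ h : 𝔪₁.IsMaximal,
      algebraMap ↥(AK A K) (B0 A q htK) πK ∈ 𝔪₁ →
      ¬ OffBranch πK (B0 A q htK) (O1 M' q hπK hEK) 𝔪₁ →
      ¬ OffBranch πK (B0 A q htK) (O2 M' q hπK hEK) 𝔪₁ →
      (haveI := h.isPrime
       ∃ x y : ↥(FK (M' * q) K), RegNode (locSub (B0 A q htK) 𝔪₁).toSubring (O1 M' q hπK hEK)
          (O2 M' q hπK hEK) (algebraMap ↥(AK A K) ↥(FK (M' * q) K) πK) x y ∧
        ∀ c ∈ locSub (B0 A q htK) 𝔪₁, ∃ r : ↥(AK A K), ∃ a ∈ locSub (B0 A q htK) 𝔪₁,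
          ∃ b ∈ locSub (B0 A q htK) 𝔪₁, ∃ d ∈ locSub (B0 A q htK) 𝔪₁,
            c = algebraMap ↥(AK A K) ↥(FK (M' * q) K) r +
              a * algebraMap ↥(AK A K) ↥(FK (M' * q) K) πK + b * x + d * y))
    (hK1 : ∀ 𝔪₁ : Ideal (B1 A q htK), ∀ h : 𝔪₁.IsMaximal,
      algebraMap ↥(AK A K) (B1 A q htK) πK ∈ 𝔪₁ →
      ¬ OffBranch πK (B1 A q htK) (O1 M' q hπK hEK) 𝔪₁ →
      ¬ OffBranch πK (B1 A q htK) (O2 M' q hπK hEK) 𝔪₁ →
      (haveI := h.isPrime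
       ∃ x y : ↥(FK (M' * q) K), RegNode (locSub (B1 A q htK) 𝔪₁).toSubring (O1 M' q hπK hEK)
          (O2 M' q hπK hEK) (algebraMap ↥(AK A K) ↥(FK (M' * q) K) πK) x y ∧
        ∀ c ∈ locSub (B1 A q htK) 𝔪₁, ∃ r : ↥(AK A K), ∃ a ∈ locSub (B1 A q htK) 𝔪₁,
          ∃ b ∈ locSub (B1 A q htK) 𝔪₁, ∃ d ∈ locSub (B1 A q htK) 𝔪₁,
            c = algebraMap ↥(AK A K) ↥(FK (M' * q) K) r +
              a * algebraMap ↥(AK A K) ↥(FK (M' * q) K) πK + b * x + d * y)) :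
    ThickNodes πL (B0 A q htL) (B1 A q htL) (O1 M' q hπL hEL) (O2 M' q hπL hEL) e := by
  letI algFF : Algebra (FK (M' * q) K) (FK (M' * q) L) := (bcLe (M' * q) hle).toAlgebra
  have htower : ∀ r : AK A K,
      algebraMap (FK (M' * q) K) (FK (M' * q) L) (algebraMap ↥(AK A K) ↥(FK (M' * q) K) r) =
        algebraMap ↥(AK A L) ↥(FK (M' * q) L) (incAK A hle r) := by
    intro r
    show bcLe (M' * q) hle (algebraMap K (FK (M' * q) K) (r : K)) = _
    rw [bcLe_algebraMap]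
    rfl
  have heisF : algebraMap (FK (M' * q) K) (FK (M' * q) L)
      (algebraMap ↥(AK A K) ↥(FK (M' * q) K) πK) =
      algebraMap ↥(AK A L) ↥(FK (M' * q) L) (u : ↥(AK A L)) *
        algebraMap ↥(AK A L) ↥(FK (M' * q) L) πL ^ e := by
    rw [htower, heis, map_mul, map_pow]
  have C0 : Fermat.Agent.M1.Base.PointBC53.ChartBC
      (algebraMap (FK (M' * q) K) (FK (M' * q) L)) πK πL (B0 A q htK) (B0 A q htL) :=
    { map := C.map0
      decomp := C.decomp0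
      eis := ⟨algebraMap ↥(AK A L) ↥(FK (M' * q) L) (u : ↥(AK A L)),
        (B0 A q htL).algebraMap_mem _, e, he, heisF⟩ }
  have C1 : Fermat.Agent.M1.Base.PointBC53.ChartBC
      (algebraMap (FK (M' * q) K) (FK (M' * q) L)) πK πL (B1 A q htK) (B1 A q htL) :=
    { map := C.map1
      decomp := C.decomp1
      eis := ⟨algebraMap ↥(AK A L) ↥(FK (M' * q) L) (u : ↥(AK A L)),
        (B1 A q htL).algebraMap_mem _, e, he, heisF⟩ }
  exact Fermat.Agent.M1.Base.ThickBC53.thickNodes_up C0 C1 C.compat1 C.compat2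
    DL.le_O1_0 DL.le_O2_0 DL.le_O1_1 DL.le_O2_1 DL.pi_nonunit1 DL.pi_nonunit2
    DK.unif1 DK.unif2 DL.unif1 DL.unif2 he (u := (u : ↥(AK A L)))
    (u' := ((u⁻¹ : (↥(AK A L))ˣ) : ↥(AK A L))) u.mul_inv heisF
    (fun r => ⟨incAK A hle r, htower r⟩) hK0 hK1

/-- **`ThickNodes` over `L`, upper half**, with the thickness read off from `Concl.eis`. -/
theorem exists_thickNodes_of_concl {htK : tq (↥K) n e₀ ∈ FK M' K} {htL : tq (↥L) n e₀ ∈ FK M' L}
    {πK : AK A K} {hπK : IsUnif (AK A K) πK} {hEK : FK (M' * q) K ≤ fracField (AK A K)}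
    {πL : AK A L} {hπL : IsUnif (AK A L) πL} {hEL : FK (M' * q) L ≤ fracField (AK A L)}
    (C : Concl A hle htK htL hπK hEK hπL hEL)
    (DK : NodalTwoChartModel ↥(AK A K) ↥(FK (M' * q) K) πK (tN q htK) (B0 A q htK)
      (B1 A q htK) (O1 M' q hπK hEK) (O2 M' q hπK hEK))
    (DL : NodalTwoChartModel ↥(AK A L) ↥(FK (M' * q) L) πL (tN q htL) (B0 A q htL)
      (B1 A q htL) (O1 M' q hπL hEL) (O2 M' q hπL hEL))
    (hK0 : ∀ 𝔪₁ : Ideal (B0 A q htK), ∀ h : 𝔪₁.IsMaximal,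
      algebraMap ↥(AK A K) (B0 A q htK) πK ∈ 𝔪₁ →
      ¬ OffBranch πK (B0 A q htK) (O1 M' q hπK hEK) 𝔪₁ →
      ¬ OffBranch πK (B0 A q htK) (O2 M' q hπK hEK) 𝔪₁ →
      (haveI := h.isPrime
       ∃ x y : ↥(FK (M' * q) K), RegNode (locSub (B0 A q htK) 𝔪₁).toSubring (O1 M' q hπK hEK)
          (O2 M' q hπK hEK) (algebraMap ↥(AK A K) ↥(FK (M' * q) K) πK) x y ∧
        ∀ c ∈ locSub (B0 A q htK) 𝔪₁, ∃ r : ↥(AK A K), ∃ a ∈ locSub (B0 A q htK) 𝔪₁,
          ∃ b ∈ locSub (B0 A q htK) 𝔪₁, ∃ d ∈ locSub (B0 A q htK) 𝔪₁,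
            c = algebraMap ↥(AK A K) ↥(FK (M' * q) K) r +
              a * algebraMap ↥(AK A K) ↥(FK (M' * q) K) πK + b * x + d * y))
    (hK1 : ∀ 𝔪₁ : Ideal (B1 A q htK), ∀ h : 𝔪₁.IsMaximal,
      algebraMap ↥(AK A K) (B1 A q htK) πK ∈ 𝔪₁ →
      ¬ OffBranch πK (B1 A q htK) (O1 M' q hπK hEK) 𝔪₁ →
      ¬ OffBranch πK (B1 A q htK) (O2 M' q hπK hEK) 𝔪₁ →
      (haveI := h.isPrime
       ∃ x y : ↥(FK (M' * q) K), RegNode (locSub (B1 A q htK) 𝔪₁).toSubring (O1 M' q hπK hEK)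
          (O2 M' q hπK hEK) (algebraMap ↥(AK A K) ↥(FK (M' * q) K) πK) x y ∧
        ∀ c ∈ locSub (B1 A q htK) 𝔪₁, ∃ r : ↥(AK A K), ∃ a ∈ locSub (B1 A q htK) 𝔪₁,
          ∃ b ∈ locSub (B1 A q htK) 𝔪₁, ∃ d ∈ locSub (B1 A q htK) 𝔪₁,
            c = algebraMap ↥(AK A K) ↥(FK (M' * q) K) r +
              a * algebraMap ↥(AK A K) ↥(FK (M' * q) K) πK + b * x + d * y)) :
    ∃ (e : ℕ) (u : (↥(AK A L))ˣ), 0 < e ∧ incAK A hle πK = u * πL ^ e ∧
      ThickNodes πL (B0 A q htL) (B1 A q htL) (O1 M' q hπL hEL) (O2 M' q hπL hEL) e := by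
  obtain ⟨e, u, he, heis⟩ := C.eis
  exact ⟨e, u, he, heis, thickNodes_of_concl A hle C DK DL he u heis hK0 hK1⟩

/-- `q = v π_L ^ e` from `q = π_K w` (`K` unramified at `A`) and `π_K = u π_L ^ e`: the thickness `e`
of the nodes over `L` is the ramification index of `A ∩ L` over `q`. -/
theorem natCast_eq_unit_mul_pow {πK : AK A K} {πL : AK A L} {e : ℕ} (u : (↥(AK A L))ˣ)
    (heis : incAK A hle πK = u * πL ^ e) (w : (↥(AK A K))ˣ)
    (hq : ((q : ℕ) : ↥(AK A K)) = πK * w) :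
    ∃ v : (↥(AK A L))ˣ, ((q : ℕ) : ↥(AK A L)) = v * πL ^ e := by
  refine ⟨u * Units.map (incAK A hle).toMonoidHom w, ?_⟩
  have h1 : ((q : ℕ) : ↥(AK A L)) = incAK A hle ((q : ℕ) : ↥(AK A K)) := (map_natCast _ q).symm
  rw [h1, hq, map_mul, heis, Units.val_mul, Units.coe_map]
  show _ = (u : ↥(AK A L)) * incAK A hle (w : ↥(AK A K)) * πL ^ e
  ring

end Fermat.Agent.M1.Mod.ThickUp25
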