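/-
Program M1 (S44), chapter MOD/BASE, brick (M2) — helper34: the TOTALLY RAMIFIED STEP, abstract
form (Mathlib only).

`R ⊂ S` discrete valuation rings with fraction fields `K ⊂ L`, `L / K` finite Galois, such that
every `σ ∈ Gal(L/K)` maps `S` to itself and acts trivially on the residue field of `S`
(`Hyp.stab`), and `S ∩ K = R` (`Hyp.fix`); the residue field of `R` is perfect.  Then, for every
uniformiser `ϖ` of `S` and `π` of `R`:

* `exists_conj_poly` : the minimal polynomial of `s : S` over `K` has coefficients in `R` and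
  splits over `S` into conjugates of `s`;
* `isIntegral`, `isIntegralClosure`, `module_finite` : `S` is the integral closure of `R` in `L`,
  and a finite `R`-module;
* `isLocalHom_algebraMap`, `exists_residue_rep` : `R → S` is local and the residue fields
  coincide;
* `exists_expansion` : `ϖ`-adic expansions with coefficients in `R`;
* `exists_unif_pow`, `exists_expansion_lt` : `π = unit * ϖ ^ e` and `S = Σ_{j < e} R ϖ^j`
  (Nakayama);
* `exists_eisenstein` : the minimal polynomial `E` of `ϖ` is monic of degree `[L : K]` with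
  coefficients in `R`, `π ∣` all lower coefficients, `E(0) = π * unit`, `π = unit * ϖ ^ [L : K]`,
  and `K(ϖ) = L`;  `isEisensteinAt_of` packages this as `Polynomial.IsEisensteinAt`.
-/
import Mathlib.RingTheory.DiscreteValuationRing.Basic
import Mathlib.FieldTheory.Galois.Basic
import Mathlib.FieldTheory.Minpoly.IsConjRoot
import Mathlib.RingTheory.DedekindDomain.IntegralClosure
import Mathlib.RingTheory.Polynomial.Eisenstein.Basic
import Mathlib.FieldTheory.Perfect
import Mathlib.RingTheory.Nakayama
import Mathlib.RingTheory.LocalRing.ResidueField.Basic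
import Mathlib.RingTheory.Polynomial.Basic
import Mathlib.RingTheory.Polynomial.GaussLemma
import Mathlib.FieldTheory.Minpoly.Field
import Mathlib.FieldTheory.IntermediateField.Adjoin.Basic

set_option autoImplicit false
set_option linter.unusedSectionVars false
set_option linter.unusedVariables false
set_option linter.style.haveILetI false

namespace Fermat.Agent.M1.Mod.TotRam34

open Polynomial IsLocalRing

variable (R S K L : Type*) [CommRing R] [IsDomain R] [IsDiscreteValuationRing R]
  [CommRing S] [IsDomain S] [IsDiscreteValuationRing S]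
  [Field K] [Field L] [Algebra R K] [IsFractionRing R K] [Algebra S L] [IsFractionRing S L]
  [Algebra K L] [Algebra R S] [Algebra R L] [IsScalarTower R K L] [IsScalarTower R S L]
  [FiniteDimensional K L] [IsGalois K L]

/-- The standing hypotheses: `Gal(L/K)` stabilises `S`, acts trivially on its residue field, and
`S ∩ K = R`. -/
structure Hyp : Prop where
  stab : ∀ (σ : Gal(L/K)) (s : S), ∃ s' : S, algebraMap S L s' = σ (algebraMap S L s) ∧
    s' - s ∈ maximalIdeal S
  fix : ∀ (s : S) (c : K), algebraMap K L c = algebraMap S L s → ∃ r : R, algebraMap R S r = s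

variable {R S K L}

theorem algebraMap_SL_injective : Function.Injective (algebraMap S L) :=
  IsFractionRing.injective S L

theorem algebraMap_RS_injective (_h : Hyp R S K L) : Function.Injective (algebraMap R S) := by
  have h1 : Function.Injective (algebraMap R L) := by
    rw [IsScalarTower.algebraMap_eq R K L]
    exact (algebraMap K L).injective.comp (IsFractionRing.injective R K)
  rw [IsScalarTower.algebraMap_eq R S L] at h1
  exact Function.Injective.of_comp h1

/-- **The conjugate polynomial**: for `s : S` the minimal polynomial of `s` over `K` has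
coefficients in `R` and splits over `S` with roots the conjugates of `s`. -/
theorem exists_conj_poly (h : Hyp R S K L) (s : S) :
    ∃ (P : R[X]) (m : Multiset S), P.Monic ∧
      P.map (algebraMap R S) = (m.map (fun r => X - C r)).prod ∧ s ∈ m ∧
      (∀ r ∈ m, ∃ σ : Gal(L/K), algebraMap S L r = σ (algebraMap S L s)) ∧
      P.map (algebraMap R K) = minpoly K (algebraMap S L s) := by
  classical
  set x : L := algebraMap S L s with hx
  have hxint : IsIntegral K x := Algebra.IsIntegral.isIntegral x
  set p : K[X] := minpoly K x with hp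
  have hpm : p.Monic := minpoly.monic hxint
  have hsplit : (p.map (algebraMap K L)).Splits := Normal.splits inferInstance x
  set rts : Multiset L := (p.map (algebraMap K L)).roots with hrts
  -- every root is a conjugate, hence lies in `S`
  have hroot : ∀ y ∈ rts, ∃ σ : Gal(L/K), σ x = y := by
    intro y hy
    have hy' : y ∈ p.aroots L := hy
    have hconj : IsConjRoot K x y := (isConjRoot_iff_mem_minpoly_aroots hxint).mpr hy'
    exact hconj.symm.exists_algEquiv
  have hrootS : ∀ y ∈ rts, ∃ r : S, algebraMap S L r = y := by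
    intro y hy
    obtain ⟨σ, hσ⟩ := hroot y hy
    obtain ⟨s', hs', -⟩ := h.stab σ s
    exact ⟨s', by rw [hs', ← hσ]⟩
  -- the multiset of roots in `S`
  obtain ⟨m, hmmap⟩ : ∃ m : Multiset S, m.map (algebraMap S L) = rts := by
    let f : {y // y ∈ rts} → S := fun y => (hrootS y.1 y.2).choose
    have hf : ∀ y : {y // y ∈ rts}, algebraMap S L (f y) = y.1 := fun y =>
      (hrootS y.1 y.2).choose_spec
    refine ⟨rts.attach.map f, ?_⟩
    rw [Multiset.map_map]
    have : (⇑(algebraMap S L) ∘ f) = fun y : {y // y ∈ rts} => y.1 := funext hf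
    rw [this, Multiset.attach_map_val]
  set Q : S[X] := (m.map (fun r => X - C r)).prod with hQ
  have hQmap : Q.map (algebraMap S L) = p.map (algebraMap K L) := by
    rw [hsplit.eq_prod_roots_of_monic (hpm.map _), hQ, Polynomial.map_multiset_prod,
      Multiset.map_map, ← hrts, ← hmmap, Multiset.map_map]
    apply congrArg
    apply Multiset.map_congr rfl
    intro r _
    simp
  have hQmonic : Q.Monic := by
    rw [hQ]
    apply monic_multiset_prod_of_monic
    intro r _
    exact monic_X_sub_C r
  -- coefficients of `Q` come from `R`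
  have hQlift : Q ∈ Polynomial.lifts (algebraMap R S) := by
    rw [Polynomial.lifts_iff_coeff_lifts]
    intro i
    have hc : algebraMap K L (p.coeff i) = algebraMap S L (Q.coeff i) := by
      rw [← Polynomial.coeff_map, ← Polynomial.coeff_map, hQmap]
    obtain ⟨r, hr⟩ := h.fix (Q.coeff i) (p.coeff i) hc
    exact ⟨r, hr⟩
  obtain ⟨P, hPmap, -, hPmonic⟩ := Polynomial.lifts_and_degree_eq_and_monic hQlift hQmonic
  refine ⟨P, m, hPmonic, hPmap, ?_, ?_, ?_⟩
  · -- `s ∈ m`
    have hxroot : x ∈ rts := by
      rw [hrts, Polynomial.mem_roots (hpm.map _).ne_zero, Polynomial.IsRoot.def,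
        Polynomial.eval_map_algebraMap]
      exact minpoly.aeval K x
    rw [← hmmap, Multiset.mem_map] at hxroot
    obtain ⟨r, hr, hrx⟩ := hxroot
    have : r = s := algebraMap_SL_injective hrx
    rwa [this] at hr
  · intro r hr
    have hmem : algebraMap S L r ∈ rts := by
      rw [← hmmap]; exact Multiset.mem_map_of_mem _ hr
    obtain ⟨σ, hσ⟩ := hroot _ hmem
    exact ⟨σ, hσ.symm⟩
  · apply Polynomial.map_injective _ (algebraMap K L).injective
    rw [Polynomial.map_map, ← IsScalarTower.algebraMap_eq R K L,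
      IsScalarTower.algebraMap_eq R S L, ← Polynomial.map_map, hPmap, hQmap]

/-- `R → S` is a local homomorphism (`S ∩ K = R`). -/
theorem isLocalHom_algebraMap (h : Hyp R S K L) : IsLocalHom (algebraMap R S) := by
  constructor
  intro r hr
  obtain ⟨s, hs⟩ := hr.exists_right_inv
  have hL : algebraMap S L (algebraMap R S r) * algebraMap S L s = 1 := by
    rw [← map_mul, hs, map_one]
  have hfix : algebraMap K L (algebraMap R K r)⁻¹ = algebraMap S L s := by
    rw [map_inv₀, ← IsScalarTower.algebraMap_apply R K L, IsScalarTower.algebraMap_apply R S L]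
    exact inv_eq_of_mul_eq_one_right hL
  obtain ⟨r', hr'⟩ := h.fix s _ hfix
  refine IsUnit.of_mul_eq_one r' ?_
  apply algebraMap_RS_injective h
  rw [map_mul, hr', hs, map_one]

/-- `𝔪_S ∩ R = 𝔪_R`. -/
theorem mem_maximalIdeal_of_map_mem (h : Hyp R S K L) {r : R}
    (hr : algebraMap R S r ∈ maximalIdeal S) : r ∈ maximalIdeal R := by
  haveI := isLocalHom_algebraMap h
  rw [mem_maximalIdeal, mem_nonunits_iff] at hr ⊢
  intro hu
  exact hr (hu.map _)

theorem map_mem_maximalIdeal {r : R} (hr : r ∈ maximalIdeal R) (_h : Hyp R S K L) :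
    algebraMap R S r ∈ maximalIdeal S := by
  haveI := isLocalHom_algebraMap _h
  rw [mem_maximalIdeal, mem_nonunits_iff] at hr ⊢
  intro hu
  exact hr (isUnit_of_map_unit (algebraMap R S) r hu)

/-- **Equality of residue fields**: every `s : S` is congruent to an element of `R` modulo the
maximal ideal (the residue field of `R` is perfect and `Gal(L/K)` acts trivially on that of `S`). -/
theorem exists_residue_rep [PerfectField (ResidueField R)] (h : Hyp R S K L) (s : S) :
    ∃ r : R, s - algebraMap R S r ∈ maximalIdeal S := by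
  classical
  haveI := isLocalHom_algebraMap h
  obtain ⟨P, m, hPm, hPmap, hsm, hconj, -⟩ := exists_conj_poly h s
  have hcong : ∀ r ∈ m, residue S r = residue S s := by
    intro r hr
    obtain ⟨σ, hσ⟩ := hconj r hr
    obtain ⟨s', hs', hs'm⟩ := h.stab σ s
    have hrs : r = s' := algebraMap_SL_injective (hσ.trans hs'.symm)
    rw [hrs, ← sub_eq_zero, ← map_sub, residue_eq_zero_iff]
    exact hs'm
  have hcard : m.card ≠ 0 := (Multiset.card_pos_iff_exists_mem.mpr ⟨s, hsm⟩).ne'
  set sb : ResidueField S := residue S s with hsb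
  set Pb : (ResidueField R)[X] := P.map (residue R) with hPb'
  have hPb : Pb.map (algebraMap (ResidueField R) (ResidueField S)) = (X - C sb) ^ m.card := by
    have h1 : Pb.map (algebraMap (ResidueField R) (ResidueField S)) =
        (P.map (algebraMap R S)).map (residue S) := by
      rw [hPb', Polynomial.map_map, Polynomial.map_map]
      rfl
    rw [h1, hPmap, Polynomial.map_multiset_prod, Multiset.map_map]
    have h2 : m.map ((Polynomial.map (residue S)) ∘ fun r => X - C r) =
        m.map (fun _ => X - C sb) := by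
      apply Multiset.map_congr rfl
      intro r hr
      simp [hcong r hr, hsb]
    rw [h2, Multiset.map_const', Multiset.prod_replicate]
  have hmonic : Pb.Monic := hPm.map _
  have hroot : aeval sb Pb = 0 := by
    rw [aeval_def, ← eval_map, hPb, eval_pow, eval_sub, eval_X, eval_C, sub_self, zero_pow hcard]
  have hint : IsIntegral (ResidueField R) sb := ⟨Pb, hmonic, by rwa [aeval_def] at hroot⟩
  have hμirr : Irreducible (minpoly (ResidueField R) sb) := minpoly.irreducible hint
  have hμsep : (minpoly (ResidueField R) sb).Separable :=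
    PerfectField.separable_of_irreducible hμirr
  have hμdvd : minpoly (ResidueField R) sb ∣ Pb := minpoly.dvd _ sb hroot
  have hμdvd' : (minpoly (ResidueField R) sb).map (algebraMap (ResidueField R) (ResidueField S)) ∣
      (X - C sb) ^ m.card := by
    rw [← hPb]; exact Polynomial.map_dvd _ hμdvd
  have hsq : Squarefree ((minpoly (ResidueField R) sb).map
      (algebraMap (ResidueField R) (ResidueField S))) := (hμsep.map).squarefree
  have hdvd1 : (minpoly (ResidueField R) sb).map (algebraMap (ResidueField R) (ResidueField S)) ∣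
      X - C sb := (hsq.dvd_pow_iff_dvd hcard).mp hμdvd'
  have hdeg : (minpoly (ResidueField R) sb).natDegree ≤ 1 := by
    have := Polynomial.natDegree_le_of_dvd hdvd1 (X_sub_C_ne_zero sb)
    rwa [natDegree_map, natDegree_X_sub_C] at this
  have hdeg1 : (minpoly (ResidueField R) sb).natDegree = 1 :=
    le_antisymm hdeg (minpoly.natDegree_pos hint)
  obtain ⟨rb, hrb⟩ := minpoly.natDegree_eq_one_iff.mp hdeg1
  obtain ⟨r, rfl⟩ := residue_surjective rb
  refine ⟨r, ?_⟩
  rw [← residue_eq_zero_iff, map_sub, sub_eq_zero, ← hsb, ← hrb]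
  rfl

/-- `S` is integral over `R`. -/
theorem isIntegral (h : Hyp R S K L) (s : S) : IsIntegral R s := by
  obtain ⟨P, m, hPm, hPmap, hsm, -, -⟩ := exists_conj_poly h s
  refine ⟨P, hPm, ?_⟩
  rw [← eval_map, hPmap, eval_multiset_prod]
  apply Multiset.prod_eq_zero
  rw [Multiset.mem_map]
  refine ⟨X - C s, Multiset.mem_map_of_mem _ hsm, ?_⟩
  simp

/-- `S` is the integral closure of `R` in `L`. -/
theorem isIntegralClosure (h : Hyp R S K L) : IsIntegralClosure S R L where
  algebraMap_injective := algebraMap_SL_injective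
  isIntegral_iff := by
    intro x
    constructor
    · intro hx
      have hxS : IsIntegral S x := hx.tower_top
      exact IsIntegrallyClosed.isIntegral_iff.mp hxS
    · rintro ⟨s, rfl⟩
      exact (isIntegral h s).map (IsScalarTower.toAlgHom R S L)

/-- `S` is a finite `R`-module. -/
theorem module_finite (h : Hyp R S K L) : Module.Finite R S := by
  haveI := isIntegralClosure h
  exact IsIntegralClosure.finite R K L S

section Unif

variable [PerfectField (ResidueField R)]

/-- `ϖ`-adic expansions with coefficients in `R`. -/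
theorem exists_expansion (h : Hyp R S K L) {ϖ : S} (hϖ : Irreducible ϖ) (n : ℕ) (s : S) :
    ∃ (c : ℕ → R) (s' : S),
      s = ∑ j ∈ Finset.range n, algebraMap R S (c j) * ϖ ^ j + ϖ ^ n * s' := by
  induction n with
  | zero => exact ⟨fun _ => 0, s, by simp⟩
  | succ n ih =>
    obtain ⟨c, s', hs'⟩ := ih
    obtain ⟨r, hr⟩ := exists_residue_rep h s'
    rw [hϖ.maximalIdeal_eq, Ideal.mem_span_singleton] at hr
    obtain ⟨s'', hs''⟩ := hr
    refine ⟨fun j => if j = n then r else c j, s'', ?_⟩
    beta_reduce
    rw [Finset.sum_range_succ, if_pos rfl]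
    have hsum : ∑ j ∈ Finset.range n, algebraMap R S (if j = n then r else c j) * ϖ ^ j =
        ∑ j ∈ Finset.range n, algebraMap R S (c j) * ϖ ^ j := by
      apply Finset.sum_congr rfl
      intro j hj
      rw [if_neg (Finset.mem_range.mp hj).ne]
    rw [hsum, hs']
    have : s' = algebraMap R S r + ϖ * s'' := by rw [← hs'']; ring
    rw [this]
    ring

end Unif

/-- the reduction of the conjugate polynomial is a power of `X - s̄`. -/
theorem conj_poly_map_residue (h : Hyp R S K L) (s : S) {P : R[X]} {m : Multiset S}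
    (hPmap : P.map (algebraMap R S) = (m.map (fun r => X - C r)).prod)
    (hconj : ∀ r ∈ m, ∃ σ : Gal(L/K), algebraMap S L r = σ (algebraMap S L s)) :
    (P.map (algebraMap R S)).map (residue S) = (X - C (residue S s)) ^ m.card := by
  have hcong : ∀ r ∈ m, residue S r = residue S s := by
    intro r hr
    obtain ⟨σ, hσ⟩ := hconj r hr
    obtain ⟨s', hs', hs'm⟩ := h.stab σ s
    have hrs : r = s' := algebraMap_SL_injective (hσ.trans hs'.symm)
    rw [hrs, ← sub_eq_zero, ← map_sub, residue_eq_zero_iff]
    exact hs'm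
  rw [hPmap, Polynomial.map_multiset_prod, Multiset.map_map]
  have h2 : m.map ((Polynomial.map (residue S)) ∘ fun r => X - C r) =
      m.map (fun _ => X - C (residue S s)) := by
    apply Multiset.map_congr rfl
    intro r hr
    simp [hcong r hr]
  rw [h2, Multiset.map_const', Multiset.prod_replicate]

section Unif

variable [PerfectField (ResidueField R)]

/-- `π_R = unit * ϖ ^ e` with `e ≥ 1`. -/
theorem exists_unif_pow (h : Hyp R S K L) {ϖ : S} (hϖ : Irreducible ϖ) {π : R}
    (hπ : Irreducible π) :
    ∃ (e : ℕ) (u : Sˣ), 0 < e ∧ algebraMap R S π = u * ϖ ^ e := by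
  have hne : algebraMap R S π ≠ 0 := by
    intro h0
    exact hπ.ne_zero (algebraMap_RS_injective h (by rw [h0, map_zero]))
  obtain ⟨e, u, hu⟩ := IsDiscreteValuationRing.eq_unit_mul_pow_irreducible hne hϖ
  refine ⟨e, u, ?_, hu⟩
  rcases Nat.eq_zero_or_pos e with h0 | hpos
  · exfalso
    have hmem : algebraMap R S π ∈ maximalIdeal S :=
      map_mem_maximalIdeal (by rw [hπ.maximalIdeal_eq]; exact Ideal.mem_span_singleton_self π) h
    rw [hu, h0, pow_zero, mul_one, mem_maximalIdeal, mem_nonunits_iff] at hmem
    exact hmem u.isUnit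
  · exact hpos

/-- **Nakayama**: `1, ϖ, …, ϖ^(e-1)` span `S` over `R`. -/
theorem exists_expansion_lt (h : Hyp R S K L) {ϖ : S} (hϖ : Irreducible ϖ) {π : R}
    (hπ : Irreducible π) {e : ℕ} {u : Sˣ} (hπe : algebraMap R S π = u * ϖ ^ e) (s : S) :
    ∃ c : ℕ → R, s = ∑ j ∈ Finset.range e, algebraMap R S (c j) * ϖ ^ j := by
  classical
  haveI := module_finite h
  have htop : (⊤ : Submodule R S) ≤
      Submodule.span R (Set.range fun j : Fin e => ϖ ^ (j : ℕ)) := by
    apply Submodule.le_of_le_smul_of_le_jacobson_bot (I := maximalIdeal R) Module.Finite.fg_top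
    · rw [IsLocalRing.jacobson_eq_maximalIdeal ⊥ bot_ne_top]
    · intro s _
      obtain ⟨c, s', hs'⟩ := exists_expansion h hϖ e s
      rw [hs']
      apply Submodule.add_mem_sup
      · apply Submodule.sum_mem
        intro j hj
        rw [← Algebra.smul_def]
        apply Submodule.smul_mem
        apply Submodule.subset_span
        exact ⟨⟨j, Finset.mem_range.mp hj⟩, rfl⟩
      · have hrew : ϖ ^ e * s' = π • (((u⁻¹ : Sˣ) : S) * s') := by
          rw [Algebra.smul_def, hπe]
          have : (u : S) * ϖ ^ e * (((u⁻¹ : Sˣ) : S) * s') =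
              ((u : S) * ((u⁻¹ : Sˣ) : S)) * (ϖ ^ e * s') := by ring
          rw [this, Units.mul_inv, one_mul]
        rw [hrew]
        apply Submodule.smul_mem_smul _ Submodule.mem_top
        rw [hπ.maximalIdeal_eq]
        exact Ideal.mem_span_singleton_self π
  have hs : s ∈ Submodule.span R (Set.range fun j : Fin e => ϖ ^ (j : ℕ)) := htop Submodule.mem_top
  obtain ⟨r, hr⟩ := (Submodule.mem_span_range_iff_exists_fun R).mp hs
  refine ⟨fun j => if hj : j < e then r ⟨j, hj⟩ else 0, ?_⟩
  rw [← hr, Finset.sum_range]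
  apply Finset.sum_congr rfl
  intro i _
  show r i • ϖ ^ (i : ℕ) =
    algebraMap R S (if hj : (i : ℕ) < e then r ⟨i, hj⟩ else 0) * ϖ ^ (i : ℕ)
  rw [dif_pos i.2, Algebra.smul_def]

/-- **The Eisenstein polynomial of a uniformiser.** -/
theorem exists_eisenstein (h : Hyp R S K L) {ϖ : S} (hϖ : Irreducible ϖ) {π : R}
    (hπ : Irreducible π) :
    ∃ (E : R[X]) (u : Sˣ) (w : Rˣ), E.Monic ∧ E.natDegree = Module.finrank K L ∧
      aeval ϖ E = 0 ∧ E.map (algebraMap R K) = minpoly K (algebraMap S L ϖ) ∧
      (∀ i < E.natDegree, π ∣ E.coeff i) ∧ E.coeff 0 = π * w ∧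
      algebraMap R S π = u * ϖ ^ (Module.finrank K L) ∧
      IntermediateField.adjoin K {algebraMap S L ϖ} = ⊤ := by
  classical
  haveI := isLocalHom_algebraMap h
  obtain ⟨e, u, he, hπe⟩ := exists_unif_pow h hϖ hπ
  have hexp := exists_expansion_lt h hϖ hπ hπe
  obtain ⟨P, m, hPm, hPmap, hsm, hconj, hPmin⟩ := exists_conj_poly h ϖ
  have hϖmem : ϖ ∈ maximalIdeal S := by
    rw [hϖ.maximalIdeal_eq]; exact Ideal.mem_span_singleton_self ϖ
  have hres : (P.map (algebraMap R S)).map (residue S) = X ^ m.card := by
    rw [conj_poly_map_residue h ϖ hPmap hconj, (residue_eq_zero_iff ϖ).mpr hϖmem, C_0, sub_zero]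
  have hcard : m.card = P.natDegree := by
    have h1 := congrArg natDegree hPmap
    rw [natDegree_multiset_prod_X_sub_C_eq_card, hPm.natDegree_map] at h1
    exact h1.symm
  have hlow : ∀ i < P.natDegree, π ∣ P.coeff i := by
    intro i hi
    have h1 : P.coeff i ∈ maximalIdeal R := by
      apply mem_maximalIdeal_of_map_mem h
      rw [← residue_eq_zero_iff, ← coeff_map, ← coeff_map, hres, coeff_X_pow, if_neg]
      omega
    rwa [hπ.maximalIdeal_eq, Ideal.mem_span_singleton] at h1
  have hPϖ : aeval ϖ P = 0 := by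
    rw [aeval_def, ← eval_map, hPmap, eval_multiset_prod]
    apply Multiset.prod_eq_zero
    rw [Multiset.mem_map]
    refine ⟨X - C ϖ, Multiset.mem_map_of_mem _ hsm, ?_⟩
    simp
  have hsum : ϖ ^ P.natDegree +
      ∑ j ∈ Finset.range P.natDegree, algebraMap R S (P.coeff j) * ϖ ^ j = 0 := by
    have h1 := hPϖ
    rw [aeval_eq_sum_range, Finset.sum_range_succ, hPm.coeff_natDegree, one_smul] at h1
    rw [add_comm]
    simpa [Algebra.smul_def] using h1
  -- `e ≤ d`
  have hed : e ≤ P.natDegree := by
    have h1 : algebraMap R S π ∣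
        ∑ j ∈ Finset.range P.natDegree, algebraMap R S (P.coeff j) * ϖ ^ j := by
      apply Finset.dvd_sum
      intro j hj
      exact Dvd.dvd.mul_right (map_dvd (algebraMap R S) (hlow j (Finset.mem_range.mp hj))) _
    have h2 : algebraMap R S π ∣ ϖ ^ P.natDegree := by
      rw [eq_neg_of_add_eq_zero_left hsum]
      exact (dvd_neg).mpr h1
    rw [hπe] at h2
    have h3 : ϖ ^ e ∣ ϖ ^ P.natDegree := dvd_trans ⟨(u : S), by ring⟩ h2
    exact (pow_dvd_pow_iff hϖ.ne_zero hϖ.not_isUnit).mp h3
  -- `d ≤ e`
  have hde : P.natDegree ≤ e := by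
    obtain ⟨c, hc⟩ := hexp (ϖ ^ e)
    have hTdeg : degree (∑ j ∈ Finset.range e, C (c j) * X ^ j) < (e : WithBot ℕ) := by
      rw [degree_lt_iff_coeff_zero]
      intro k hk
      rw [finsetSum_coeff]
      apply Finset.sum_eq_zero
      intro j hj
      rw [coeff_C_mul_X_pow, if_neg]
      have := Finset.mem_range.mp hj
      omega
    have hTm : (X ^ e - ∑ j ∈ Finset.range e, C (c j) * X ^ j : R[X]).Monic :=
      monic_X_pow_sub hTdeg
    have hTnat : (X ^ e - ∑ j ∈ Finset.range e, C (c j) * X ^ j : R[X]).natDegree = e := by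
      have h1 : (X ^ e - ∑ j ∈ Finset.range e, C (c j) * X ^ j : R[X]).degree = e := by
        rw [degree_sub_eq_left_of_degree_lt (by rwa [degree_X_pow]), degree_X_pow]
      exact natDegree_eq_of_degree_eq_some h1
    have hTϖ : aeval ϖ (X ^ e - ∑ j ∈ Finset.range e, C (c j) * X ^ j : R[X]) = 0 := by
      rw [map_sub, map_pow, aeval_X, map_sum, hc, sub_eq_zero]
      apply Finset.sum_congr rfl
      intro j _
      rw [map_mul, aeval_C, map_pow, aeval_X]
    have hTL : aeval (algebraMap S L ϖ)
        ((X ^ e - ∑ j ∈ Finset.range e, C (c j) * X ^ j : R[X]).map (algebraMap R K)) = 0 := by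
      rw [aeval_map_algebraMap, aeval_algebraMap_apply, hTϖ, map_zero]
    have h1 := natDegree_le_of_dvd (minpoly.dvd K _ hTL) (hTm.map _).ne_zero
    rwa [← hPmin, hPm.natDegree_map, hTm.natDegree_map, hTnat] at h1
  have hdeq : P.natDegree = e := le_antisymm hde hed
  -- `K(ϖ) = L`
  have hadj : IntermediateField.adjoin K {algebraMap S L ϖ} = ⊤ := by
    rw [eq_top_iff]
    intro x _
    obtain ⟨a, b, hb, rfl⟩ := IsFractionRing.div_surjective (A := S) x
    have hmem : ∀ s : S, algebraMap S L s ∈ IntermediateField.adjoin K {algebraMap S L ϖ} := by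
      intro s
      obtain ⟨c, hc⟩ := hexp s
      rw [hc, map_sum]
      apply sum_mem
      intro j _
      rw [map_mul, map_pow, ← IsScalarTower.algebraMap_apply R S L,
        IsScalarTower.algebraMap_apply R K L]
      exact mul_mem (IntermediateField.algebraMap_mem _ _)
        (pow_mem (IntermediateField.mem_adjoin_simple_self K _) j)
    exact div_mem (hmem a) (hmem b)
  have hint : IsIntegral K (algebraMap S L ϖ) := Algebra.IsIntegral.isIntegral _
  have hfin : Module.finrank K L = e := by
    rw [← IntermediateField.finrank_top', ← hadj, IntermediateField.adjoin.finrank hint, ← hPmin,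
      hPm.natDegree_map, hdeq]
  -- constant coefficient
  obtain ⟨w0, hw0⟩ := hlow 0 (by omega)
  have hw0u : IsUnit w0 := by
    by_contra hnu
    have h1 : w0 ∈ maximalIdeal R := by rwa [mem_maximalIdeal, mem_nonunits_iff]
    rw [hπ.maximalIdeal_eq, Ideal.mem_span_singleton] at h1
    obtain ⟨w1, hw1⟩ := h1
    -- `ϖ ^ (e+1) ∣ ϖ ^ e`
    have hsum' := hsum
    rw [hdeq] at hsum'
    obtain ⟨e', rfl⟩ : ∃ e', e = e' + 1 := ⟨e - 1, by omega⟩
    rw [Finset.sum_range_succ', pow_zero, mul_one, hw0, hw1] at hsum'
    have h2 : ϖ ^ (e' + 1 + 1) ∣ algebraMap R S (π * (π * w1)) := by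
      rw [map_mul, map_mul, hπe]
      refine ⟨(u : S) * (u : S) * ϖ ^ e' * algebraMap R S w1, by ring⟩
    have h3 : ϖ ^ (e' + 1 + 1) ∣
        ∑ j ∈ Finset.range e', algebraMap R S (P.coeff (j + 1)) * ϖ ^ (j + 1) := by
      apply Finset.dvd_sum
      intro j hj
      have hj' : j + 1 < P.natDegree := by rw [hdeq]; have := Finset.mem_range.mp hj; omega
      obtain ⟨v, hv⟩ := hlow (j + 1) hj'
      rw [hv, map_mul, hπe]
      refine ⟨(u : S) * algebraMap R S v * ϖ ^ j, by ring⟩
    have h4 : ϖ ^ (e' + 1 + 1) ∣ ϖ ^ (e' + 1) := by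
      have : ϖ ^ (e' + 1) = -(∑ j ∈ Finset.range e',
          algebraMap R S (P.coeff (j + 1)) * ϖ ^ (j + 1) + algebraMap R S (π * (π * w1))) :=
        eq_neg_of_add_eq_zero_left hsum'
      rw [this]
      exact (dvd_neg).mpr (dvd_add h3 h2)
    have := (pow_dvd_pow_iff hϖ.ne_zero hϖ.not_isUnit).mp h4
    omega
  refine ⟨P, u, hw0u.unit, hPm, by rw [hdeq, hfin], hPϖ, hPmin, hlow, by rw [hw0]; rfl, ?_, hadj⟩
  rw [hfin]; exact hπe

/-- Packaged form: the polynomial of `exists_eisenstein` is Eisenstein at the maximal ideal. -/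
theorem isEisensteinAt_of {E : R[X]} {π : R} (hπ : Irreducible π) (hE : E.Monic)
    (hlow : ∀ i < E.natDegree, π ∣ E.coeff i) {w : Rˣ} (h0 : E.coeff 0 = π * w) :
    E.IsEisensteinAt (maximalIdeal R) := by
  refine ⟨?_, ?_, ?_⟩
  · rw [hE.leadingCoeff]
    exact fun h1 => (maximalIdeal.isMaximal R).ne_top ((Ideal.eq_top_iff_one _).mpr h1)
  · intro n hn
    rw [hπ.maximalIdeal_eq, Ideal.mem_span_singleton]
    exact hlow n hn
  · rw [hπ.maximalIdeal_eq, Ideal.span_singleton_pow, Ideal.mem_span_singleton, h0, pow_two]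
    intro hdvd
    have h1 : π ∣ (w : R) := (mul_dvd_mul_iff_left hπ.ne_zero).mp hdvd
    exact hπ.not_isUnit (isUnit_of_dvd_unit h1 w.isUnit)

end Unif

end Fermat.Agent.M1.Mod.TotRam34
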